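import Fermat.Agent.ExtVanish.Endgame
import Fermat.Prelude.Def_ExtCitation_AdmissibleExtension_v2

/-!
# Assembly of Ext-vanishing from the Kummer descent and the supply of primes

A non-split admissible extension gives a Kummer element in the `ω²`-component which is locally a
`p`-th power, and there is none; the only case distinction is `p = 3` against `p ≥ 5`.
-/

noncomputable section

open NumberField ExtCitation
open scoped nonZeroDivisors

namespace Fermat.Agent.ExtVanish

/-- The output of the Kummer descent from a non-split admissible extension. -/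
def KummerOutput (p : ℕ) [Fact p.Prime] (K : Type) [Field K] [NumberField K] (z : K) : Prop :=
  ∃ al : 𝓞 K, al ≠ 0 ∧ (∀ y : K, y ^ p ≠ algebraMap (𝓞 K) K al) ∧
    (∀ (s : Gal(K/ℚ)) (a : ℕ), s z = z ^ a → ∃ y : K,
      s (algebraMap (𝓞 K) K al) = algebraMap (𝓞 K) K al ^ (a ^ 2) * y ^ p) ∧
    (∃ I : Ideal (𝓞 K), Ideal.span {al} = I ^ p) ∧
    (∀ n : ℕ, ∃ y : 𝓞 K, al - y ^ p ∈ Ideal.span {(p : 𝓞 K) ^ n})

/-- Ext-vanishing follows from the descent and (for `p ≥ 5`) the supply of primes. -/
theorem extVanishingCts_of_inputs {p : ℕ} [Fact p.Prime] (h3 : 3 ≤ p) (K : Type) [Field K]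
    [NumberField K] [IsCyclotomicExtension {p} ℚ K]
    (hdesc : ∀ (V : Type) [AddCommGroup V] [Module (ZMod p) V]
      [DistribMulAction (AlgebraicClosure ℚ ≃ₐ[ℚ] AlgebraicClosure ℚ) V]
      [SMulCommClass (AlgebraicClosure ℚ ≃ₐ[ℚ] AlgebraicClosure ℚ) (ZMod p) V]
      (C : Submodule (ZMod p) V), IsAdmissibleExtensionCts p V C → ¬ SplitsGlobally C →
      KummerOutput p K (IsCyclotomicExtension.zeta p ℚ K))
    (hS : 5 ≤ p → PrimeSupply p K) : ExtCitation.ExtVanishingCts p := by
  intro V _ _ _ _ C hadm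
  by_contra hns
  obtain ⟨al, hal, hnp, hcomp, hI, hloc⟩ := hdesc V C hadm hns
  have hζ := IsCyclotomicExtension.zeta_spec p ℚ K
  have hcomp' : ∀ σ : Gal(K/ℚ), ∃ y : K,
      σ (algebraMap _ _ al) =
        algebraMap (𝓞 K) _ al ^ (galExp p σ ^ 2) * y ^ p :=
    fun σ => hcomp σ _ (galExp_apply hζ σ)
  have hp := (Fact.out : p.Prime)
  have h : p = 3 ∨ 5 ≤ p := by
    rcases Nat.lt_or_ge p 5 with h | h
    · interval_cases p
      · exact Or.inl rfl
      · exact absurd hp (by decide)
    · exact Or.inr h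
  rcases h with h | h5
  · obtain ⟨y, hy⟩ := isPow_of_component_three h al hal hcomp' hI
    exact hnp y hy
  · obtain ⟨y, hy⟩ := isPow_of_component h5 (hS h5) al hal hcomp' hI hloc
    exact hnp y hy

end Fermat.Agent.ExtVanish
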