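import Mathlib.Algebra.Order.Ring.Star
import Mathlib.NumberTheory.Cyclotomic.Gal
import Mathlib.NumberTheory.NumberField.Cyclotomic.Ideal
import Mathlib.NumberTheory.RamificationInertia.Valuation
import Mathlib.RepresentationTheory.Homological.GroupCohomology.Hilbert90
import Mathlib.RingTheory.RootsOfUnity.Lemmas
import Mathlib.RingTheory.SimpleRing.Principal

/-!
# Thaine's relation in its simplest form

For `q ≡ 1 (mod p)` the element `1 + ζ_p ζ_q` has norm one to `ℚ(ζ_p)`; Hilbert 90 and the norm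
give an element `κ` of `ℚ(ζ_p)` with `p ∣ v(κ)` away from `q` and whose valuations above `q` are
the discrete logarithms of `1 + ζ_p`.
-/

noncomputable section

open NumberField IsDedekindDomain WithZero Polynomial
open scoped Classical Pointwise

namespace Fermat.Agent.ExtVanish

variable {p q : ℕ} [hp : Fact p.Prime] [hq : Fact q.Prime]
variable {K : Type} [Field K] [NumberField K] [IsCyclotomicExtension {p} ℚ K]
variable {M : Type} [Field M] [NumberField M] [Algebra K M] [IsCyclotomicExtension {q} K M]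

lemma irreducible_cyclotomic_of_ne {ζ : K} (hζ : IsPrimitiveRoot ζ p) {ξ : M}
    (hξ : IsPrimitiveRoot ξ q) (hpq : q ≠ p) : Irreducible (cyclotomic q K) := by
  have : FiniteDimensional K M := IsCyclotomicExtension.finiteDimensional {q} K M
  have : FiniteDimensional ℚ M := Module.Finite.trans K M
  have hζM : IsPrimitiveRoot (algebraMap K M ζ) p := hζ.map_of_injective (algebraMap K M).injective
  have h := hζM.lcm_totient_le_finrank hξ (cyclotomic.irreducible_rat
    (Nat.pos_of_ne_zero (Nat.lcm_ne_zero hp.out.ne_zero hq.out.ne_zero)))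
  have hcop : Nat.Coprime p q := (Nat.coprime_primes hp.out hq.out).2 (Ne.symm hpq)
  rw [hcop.lcm_eq_mul, Nat.totient_mul hcop, Nat.totient_prime hp.out, Nat.totient_prime hq.out,
    ← Module.finrank_mul_finrank ℚ K M, IsCyclotomicExtension.Rat.finrank p,
    Nat.totient_prime hp.out, (hξ.powerBasis K).finrank, IsPrimitiveRoot.powerBasis_dim] at h
  have hdeg : q - 1 ≤ (minpoly K ξ).natDegree :=
    Nat.le_of_mul_le_mul_left h (Nat.sub_pos_of_lt hp.out.one_lt)
  have hint : IsIntegral K ξ := Algebra.IsIntegral.isIntegral ξ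
  have hdvd : minpoly K ξ ∣ cyclotomic q K := minpoly.dvd K ξ (by
    rw [aeval_def, eval₂_eq_eval_map, map_cyclotomic]
    exact hξ.isRoot_cyclotomic hq.out.pos)
  have heq := eq_of_monic_of_dvd_of_natDegree_le (minpoly.monic hint) (cyclotomic.monic q K) hdvd
    (by rw [natDegree_cyclotomic, Nat.totient_prime hq.out]; exact hdeg)
  rw [heq]
  exact minpoly.irreducible hint

/-- A prime congruent to `1` modulo a prime is odd. -/
lemma odd_of_natCast_eq_one (hq1 : (q : ZMod p) = 1) : Odd q :=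
  hq.out.odd_of_ne_two (by
    rintro rfl
    have h1 : ((1 : ℕ) : ZMod p) = 0 := by
      push_cast at hq1 ⊢
      linear_combination hq1
    rw [ZMod.natCast_eq_zero_iff, Nat.dvd_one] at h1
    exact hp.out.ne_one h1)

omit [IsCyclotomicExtension {p} ℚ K] in
/-- The norm of `1 + ζ_p ζ_q` is one. -/
lemma norm_one_add_mul {ζ : K} (hζ : IsPrimitiveRoot ζ p) {ξ : M} (hξ : IsPrimitiveRoot ξ q)
    (hp2 : p ≠ 2) (hq1 : (q : ZMod p) = 1) (hirr : Irreducible (cyclotomic q K)) :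
    Algebra.norm K (1 + algebraMap K M ζ * ξ) = 1 := by
  have : FiniteDimensional K M := IsCyclotomicExtension.finiteDimensional {q} K M
  have : IsGalois K M := IsCyclotomicExtension.isGalois {q} K M
  have hqodd : Odd q := odd_of_natCast_eq_one hq1
  have hζq : algebraMap K M ζ ^ q = algebraMap K M ζ := by
    rw [← map_pow]
    congr 1
    have hmod : q % p = 1 := by
      have := (ZMod.natCast_eq_natCast_iff' q 1 p).1 (by simpa using hq1)
      rwa [Nat.mod_eq_of_lt hp.out.one_lt] at this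
    conv_lhs => rw [← Nat.div_add_mod q p, hmod, pow_succ, pow_mul, hζ.pow_eq_one, one_pow, one_mul]
  have hprod := hξ.pow_sub_pow_eq_prod_sub_mul (1 : M) (-algebraMap K M ζ) hq.out.pos
  rw [one_pow, hqodd.neg_pow, sub_neg_eq_add, hζq] at hprod
  have h1 : (1 : M) ∈ nthRootsFinset q (1 : M) := (mem_nthRootsFinset hq.out.pos _).2 (one_pow _)
  rw [← Finset.mul_prod_erase _ _ h1, one_mul, sub_neg_eq_add] at hprod
  have hne : (1 : M) + algebraMap K M ζ ≠ 0 := by
    intro h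
    have hζ' : ζ = -1 := (algebraMap K M).injective (by
      rw [map_neg, map_one]; linear_combination h)
    have h2 := hζ.pow_eq_one
    rw [hζ', (hp.out.odd_of_ne_two hp2).neg_one_pow] at h2
    norm_num at h2
  have hrest : ∏ μ ∈ (nthRootsFinset q (1 : M)).erase 1, (1 + algebraMap K M ζ * μ) = 1 := by
    have h := hprod
    simp only [mul_neg, sub_neg_eq_add] at h
    have h' := mul_left_cancel₀ hne ((mul_one _).trans h)
    exact (Finset.prod_congr rfl fun μ _ => by rw [mul_comm (algebraMap K M ζ) μ]).trans h'.symm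
  apply (algebraMap K M).injective
  rw [Algebra.norm_eq_prod_automorphisms, (algebraMap K M).map_one]
  refine Eq.trans ?_ hrest
  refine Finset.prod_bij (fun σ _ => σ ξ) (fun σ _ => ?_) (fun σ _ τ _ h => ?_) (fun μ hμ => ?_)
    (fun σ _ => by simp only [map_add, map_one, map_mul, AlgEquiv.commutes])
  · rw [Finset.mem_erase, mem_nthRootsFinset hq.out.pos, ← map_pow, hξ.pow_eq_one, map_one]
    exact ⟨fun h => hξ.ne_one hq.out.one_lt (σ.injective (h.trans (map_one σ).symm)), rfl⟩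
  · exact AlgEquiv.coe_toAlgHom_injective ((hξ.powerBasis K).algHom_ext (by simpa using h))
  · rw [Finset.mem_erase, mem_nthRootsFinset hq.out.pos] at hμ
    have hμ' : IsPrimitiveRoot μ q := by
      rw [IsPrimitiveRoot.iff_orderOf]
      exact orderOf_eq_prime hμ.2 hμ.1
    refine ⟨IsCyclotomicExtension.fromZetaAut hμ' hirr *
      (IsCyclotomicExtension.fromZetaAut hξ hirr)⁻¹, Finset.mem_univ _, ?_⟩
    have e1 := IsCyclotomicExtension.fromZetaAut_spec hξ hirr
    have e2 := IsCyclotomicExtension.fromZetaAut_spec hμ' hirr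
    rw [AlgEquiv.mul_apply, AlgEquiv.aut_inv,
      (AlgEquiv.symm_apply_eq _).2 e1.symm, e2]

omit [NumberField K] [IsCyclotomicExtension {p} ℚ K] [NumberField M] in
/-- A finite place away from `q` is unramified in `K(ζ_q)`. -/
lemma card_inertia_eq_one {ξ : M} (hξ : IsPrimitiveRoot ξ q) (R : Ideal (𝓞 M)) [R.IsPrime]
    (hR : (q : 𝓞 M) ∉ R) : Nat.card (R.inertia Gal(M/K)) = 1 := by
  have hξi := hξ.toInteger_isPrimitiveRoot
  have hval : ∀ σ : Gal(M/K), σ ∈ R.inertia Gal(M/K) → σ = 1 := by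
    intro σ hσ
    have hmem : σ • hξ.toInteger - hξ.toInteger ∈ R := hσ hξ.toInteger
    have hpow : (σ • hξ.toInteger) ^ q = 1 := by
      rw [← smul_pow', hξi.pow_eq_one, smul_one]
    obtain ⟨j, hjq, hj⟩ := hξi.eq_pow_of_pow_eq_one hpow
    by_cases hj1 : j = 1
    · refine AlgEquiv.coe_toAlgHom_injective ((hξ.powerBasis K).algHom_ext ?_)
      subst hj1
      rw [pow_one] at hj
      show σ ξ = ξ
      exact congrArg (algebraMap (𝓞 M) M) hj.symm
    · exfalso
      rw [← hj] at hmem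
      have hassoc : ∀ i, 1 ≤ i → i < q → hξ.toInteger ^ i - 1 ∉ R := by
        intro i hi1 hiq h
        apply hR
        have hi : IsPrimitiveRoot (hξ.toInteger ^ i) q :=
          hξi.pow_of_coprime i ((Nat.coprime_of_lt_prime (by omega) hiq hq.out).symm)
        obtain ⟨w, -, h2⟩ := hi.self_sub_one_pow_dvd_order hq.out.one_lt
        rw [h2, pow_one]
        exact R.mul_mem_left w h
      rcases Nat.eq_zero_or_pos j with rfl | hjpos
      · rw [pow_zero, ← neg_mem_iff, neg_sub] at hmem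
        exact hassoc 1 le_rfl hq.out.one_lt (by rwa [pow_one])
      · have hfac : hξ.toInteger ^ j - hξ.toInteger =
            hξ.toInteger * (hξ.toInteger ^ (j - 1) - 1) := by
          rw [mul_sub, mul_one, ← pow_succ', Nat.sub_add_cancel hjpos]
        rw [hfac] at hmem
        rcases ‹R.IsPrime›.mem_or_mem hmem with h | h
        · exact ‹R.IsPrime›.ne_top (R.eq_top_of_isUnit_mem h
            (hξi.isUnit hq.out.ne_zero))
        · exact hassoc (j - 1) (by omega) (by omega) h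
  rw [Nat.card_eq_one_iff_unique]
  exact ⟨⟨fun a b => Subtype.ext ((hval _ a.2).trans (hval _ b.2).symm)⟩, ⟨⟨1, one_mem _⟩⟩⟩

omit [IsCyclotomicExtension {p} ℚ K] in
lemma ramificationIdx'_eq_card_inertia [FiniteDimensional K M] [IsGalois K M]
    (Q : HeightOneSpectrum (𝓞 K))
    (R : HeightOneSpectrum (𝓞 M)) [R.asIdeal.LiesOver Q.asIdeal] :
    Q.asIdeal.ramificationIdx' R.asIdeal = Nat.card (R.asIdeal.inertia Gal(M/K)) := by
  have : Q.asIdeal.IsMaximal := Q.isMaximal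
  have : Finite (𝓞 K ⧸ Q.asIdeal) := Ideal.finiteQuotientOfFreeOfNeBot _ Q.ne_bot
  rw [Ideal.card_inertia_eq_ramificationIdxIn (G := Gal(M/K)) Q.asIdeal R.asIdeal,
    Ideal.ramificationIdxIn_eq_ramificationIdx Q.asIdeal R.asIdeal Gal(M/K),
    Ideal.ramificationIdx'_eq_ramificationIdx _ _ Q.ne_bot]

lemma valuation_natCast_self (hpq : q ≠ p) (Q : HeightOneSpectrum (𝓞 K))
    (hQ : (q : 𝓞 K) ∈ Q.asIdeal) : Q.intValuation (q : 𝓞 K) = exp (-1 : ℤ) := by
  have hmax : (Ideal.span {(q : ℤ)}).IsMaximal :=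
    Int.ideal_span_isMaximal_of_prime q
  have hlo : Q.asIdeal.LiesOver (Ideal.span {(q : ℤ)}) := by
    refine ⟨hmax.eq_of_le (Ideal.IsPrime.under ℤ Q.asIdeal).ne_top ?_⟩
    rw [Ideal.span_singleton_le_iff_mem, Ideal.mem_comap]
    simpa using hQ
  have hnd : ¬ q ∣ p := fun h => hpq ((Nat.prime_dvd_prime_iff_eq hq.out hp.out).1 h)
  have he := IsCyclotomicExtension.Rat.ramificationIdx_eq_of_not_dvd (p := q) K Q.asIdeal hnd
  have hmap : (Ideal.span {(q : ℤ)}).map (algebraMap ℤ (𝓞 K)) = Ideal.span {(q : 𝓞 K)} := by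
    rw [Ideal.map_span, Set.image_singleton, map_natCast]
  have hq0 : (q : 𝓞 K) ≠ 0 := Nat.cast_ne_zero.2 hq.out.ne_zero
  rw [Ideal.IsDedekindDomain.ramificationIdx_eq_multiplicity (Ideal.span {(q : ℤ)}) Q.asIdeal (by
    rw [hmap, Ne, Ideal.span_singleton_eq_bot]; exact hq0), hmap] at he
  rw [HeightOneSpectrum.intValuation_eq_exp_neg_multiplicity _ hq0, he, Nat.cast_one]

omit [NumberField K] [NumberField M] in
/-- The Galois group of `K(ζ_q)/K` has a generator, which raises `ξ` to a primitive root modulo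
`q`. -/
lemma exists_generator_apply_eq_pow {ξ : M} (hξ : IsPrimitiveRoot ξ q)
    (hirr : Irreducible (cyclotomic q K)) :
    ∃ (σ : Gal(M/K)) (s : ℕ), (∀ τ, τ ∈ Subgroup.zpowers σ) ∧ σ ξ = ξ ^ s ∧
      Nat.card Gal(M/K) = q - 1 ∧ orderOf (s : ZMod q) = q - 1 := by
  have : FiniteDimensional K M := IsCyclotomicExtension.finiteDimensional {q} K M
  let e := IsCyclotomicExtension.autEquivPow M hirr
  have : IsCyclic Gal(M/K) := isCyclic_of_surjective e.symm e.symm.surjective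
  have hcard : Nat.card Gal(M/K) = q - 1 := by
    rw [Nat.card_congr e.toEquiv, Nat.card_eq_fintype_card, ZMod.card_units]
  obtain ⟨σ, hσ⟩ := IsCyclic.exists_generator (α := Gal(M/K))
  refine ⟨σ, ((hξ.autToPow K σ : (ZMod q)ˣ) : ZMod q).val, hσ, (hξ.autToPow_spec K σ).symm,
    hcard, ?_⟩
  simp only [ZMod.natCast_zmod_val, orderOf_units,
    orderOf_injective (hξ.autToPow K) (hξ.autToPow_injective K) σ,
    orderOf_eq_card_of_forall_mem_zpowers hσ, hcard]

omit [NumberField K] [NumberField M] [IsCyclotomicExtension {p} ℚ K]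
  [IsCyclotomicExtension {q} K M] in
/-- `1 + ζ_p ζ_q` is a unit. -/
lemma isUnit_one_add_mul {ζ : K} (hζ : IsPrimitiveRoot ζ p) {ξ : M} (hξ : IsPrimitiveRoot ξ q)
    (hp2 : p ≠ 2) (hpq : q ≠ p) (hq1 : (q : ZMod p) = 1) :
    IsUnit (1 + algebraMap (𝓞 K) (𝓞 M) hζ.toInteger * hξ.toInteger) := by
  have hζM : IsPrimitiveRoot (algebraMap K M ζ) p := hζ.map_of_injective (algebraMap K M).injective
  have hcop : Nat.Coprime p q := (Nat.coprime_primes hp.out hq.out).2 (Ne.symm hpq)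
  have hζξ : IsPrimitiveRoot (algebraMap K M ζ * ξ) (p * q) := by
    rw [IsPrimitiveRoot.iff_orderOf, (Commute.all _ _).orderOf_mul_eq_mul_orderOf_of_coprime]
    · rw [hζM.eq_orderOf, hξ.eq_orderOf]
    · rw [← hζM.eq_orderOf, ← hξ.eq_orderOf]; exact hcop
  have hprim : IsPrimitiveRoot (algebraMap (𝓞 K) (𝓞 M) hζ.toInteger * hξ.toInteger) (p * q) :=
    (IsPrimitiveRoot.map_iff_of_injective (f := algebraMap (𝓞 M) M)
      RingOfIntegers.coe_injective).1 hζξ
  have := hprim.geom_sum_isUnit (j := 2)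
    (le_trans hp.out.two_le (Nat.le_mul_of_pos_right _ hq.out.pos))
    (Nat.coprime_two_left.2 ((hp.out.odd_of_ne_two hp2).mul (odd_of_natCast_eq_one hq1)))
  simpa [Finset.sum_range_succ] using this

omit [NumberField K] [NumberField M] hq [IsCyclotomicExtension {p} ℚ K]
  [IsCyclotomicExtension {q} K M] in
/-- If a generator of the Galois group changes `z` by a unit of `𝓞 M`, so does every element. -/
lemma forall_apply_eq_unit_mul [FiniteDimensional K M] {σ : Gal(M/K)}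
    (hσ : ∀ τ, τ ∈ Subgroup.zpowers σ) {u : 𝓞 M} (hu : IsUnit u) {z : M}
    (hσz : σ z = algebraMap (𝓞 M) M u * z) (τ : Gal(M/K)) :
    ∃ v : (𝓞 M)ˣ, τ z = algebraMap (𝓞 M) M (v : 𝓞 M) * z := by
  have hpow : ∀ i : ℕ, ∃ v : (𝓞 M)ˣ, (σ ^ i) z = algebraMap (𝓞 M) M (v : 𝓞 M) * z := by
    intro i
    induction i with
    | zero => exact ⟨1, by simp⟩
    | succ i ih =>
      obtain ⟨v, hv⟩ := ih
      refine ⟨(hu.map (MulSemiringAction.toRingHom Gal(M/K) (𝓞 M) (σ ^ i))).unit * v, ?_⟩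
      rw [pow_succ, AlgEquiv.mul_apply, hσz, map_mul, hv, Units.val_mul, map_mul, ← mul_assoc,
        IsUnit.unit_spec]
      rfl
  obtain ⟨i, rfl⟩ := mem_powers_iff_mem_zpowers.2 (hσ τ)
  exact hpow i

omit [NumberField K] hq [IsCyclotomicExtension {p} ℚ K] [IsCyclotomicExtension {q} K M] in
/-- A unit of `𝓞 M` has trivial valuation at every place. -/
lemma valuation_algebraMap_of_isUnit (R : HeightOneSpectrum (𝓞 M)) {u : 𝓞 M} (hu : IsUnit u) :
    R.valuation M (algebraMap (𝓞 M) M u) = 1 :=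
  (HeightOneSpectrum.valuation_eq_one_iff_notMem R).2 fun h =>
    R.isPrime.ne_top (Ideal.eq_top_of_isUnit_mem _ h hu)

omit [NumberField K] hq [IsCyclotomicExtension {p} ℚ K] [IsCyclotomicExtension {q} K M] in
/-- If all conjugates of `z` are unit multiples of `z`, the norm of `z` has the valuations of
`z ^ [M : K]`. -/
lemma valuation_norm_eq_pow [FiniteDimensional K M] [IsGalois K M] {z : M}
    (hz : ∀ τ : Gal(M/K), ∃ v : (𝓞 M)ˣ, τ z = algebraMap (𝓞 M) M (v : 𝓞 M) * z)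
    (R : HeightOneSpectrum (𝓞 M)) :
    R.valuation M (algebraMap K M (Algebra.norm K z)) =
      R.valuation M z ^ Nat.card Gal(M/K) := by
  choose v hv using hz
  simp only [Algebra.norm_eq_prod_automorphisms, hv, Finset.prod_mul_distrib, Finset.prod_const,
    Finset.card_univ, ← Nat.card_eq_fintype_card, map_mul, map_pow, map_prod,
    valuation_algebraMap_of_isUnit R (Units.isUnit _), one_pow, one_mul]

omit [IsCyclotomicExtension {p} ℚ K] in
/-- Away from `q` the extension is unramified, so an element of `K` with the valuation of a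
`(q - 1)`-st power has valuation divisible by `p`. -/
lemma exists_valuation_eq_exp_mul {ξ : M} (hξ : IsPrimitiveRoot ξ q) (hq1 : (q : ZMod p) = 1)
    (Q : HeightOneSpectrum (𝓞 K)) (hQ : (q : 𝓞 K) ∉ Q.asIdeal) (R : HeightOneSpectrum (𝓞 M))
    [R.asIdeal.LiesOver Q.asIdeal] {x : K} {z : M} (hz : z ≠ 0)
    (hx : R.valuation M (algebraMap K M x) = R.valuation M z ^ (q - 1)) :
    ∃ m : ℤ, Q.valuation K x = exp ((p : ℤ) * m) := by
  have : FiniteDimensional K M := IsCyclotomicExtension.finiteDimensional {q} K M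
  have : IsGalois K M := IsCyclotomicExtension.isGalois {q} K M
  have hR : (q : 𝓞 M) ∉ R.asIdeal := by
    rwa [← map_natCast (algebraMap (𝓞 K) (𝓞 M)) q,
      ← Ideal.mem_of_liesOver R.asIdeal Q.asIdeal]
  have he := ramificationIdx'_eq_card_inertia Q R
  rw [card_inertia_eq_one hξ R.asIdeal hR] at he
  have h := HeightOneSpectrum.valuation_liesOver M Q R x
  rw [he, pow_one, hx] at h
  obtain ⟨k, hk⟩ : p ∣ q - 1 := by
    rw [← ZMod.natCast_eq_zero_iff, Nat.cast_sub hq.out.one_le, hq1, Nat.cast_one, sub_self]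
  refine ⟨(k : ℤ) * WithZero.log (R.valuation M z), ?_⟩
  rw [h, ← WithZero.exp_log ((R.valuation M).ne_zero_iff.2 hz), ← WithZero.exp_nsmul,
    WithZero.exp_log ((R.valuation M).ne_zero_iff.2 hz)]
  congr 1
  rw [nsmul_eq_mul, hk]
  push_cast
  ring

omit [NumberField K] [NumberField M] [IsCyclotomicExtension {p} ℚ K] in
/-- In `ℤ[ζ_q]` the prime `q` is associated to `(ζ_q - 1) ^ (q - 1)`. -/
lemma associated_natCast_toInteger_sub_one_pow {ξ : M} (hξ : IsPrimitiveRoot ξ q) :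
    Associated (q : 𝓞 M) ((hξ.toInteger - 1) ^ (q - 1)) := by
  have hξi := hξ.toInteger_isPrimitiveRoot
  obtain ⟨m, hm⟩ : ∃ m, q = m + 1 := ⟨q - 1, (Nat.sub_add_cancel hq.out.one_le).symm⟩
  have hξm : IsPrimitiveRoot hξ.toInteger (m + 1) := hm ▸ hξi
  have hprod := hξm.prod_one_sub_pow_eq_order
  rw [show (q : 𝓞 M) = (m : 𝓞 M) + 1 by rw [hm]; push_cast; rfl, ← hprod,
    ← Associates.mk_eq_mk_iff_associated, ← Associates.finsetProd_mk]
  rw [Finset.prod_eq_pow_card (b := Associates.mk (hξ.toInteger - 1)), Finset.card_range,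
    ← Associates.mk_pow, show q - 1 = m by omega]
  intro k hk
  rw [Finset.mem_range] at hk
  rw [Associates.mk_eq_mk_iff_associated]
  have h1 := hξi.associated_sub_one_pow_sub_one_of_coprime (j := k + 1)
    (Nat.coprime_of_lt_prime (Nat.succ_ne_zero k) (by omega) hq.out).symm
  rw [← neg_sub (hξ.toInteger ^ (k + 1)) 1]
  exact h1.symm.neg_left

/-- Above `q` the extension is totally ramified and `ζ_q - 1` is a uniformiser. -/
lemma ramified_above {ξ : M} (hξ : IsPrimitiveRoot ξ q) (hpq : q ≠ p)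
    (hcard : Nat.card Gal(M/K) = q - 1) (Q : HeightOneSpectrum (𝓞 K))
    (hQ : (q : 𝓞 K) ∈ Q.asIdeal) (R : HeightOneSpectrum (𝓞 M))
    [R.asIdeal.LiesOver Q.asIdeal] :
    Q.asIdeal.ramificationIdx' R.asIdeal = q - 1 ∧
      R.valuation M (algebraMap (𝓞 M) M (hξ.toInteger - 1)) = exp (-1 : ℤ) := by
  have : FiniteDimensional K M := IsCyclotomicExtension.finiteDimensional {q} K M
  have : IsGalois K M := IsCyclotomicExtension.isGalois {q} K M
  have hR : (q : 𝓞 M) ∈ R.asIdeal := by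
    rwa [← map_natCast (algebraMap (𝓞 K) (𝓞 M)) q,
      ← Ideal.mem_of_liesOver R.asIdeal Q.asIdeal]
  set lam : 𝓞 M := hξ.toInteger - 1
  have hassoc : Associated (q : 𝓞 M) (lam ^ (q - 1)) :=
    associated_natCast_toInteger_sub_one_pow hξ
  have hlam : lam ∈ R.asIdeal :=
    R.isPrime.mem_of_pow_mem _ (R.asIdeal.mem_of_dvd hassoc.dvd hR)
  obtain ⟨u, hu⟩ := hassoc
  have hvq : R.valuation M (algebraMap (𝓞 M) M lam) ^ (q - 1) =
      exp (-((Q.asIdeal.ramificationIdx' R.asIdeal : ℕ) : ℤ)) := by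
    have h := HeightOneSpectrum.valuation_liesOver M Q R (q : K)
    rw [← map_natCast (algebraMap (𝓞 K) K) q, HeightOneSpectrum.valuation_of_algebraMap,
      valuation_natCast_self hpq Q hQ, ← WithZero.exp_nsmul, map_natCast, map_natCast] at h
    rw [← map_pow, ← map_pow, ← hu, map_mul, map_mul,
      valuation_algebraMap_of_isUnit R u.isUnit, mul_one, map_natCast, ← h, nsmul_eq_mul,
      mul_neg, mul_one]
  have he_le : Q.asIdeal.ramificationIdx' R.asIdeal ≤ q - 1 := by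
    rw [ramificationIdx'_eq_card_inertia Q R, ← hcard]
    exact Nat.card_le_card_of_injective _ Subtype.val_injective
  have hlam0 : R.valuation M (algebraMap (𝓞 M) M lam) ≠ 0 := by
    rw [(R.valuation M).ne_zero_iff, map_ne_zero_iff _ RingOfIntegers.coe_injective]
    exact sub_ne_zero.2 (hξ.toInteger_isPrimitiveRoot.ne_one hq.out.one_lt)
  have hloglam : WithZero.log (R.valuation M (algebraMap (𝓞 M) M lam)) ≤ -1 := by
    have h1 : R.valuation M (algebraMap (𝓞 M) M lam) < exp 0 := by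
      rw [WithZero.exp_zero, HeightOneSpectrum.valuation_lt_one_iff_mem]; exact hlam
    have := (WithZero.log_lt_iff_lt_exp hlam0).2 h1
    omega
  have hexp : ((q - 1 : ℕ) : ℤ) * WithZero.log (R.valuation M (algebraMap (𝓞 M) M lam)) =
      -((Q.asIdeal.ramificationIdx' R.asIdeal : ℕ) : ℤ) := by
    have := congrArg WithZero.log hvq
    rwa [WithZero.log_pow, WithZero.log_exp, nsmul_eq_mul] at this
  have hq1pos : 0 < q - 1 := Nat.sub_pos_of_lt hq.out.one_lt
  have hee : Q.asIdeal.ramificationIdx' R.asIdeal = q - 1 := by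
    refine le_antisymm he_le ?_
    by_contra hlt
    push Not at hlt
    nlinarith
  refine ⟨hee, ?_⟩
  rw [hee] at hexp
  rw [← WithZero.exp_log hlam0]
  congr 1
  nlinarith

omit [NumberField K] hq [IsCyclotomicExtension {p} ℚ K] [IsCyclotomicExtension {q} K M] in
/-- An element of valuation `exp (-n)` is a quotient of two units at `R` times `π ^ n`, for a
uniformiser `π`. -/
lemma exists_mul_eq_zpow_mul (R : HeightOneSpectrum (𝓞 M)) {π z : M} {n : ℤ}
    (hπ : R.valuation M π = exp (-1 : ℤ)) (hz : R.valuation M z = exp (-n)) :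
    ∃ a b : 𝓞 M, a ∉ R.asIdeal ∧ b ∉ R.asIdeal ∧
      z * algebraMap (𝓞 M) M b = π ^ n * algebraMap (𝓞 M) M a := by
  have hπ0 : π ≠ 0 := (R.valuation M).ne_zero_iff.1 (by rw [hπ]; exact WithZero.exp_ne_zero)
  have hwv : R.valuation M (z / π ^ n) = 1 := by
    rw [map_div₀, map_zpow₀, hπ, hz, ← WithZero.exp_zsmul, smul_eq_mul, mul_neg, mul_one,
      div_self WithZero.exp_ne_zero]
  obtain ⟨a, b, hab⟩ := R.exists_primeCompl_mul_eq_of_integer (z / π ^ n) hwv.le
  refine ⟨a, b, fun h => ?_, b.2, ?_⟩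
  · have h' := congrArg (R.valuation M) hab
    rw [map_mul, hwv, one_mul, (HeightOneSpectrum.valuation_eq_one_iff_notMem R).2 b.2] at h'
    exact absurd h ((HeightOneSpectrum.valuation_eq_one_iff_notMem R).1 h'.symm)
  · rw [← hab]
    field_simp

omit [NumberField K] [IsCyclotomicExtension {p} ℚ K] [IsCyclotomicExtension {q} K M] in
/-- The tame character: if `σ ζ_q = ζ_q ^ s` acts trivially modulo a place `R` at which
`ζ_q - 1` is a uniformiser and `σ z = u z`, then `u ≡ s ^ v(z)` modulo `R`. -/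
lemma mk_mul_pow_eq_pow {ξ : M} (hξ : IsPrimitiveRoot ξ q) {σ : Gal(M/K)} {s : ℕ}
    (hs : σ ξ = ξ ^ s) (R : HeightOneSpectrum (𝓞 M))
    (hinert : ∀ x : 𝓞 M, σ • x - x ∈ R.asIdeal)
    (hlv : R.valuation M (algebraMap (𝓞 M) M (hξ.toInteger - 1)) = exp (-1 : ℤ))
    {u : 𝓞 M} {z : M} {n₁ n₂ : ℕ} (hσz : σ z = algebraMap (𝓞 M) M u * z)
    (hzv : R.valuation M z = exp (-((n₁ : ℤ) - n₂))) :
    Ideal.Quotient.mk R.asIdeal u * (s : 𝓞 M ⧸ R.asIdeal) ^ n₂ =
      (s : 𝓞 M ⧸ R.asIdeal) ^ n₁ := by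
  set lam : 𝓞 M := hξ.toInteger - 1
  set L : M := algebraMap (𝓞 M) M lam with hL
  let g : 𝓞 M := ∑ k ∈ Finset.range s, hξ.toInteger ^ k
  have hsmul : ∀ x : 𝓞 M, σ (algebraMap (𝓞 M) M x) = algebraMap (𝓞 M) M (σ • x) := fun x => rfl
  have hσL : σ L = algebraMap (𝓞 M) M g * L := by
    have hsi : σ • hξ.toInteger = hξ.toInteger ^ s := RingOfIntegers.ext (by
      show σ ξ = algebraMap (𝓞 M) M (hξ.toInteger ^ s)
      rw [map_pow]; exact hs)
    rw [hL, hsmul, ← map_mul, geom_sum_mul, ← hsi]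
    simp [lam, smul_sub]
  have hL0 : L ≠ 0 := (R.valuation M).ne_zero_iff.1 (by rw [hlv]; exact WithZero.exp_ne_zero)
  have hG0 : algebraMap (𝓞 M) M g ≠ 0 := by
    intro h
    rw [h, zero_mul] at hσL
    exact hL0 (σ.injective (hσL.trans (map_zero σ).symm))
  obtain ⟨a, b, ha, hb, hab⟩ := exists_mul_eq_zpow_mul R hlv hzv
  -- apply `σ` to `z * b = L ^ (n₁ - n₂) * a`
  have hkey : g ^ n₁ * (σ • a) * b = u * g ^ n₂ * a * (σ • b) := by
    apply RingOfIntegers.coe_injective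
    simp only [map_mul, map_pow, ← hsmul]
    have h1 := congrArg σ hab
    rw [map_mul, map_mul, hσz, map_zpow₀, hσL, mul_zpow, zpow_sub₀ hG0, zpow_natCast,
      zpow_natCast] at h1
    have hL' : L ^ ((n₁ : ℤ) - n₂) ≠ 0 := zpow_ne_zero _ hL0
    refine mul_left_cancel₀ hL' ?_
    field_simp at h1
    linear_combination (-algebraMap (𝓞 M) M b) * h1 +
      (algebraMap (𝓞 M) M u * algebraMap (𝓞 M) M g ^ n₂ * σ (algebraMap (𝓞 M) M b)) * hab
  let π := Ideal.Quotient.mk R.asIdeal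
  have : R.asIdeal.IsMaximal := R.isMaximal
  have hres : ∀ x : 𝓞 M, π (σ • x) = π x := fun x =>
    (Ideal.Quotient.mk_eq_mk_iff_sub_mem _ _).2 (hinert x)
  have hξ1 : π hξ.toInteger = 1 := by
    rw [← map_one π, Ideal.Quotient.mk_eq_mk_iff_sub_mem,
      ← HeightOneSpectrum.valuation_lt_one_iff_mem (K := M), hlv, ← WithZero.exp_zero,
      WithZero.exp_lt_exp]
    norm_num
  have hg : π g = (s : 𝓞 M ⧸ R.asIdeal) := by simp [g, hξ1]
  have h2 := congrArg π hkey
  simp only [map_mul, map_pow, hres, hg] at h2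
  refine mul_right_cancel₀ (mul_ne_zero (fun h => ha (Ideal.Quotient.eq_zero_iff_mem.1 h))
    (fun h => hb (Ideal.Quotient.eq_zero_iff_mem.1 h)) : π a * π b ≠ 0) ?_
  linear_combination -h2

omit [NumberField K] [IsCyclotomicExtension {p} ℚ K] [IsCyclotomicExtension {q} K M] in
/-- In the situation of `mk_mul_pow_eq_pow` a primitive root `s` modulo `q` makes `v(z)` the
discrete logarithm of `u`. -/
lemma sub_pow_mem_of_dvd_sub {ξ : M} (hξ : IsPrimitiveRoot ξ q) {σ : Gal(M/K)} {s : ℕ}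
    (hs : σ ξ = ξ ^ s) (hsord : orderOf (s : ZMod q) = q - 1) (R : HeightOneSpectrum (𝓞 M))
    (hR : (q : 𝓞 M) ∈ R.asIdeal) (hinert : ∀ x : 𝓞 M, σ • x - x ∈ R.asIdeal)
    (hlv : R.valuation M (algebraMap (𝓞 M) M (hξ.toInteger - 1)) = exp (-1 : ℤ))
    {u : 𝓞 M} {z : M} {n : ℤ} (hσz : σ z = algebraMap (𝓞 M) M u * z)
    (hzv : R.valuation M z = exp (-n)) {i : ℕ} (hi : ((q - 1 : ℕ) : ℤ) ∣ n - i) :
    u - (s : 𝓞 M) ^ i ∈ R.asIdeal := by
  obtain ⟨n₁, n₂, rfl⟩ : ∃ n₁ n₂ : ℕ, n = (n₁ : ℤ) - n₂ :=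
    ⟨n.toNat, (-n).toNat, (Int.toNat_sub_toNat_neg n).symm⟩
  have h := mk_mul_pow_eq_pow hξ hs R hinert hlv hσz hzv
  have : R.asIdeal.IsMaximal := R.isMaximal
  have : CharP (𝓞 M ⧸ R.asIdeal) q := by
    refine (CharP.charP_iff_prime_eq_zero hq.out).2 ?_
    rw [← map_natCast (Ideal.Quotient.mk R.asIdeal), Ideal.Quotient.eq_zero_iff_mem]; exact hR
  let f : ZMod q →+* 𝓞 M ⧸ R.asIdeal := ZMod.castHom (dvd_refl q) _
  have hsf : f (s : ZMod q) = (s : 𝓞 M ⧸ R.asIdeal) := map_natCast f s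
  have hq1pos : 0 < q - 1 := Nat.sub_pos_of_lt hq.out.one_lt
  have hs0 : (s : 𝓞 M ⧸ R.asIdeal) ≠ 0 := by
    rw [← hsf, _root_.map_ne_zero]
    intro h
    rw [h, orderOf_zero] at hsord
    omega
  have hpoweq : (s : ZMod q) ^ n₁ = (s : ZMod q) ^ (i + n₂) := by
    rw [(orderOf_pos_iff.1 (by omega)).pow_eq_pow_iff_modEq, hsord, Nat.modEq_iff_dvd]
    obtain ⟨c, hc⟩ := hi
    exact ⟨-c, by push_cast at hc ⊢; linear_combination -hc⟩
  rw [← hsf, ← map_pow f _ n₁, hpoweq, map_pow, pow_add, hsf] at h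
  rw [← Ideal.Quotient.mk_eq_mk_iff_sub_mem, map_pow, map_natCast]
  exact mul_right_cancel₀ (pow_ne_zero _ hs0) h

/-- Thaine's element. -/
theorem exists_thaine_aux {ζ : K} (hζ : IsPrimitiveRoot ζ p) {ξ : M} (hξ : IsPrimitiveRoot ξ q)
    (hp2 : p ≠ 2) (hpq : q ≠ p) (hq1 : (q : ZMod p) = 1) :
    ∃ (κ : K) (s : ℕ), κ ≠ 0 ∧ orderOf (s : ZMod q) = q - 1 ∧
      (∀ Q : HeightOneSpectrum (𝓞 K), (q : 𝓞 K) ∉ Q.asIdeal →
        ∃ m : ℤ, Q.valuation K κ = exp ((p : ℤ) * m)) ∧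
      (∀ Q : HeightOneSpectrum (𝓞 K), (q : 𝓞 K) ∈ Q.asIdeal →
        ∃ n : ℤ, Q.valuation K κ = exp (-n) ∧
          ∀ i : ℕ, ((q - 1 : ℕ) : ℤ) ∣ n - i → 1 + hζ.toInteger - (s : 𝓞 K) ^ i ∈ Q.asIdeal) := by
  have : FiniteDimensional K M := IsCyclotomicExtension.finiteDimensional {q} K M
  have : IsGalois K M := IsCyclotomicExtension.isGalois {q} K M
  have hirr := irreducible_cyclotomic_of_ne hζ hξ hpq
  obtain ⟨σ, s, hσ, hs, hcard, hsord⟩ := exists_generator_apply_eq_pow hξ hirr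
  let ε : 𝓞 M := 1 + algebraMap (𝓞 K) (𝓞 M) hζ.toInteger * hξ.toInteger
  have hεv : algebraMap (𝓞 M) M ε = 1 + algebraMap K M ζ * ξ := rfl
  have : IsCyclic Gal(M/K) := ⟨σ, hσ⟩
  -- Hilbert 90
  obtain ⟨y, hy⟩ := groupCohomology.exists_div_of_norm_eq_one hσ
    (norm_one_add_mul hζ hξ hp2 hq1 hirr)
  let z : M := ((y : M))⁻¹
  have hz0 : z ≠ 0 := inv_ne_zero y.ne_zero
  have hσz : σ z = algebraMap (𝓞 M) M ε * z := by
    have hσy : σ (y : M) ≠ 0 := by simp
    simp only [z, map_inv₀, hεv]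
    rw [← hy]
    field_simp
  have hRκ : ∀ R : HeightOneSpectrum (𝓞 M),
      R.valuation M (algebraMap K M (Algebra.norm K z)) = R.valuation M z ^ (q - 1) :=
    hcard ▸ valuation_norm_eq_pow
      (forall_apply_eq_unit_mul hσ (isUnit_one_add_mul hζ hξ hp2 hpq hq1) hσz)
  have hover : ∀ Q : HeightOneSpectrum (𝓞 K),
      ∃ R : HeightOneSpectrum (𝓞 M), R.asIdeal.LiesOver Q.asIdeal := by
    intro Q
    obtain ⟨⟨P, hP, hPQ⟩⟩ := Q.asIdeal.nonempty_primesOver (S := 𝓞 M)
    exact ⟨⟨P, hP, Ideal.ne_bot_of_liesOver_of_ne_bot Q.ne_bot P⟩, hPQ⟩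
  refine ⟨Algebra.norm K z, s, Algebra.norm_ne_zero_iff.2 hz0, hsord, fun Q hQ => ?_,
    fun Q hQ => ?_⟩ <;> obtain ⟨R, hRQ⟩ := hover Q
  · exact exists_valuation_eq_exp_mul hξ hq1 Q hQ R hz0 (hRκ R)
  obtain ⟨hee, hlv⟩ := ramified_above hξ hpq hcard Q hQ R
  have htop : R.asIdeal.inertia Gal(M/K) = ⊤ := Subgroup.eq_top_of_card_eq _ (by
    rw [← ramificationIdx'_eq_card_inertia Q R, hee, hcard])
  have hinert : ∀ x : 𝓞 M, σ • x - x ∈ R.asIdeal :=
    (htop ▸ Subgroup.mem_top σ : σ ∈ R.asIdeal.inertia Gal(M/K))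
  set n : ℤ := -WithZero.log (R.valuation M z) with hn
  have hzv : R.valuation M z = exp (-n) := by
    rw [hn, neg_neg, WithZero.exp_log ((R.valuation M).ne_zero_iff.2 hz0)]
  refine ⟨n, ?_, fun i hi => ?_⟩
  · have h := HeightOneSpectrum.valuation_liesOver M Q R (Algebra.norm K z)
    rw [hee, hRκ R, hzv] at h
    exact (pow_left_inj₀ zero_le zero_le (Nat.sub_pos_of_lt hq.out.one_lt).ne').1 h
  have hR : (q : 𝓞 M) ∈ R.asIdeal := by
    rwa [← map_natCast (algebraMap (𝓞 K) (𝓞 M)) q,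
      ← Ideal.mem_of_liesOver R.asIdeal Q.asIdeal]
  have hlam : hξ.toInteger - 1 ∈ R.asIdeal := by
    rw [← HeightOneSpectrum.valuation_lt_one_iff_mem (K := M), hlv, ← WithZero.exp_zero,
      WithZero.exp_lt_exp]
    norm_num
  rw [Ideal.mem_of_liesOver R.asIdeal Q.asIdeal]
  convert R.asIdeal.sub_mem (sub_pow_mem_of_dvd_sub hξ hs hsord R hR hinert hlv hσz hzv hi)
    (R.asIdeal.mul_mem_left (algebraMap (𝓞 K) (𝓞 M) hζ.toInteger) hlam) using 1
  simp only [ε, map_sub, map_add, map_one, map_pow, map_natCast]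
  ring

/-- Thaine's element. -/
theorem exists_thaine {ζ : K} (hζ : IsPrimitiveRoot ζ p) (hp2 : p ≠ 2) (hpq : q ≠ p)
    (hq1 : (q : ZMod p) = 1) :
    ∃ (κ : K) (s : ℕ), κ ≠ 0 ∧ orderOf (s : ZMod q) = q - 1 ∧
      (∀ Q : HeightOneSpectrum (𝓞 K), (q : 𝓞 K) ∉ Q.asIdeal →
        ∃ m : ℤ, Q.valuation K κ = exp ((p : ℤ) * m)) ∧
      (∀ Q : HeightOneSpectrum (𝓞 K), (q : 𝓞 K) ∈ Q.asIdeal →
        ∃ n : ℤ, Q.valuation K κ = exp (-n) ∧
          ∀ i : ℕ, ((q - 1 : ℕ) : ℤ) ∣ n - i → 1 + hζ.toInteger - (s : 𝓞 K) ^ i ∈ Q.asIdeal) := by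
  have : NeZero (q : K) := ⟨Nat.cast_ne_zero.2 hq.out.ne_zero⟩
  have : NumberField (CyclotomicField q K) := IsCyclotomicExtension.numberField {q} K _
  exact exists_thaine_aux (M := CyclotomicField q K) hζ
    (IsCyclotomicExtension.zeta_spec q K (CyclotomicField q K)) hp2 hpq hq1

end Fermat.Agent.ExtVanish
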