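import Fermat.Agent.ExtVanish.Galois
import Fermat.Agent.ExtVanish.Thaine
import Fermat.Prelude.Def_ClassGroup_GaloisAction

/-!
# The `ω²`-component of the class group of `ℚ(ζ_p)` has no `p`-torsion

Thaine's argument with the relation from `exists_thaine`. The only analytic input is the existence
of a degree one prime with prescribed non-vanishing of a class group character and of a power
residue symbol, passed as the hypothesis `PrimeSupply`.
-/

noncomputable section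

open NumberField NumberField.Units IsDedekindDomain WithZero UniqueFactorizationMonoid
open scoped Classical nonZeroDivisors Pointwise

namespace Fermat.Agent.ExtVanish

variable {p : ℕ} [hp : Fact p.Prime]
variable {K : Type} [Field K] [NumberField K] [IsCyclotomicExtension {p} ℚ K]

variable (p K) in
/-- Degree one primes with a non-trivial class and a non-residue unit exist. -/
def PrimeSupply : Prop :=
  ∀ (φ : Additive (ClassGroup (𝓞 K)) →+ ZMod p), φ ≠ 0 →
    ∀ (a : (𝓞 K)ˣ), (∀ b : K, b ^ p ≠ algebraMap (𝓞 K) K a) →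
      ∃ (P : (Ideal (𝓞 K))⁰) (l : ℕ), P.1.IsPrime ∧ l.Prime ∧ Ideal.absNorm P.1 = l ∧ l ≠ p ∧
        φ (Additive.ofMul (ClassGroup.mk0 P)) ≠ 0 ∧ ∀ y : 𝓞 K, (a : 𝓞 K) - y ^ p ∉ P.1

/-- An automorphism as a ring automorphism of the integers. -/
def galRing (σ : Gal(K/ℚ)) : 𝓞 K ≃+* 𝓞 K := MulSemiringAction.toRingEquiv Gal(K/ℚ) (𝓞 K) σ

/-- The action on the class group, additively. -/
def classGal (σ : Gal(K/ℚ)) : Additive (ClassGroup (𝓞 K)) →+ Additive (ClassGroup (𝓞 K)) :=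
  MonoidHom.toAdditive (ClassGroup.mulEquiv (galRing σ)).toMonoidHom

omit [IsCyclotomicExtension {p} ℚ K] in
lemma classGal_mul (σ τ : Gal(K/ℚ)) (x : Additive (ClassGroup (𝓞 K))) :
    classGal (σ * τ) x = classGal σ (classGal τ x) := by
  show Additive.ofMul (ClassGroup.mulEquiv (galRing (σ * τ)) x.toMul) =
    Additive.ofMul (ClassGroup.mulEquiv (galRing σ) (ClassGroup.mulEquiv (galRing τ) x.toMul))
  rw [← ClassGroup.mulEquiv_trans_apply]
  congr 3

omit [IsCyclotomicExtension {p} ℚ K] in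
/-- The action on the class of an ideal. -/
lemma classGal_mk0 (σ : Gal(K/ℚ)) (P Q : (Ideal (𝓞 K))⁰) (h : (Q : Ideal (𝓞 K)) = σ • P.1) :
    classGal σ (Additive.ofMul (ClassGroup.mk0 P)) = Additive.ofMul (ClassGroup.mk0 Q) := by
  show Additive.ofMul (ClassGroup.mulEquiv (galRing σ) (ClassGroup.mk0 P)) = _
  rw [ClassGroup.mulEquiv_mk0]
  congr 2
  refine Subtype.ext ?_
  rw [h, Ideal.coe_mapNonZero, Ideal.pointwise_smul_def]
  rfl

/-- The `ω²`-projector on the class group. -/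
def classProj : Additive (ClassGroup (𝓞 K)) →+ Additive (ClassGroup (𝓞 K)) :=
  ∑ σ : Gal(K/ℚ), projExp p σ • classGal σ

lemma classProj_apply (x : Additive (ClassGroup (𝓞 K))) :
    classProj (p := p) x = ∑ σ : Gal(K/ℚ), projExp p σ • classGal σ x := by
  simp [classProj, AddMonoidHom.finsetSum_apply]

lemma nsmul_eq_nsmul_of_cast {M : Type*} [AddCommMonoid M] {x : M} (hx : p • x = 0) {m n : ℕ}
    (h : (m : ZMod p) = (n : ZMod p)) : m • x = n • x := by
  have hmn := (ZMod.natCast_eq_natCast_iff' m n p).1 h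
  conv_lhs => rw [← Nat.mod_add_div m p, hmn]
  conv_rhs => rw [← Nat.mod_add_div n p]
  simp only [add_smul, mul_comm p, mul_smul, hx, smul_zero]

/-- A nonzero `p`-torsion class in the component gives an equivariant functional. -/
theorem exists_functional {c : Additive (ClassGroup (𝓞 K))} (hc : p • c = 0) (hc0 : c ≠ 0)
    (hcomp : ∀ σ : Gal(K/ℚ), classGal σ c = galExp p σ ^ 2 • c) :
    ∃ φ : Additive (ClassGroup (𝓞 K)) →+ ZMod p, φ ≠ 0 ∧
      ∀ σ x, φ (classGal σ x) = (galExp p σ : ZMod p) ^ 2 * φ x := by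
  set e := classProj (p := p) (K := K) with he
  have hec : e c = -c := by
    rw [he, classProj_apply]
    simp only [hcomp, smul_smul]
    rw [Finset.sum_congr rfl fun σ _ => nsmul_eq_nsmul_of_cast hc
      (show ((projExp p σ * galExp p σ ^ 2 : ℕ) : ZMod p) = ((1 : ℕ) : ZMod p) by
        push_cast; exact projExp_mul_galExp_sq σ)]
    simp only [one_smul, Finset.sum_const, Finset.card_univ, ← Nat.card_eq_fintype_card,
      natCard_gal p K]
    rw [eq_neg_iff_add_eq_zero, ← succ_nsmul, Nat.sub_add_cancel hp.out.one_le, hc]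
  obtain ⟨d, hd⟩ : ∃ d, JacobiSumStickelberger.clProj p (𝓞 K) (e d) ≠ 0 := by
    by_contra h
    push Not at h
    have hdiv : ∀ x, ∃ y, p • y = e x := fun x =>
      (JacobiSumStickelberger.ModP.proj_eq_zero_iff p _).1 (h x)
    have hiter : ∀ n : ℕ, ∃ y, p ^ n • y = c := by
      intro n
      induction n with
      | zero => exact ⟨c, by rw [pow_zero, one_smul]⟩
      | succ n ih =>
        obtain ⟨y, hy⟩ := ih
        obtain ⟨w, hw⟩ := hdiv y
        refine ⟨-w, ?_⟩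
        rw [pow_succ, mul_smul, smul_neg, hw, smul_neg, ← map_nsmul, hy, hec, neg_neg]
    let N := Nat.card (Additive (ClassGroup (𝓞 K)))
    obtain ⟨a, m, hm, hN⟩ := Nat.exists_eq_pow_mul_and_not_dvd
      (show N ≠ 0 from Nat.card_pos.ne') p hp.out.ne_one
    obtain ⟨y, hy⟩ := hiter a
    have hmc : m • c = 0 := by
      rw [← hy, smul_smul, mul_comm, ← hN]
      exact card_nsmul_eq_zero'
    refine hc0 (AddMonoid.addOrderOf_eq_one_iff.1 (Nat.dvd_one.1 ?_))
    have h1 := addOrderOf_dvd_of_nsmul_eq_zero hc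
    have h2 := addOrderOf_dvd_of_nsmul_eq_zero hmc
    rw [← (hp.out.coprime_iff_not_dvd.2 hm).gcd_eq_one]
    exact Nat.dvd_gcd h1 h2
  obtain ⟨f, hf⟩ : ∃ f : Module.Dual (ZMod p) (JacobiSumStickelberger.ClGalModule p (𝓞 K)),
      f (JacobiSumStickelberger.clProj p (𝓞 K) (e d)) ≠ 0 := by
    by_contra h
    push Not at h
    exact hd ((Module.forall_dual_apply_eq_zero_iff (ZMod p) _).1 h)
  let φ : Additive (ClassGroup (𝓞 K)) →+ ZMod p :=
    (f.toAddMonoidHom.comp (JacobiSumStickelberger.clProj p (𝓞 K))).comp e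
  refine ⟨φ, fun h => hf (DFunLike.congr_fun h d), fun τ x => ?_⟩
  have hsum : ∀ y, φ y = ∑ σ : Gal(K/ℚ), (projExp p σ : ZMod p) *
      f (JacobiSumStickelberger.clProj p (𝓞 K) (classGal σ y)) := fun y => by
    simp [φ, he, classProj_apply, map_sum, map_nsmul]
  rw [hsum, hsum, Finset.mul_sum]
  refine Fintype.sum_equiv (Equiv.mulRight τ) _ _ fun σ => ?_
  rw [Equiv.coe_mulRight, ← classGal_mul]
  rw [← mul_assoc]
  congr 1
  rw [coe_projExp, coe_projExp, ← coe_omegaSq, map_mul, mul_inv, Units.val_mul,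
    mul_left_comm, ← Units.val_mul, mul_inv_cancel, Units.val_one, mul_one]

/-- Distinct automorphisms move a degree one prime to distinct primes. -/
lemma eq_one_of_smul_eq_self {l : ℕ} [Fact l.Prime] (hl1 : (l : ZMod p) = 1) (P : Ideal (𝓞 K))
    [P.IsPrime] [P.LiesOver (Ideal.span {(l : ℤ)})] {σ : Gal(K/ℚ)} (h : σ • P = P) : σ = 1 := by
  have hn : Nat.Coprime l p := by
    refine (Nat.coprime_primes Fact.out hp.out).2 ?_
    rintro rfl
    rw [ZMod.natCast_self] at hl1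
    exact zero_ne_one hl1
  have : P.IsMaximal := Ideal.IsMaximal.of_liesOver_isMaximal P (Ideal.span {(l : ℤ)})
  have hmem := IsCyclotomicExtension.Rat.mem_zpowers_galEquivZMod_of_mem_stabilizer p K l P hn
    (MulAction.mem_stabilizer_iff.2 h)
  have hu : ZMod.unitOfCoprime l hn = (1 : (ZMod p)ˣ) := Units.ext (by simpa using hl1)
  rw [hu, Subgroup.zpowers_one_eq_bot, Subgroup.mem_bot] at hmem
  exact (IsCyclotomicExtension.Rat.galEquivZMod p K).injective (hmem.trans (map_one _).symm)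

omit [IsCyclotomicExtension {p} ℚ K] [NumberField K] in
/-- A unit which is a `p`-th power in the field is the `p`-th power of a unit. -/
lemma exists_unit_of_pow {y : K} {v : (𝓞 K)ˣ} (h : y ^ p = algebraMap (𝓞 K) K (v : 𝓞 K)) :
    ∃ w : (𝓞 K)ˣ, algebraMap (𝓞 K) K (w : 𝓞 K) = y := by
  have hb : IsIntegral ℤ y := IsIntegral.of_pow hp.out.pos
    (h ▸ RingOfIntegers.isIntegral_coe _)
  obtain ⟨b, rfl⟩ : ∃ b : 𝓞 K, algebraMap (𝓞 K) K b = y := ⟨⟨y, hb⟩, rfl⟩
  rw [← map_pow] at h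
  have hu : IsUnit b :=
    (isUnit_pow_iff hp.out.ne_zero).1 ((RingOfIntegers.coe_injective h).symm ▸ v.isUnit)
  exact ⟨hu.unit, rfl⟩

variable {ζ : K} (hζ : IsPrimitiveRoot ζ p)

lemma etaUnit_ne_pow (h5 : 5 ≤ p) (b : K) :
    b ^ p ≠ algebraMap (𝓞 K) K (etaUnit hζ (show 3 ≤ p by omega) : 𝓞 K) := by
  intro h
  obtain ⟨w, rfl⟩ := exists_unit_of_pow h
  rw [← map_pow] at h
  exact dlog_etaUnit_ne_zero hζ (h5 := h5) (by omega)
    (RingOfIntegers.coe_injective h ▸ dlog_pow_self hζ (awayP_of_isUnit hζ w.isUnit))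

include hζ in
/-- A degree one prime away from `p` lies over a prime congruent to one modulo `p`. -/
lemma natCast_eq_one_of_absNorm {P : Ideal (𝓞 K)} [P.IsPrime] {l : ℕ} (hl : l.Prime)
    (hP : Ideal.absNorm P = l) (hlp : l ≠ p) : (l : ZMod p) = 1 := by
  have hP0 : P ≠ ⊥ := by
    intro h; rw [h, Ideal.absNorm_bot] at hP; exact hl.ne_zero hP.symm
  have : P.IsMaximal := ‹P.IsPrime›.isMaximal hP0
  have : Finite (𝓞 K ⧸ P) := Ideal.finiteQuotientOfFreeOfNeBot _ hP0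
  let : Field (𝓞 K ⧸ P) := Ideal.Quotient.field P
  let : Fintype (𝓞 K ⧸ P) := Fintype.ofFinite _
  have hcard : Fintype.card (𝓞 K ⧸ P) = l := by
    rw [← hP, Ideal.absNorm_apply, Submodule.cardQuot_apply, Nat.card_eq_fintype_card]
  have hz : (Ideal.Quotient.mk P hζ.toInteger) ^ p = 1 := by
    rw [← map_pow, hζ.toInteger_isPrimitiveRoot.pow_eq_one, map_one]
  have hlmem : (l : 𝓞 K) ∈ P := hP ▸ Ideal.absNorm_mem P
  have hz1 : Ideal.Quotient.mk P hζ.toInteger ≠ 1 := by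
    intro h
    rw [← map_one (Ideal.Quotient.mk P), Ideal.Quotient.mk_eq_mk_iff_sub_mem] at h
    have hpP : (p : 𝓞 K) ∈ P := by
      refine P.mem_of_dvd ?_ h
      have :=
        (IsCyclotomicExtension.Rat.zeta_sub_one_dvd_intCast_iff' p hζ (n := (p : ℤ))).2 dvd_rfl
      simpa using this
    have hco : IsCoprime (l : 𝓞 K) (p : 𝓞 K) :=
      Nat.Coprime.cast ((Nat.coprime_primes hl hp.out).2 hlp)
    obtain ⟨a, b, hab⟩ := hco
    exact ‹P.IsPrime›.ne_top ((Ideal.eq_top_iff_one _).2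
      (hab ▸ P.add_mem (P.mul_mem_left a hlmem) (P.mul_mem_left b hpP)))
  have hord := orderOf_eq_prime hz hz1
  have hne : Ideal.Quotient.mk P hζ.toInteger ≠ 0 := fun h => by
    rw [h, zero_pow hp.out.ne_zero] at hz; exact zero_ne_one hz
  have hdvd := orderOf_dvd_of_pow_eq_one (FiniteField.pow_card_sub_one_eq_one _ hne)
  rw [hord, hcard] at hdvd
  obtain ⟨k, hk⟩ := hdvd
  rw [show l = p * k + 1 by have := hl.one_le; omega]
  simp

lemma intValuation_eq_exp_count {a : 𝓞 K} (ha : a ≠ 0) (Q : HeightOneSpectrum (𝓞 K)) :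
    Q.intValuation a =
      exp (-((Multiset.count Q.asIdeal (normalizedFactors (Ideal.span {a})) : ℕ) : ℤ)) := by
  have hspan : Ideal.span {a} ≠ 0 := by
    rw [Submodule.zero_eq_bot, Ne, Ideal.span_singleton_eq_bot]; exact ha
  rw [HeightOneSpectrum.intValuation_eq_exp_neg_multiplicity _ ha]
  congr 3
  refine multiplicity_eq_of_emultiplicity_eq_some ?_
  rw [emultiplicity_eq_count_normalizedFactors Q.irreducible hspan, normalize_eq]

omit [NumberField K] in
/-- A prime containing a prime number lies over it. -/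
lemma liesOver_span_natCast {l : ℕ} [Fact l.Prime] {I : Ideal (𝓞 K)} (hI : I.IsPrime)
    (hlI : (l : 𝓞 K) ∈ I) : I.LiesOver (Ideal.span {(l : ℤ)}) := by
  refine ⟨(Int.ideal_span_isMaximal_of_prime l).eq_of_le (Ideal.IsPrime.under ℤ I).ne_top ?_⟩
  rw [Ideal.span_singleton_le_iff_mem, Ideal.mem_comap]
  simpa using hlI

/-- The exponent of a prime ideal in the factorisation of `α`. -/
def primeExp (α : 𝓞 K) (I : Ideal (𝓞 K)) : ℕ :=
  Multiset.count I (normalizedFactors (Ideal.span {α}))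

omit [IsCyclotomicExtension {p} ℚ K] in
/-- Multiplied by a `p`-th power `κ` becomes an integer `α`, whose exponents are congruent modulo
`p` to the valuations of `κ`. -/
lemma exists_primeExp_cast_eq {κ : K} (hκ0 : κ ≠ 0) :
    ∃ α : 𝓞 K, α ≠ 0 ∧ ∀ (Q : HeightOneSpectrum (𝓞 K)) (n : ℤ),
      Q.valuation K κ = exp (-n) → (primeExp α Q.asIdeal : ZMod p) = n := by
  obtain ⟨a, b, hb, hab⟩ := IsFractionRing.div_surjective (A := 𝓞 K) κ
  have hb0 : b ≠ 0 := nonZeroDivisors.ne_zero hb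
  set α : 𝓞 K := a * b ^ (p - 1) with hα
  have hbK : algebraMap (𝓞 K) K b ≠ 0 := (map_ne_zero_iff _ RingOfIntegers.coe_injective).2 hb0
  have hαK : algebraMap (𝓞 K) K α = κ * algebraMap (𝓞 K) K b ^ p := by
    rw [← hab, hα, map_mul, map_pow, div_mul_eq_mul_div, eq_div_iff hbK, mul_assoc, ← pow_succ,
      Nat.sub_add_cancel hp.out.one_le]
  have hα0 : α ≠ 0 := fun h => by
    rw [h, map_zero, eq_comm, mul_eq_zero] at hαK
    exact hαK.elim hκ0 fun h' => hbK (pow_eq_zero_iff hp.out.ne_zero |>.1 h')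
  refine ⟨α, hα0, fun Q n hn => ?_⟩
  have h : exp (-((primeExp α Q.asIdeal : ℕ) : ℤ)) = Q.valuation K κ * Q.intValuation b ^ p := by
    rw [primeExp, ← intValuation_eq_exp_count hα0, ← Q.valuation_of_algebraMap (K := K)]
    show Q.valuation K (algebraMap (𝓞 K) K α) = _
    rw [hαK, map_mul, map_pow, HeightOneSpectrum.valuation_of_algebraMap]
  rw [hn, intValuation_eq_exp_count hb0, ← WithZero.exp_nsmul, ← WithZero.exp_add,
    WithZero.exp_inj] at h
  have h' := congrArg (fun z : ℤ => (z : ZMod p)) h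
  push_cast [nsmul_eq_mul] at h'
  simpa using h'

omit [IsCyclotomicExtension {p} ℚ K] in
/-- An additive functional on the class group vanishes on a principal ideal: its values on the
primes, weighted by their exponents, sum to zero. -/
lemma sum_primeExp_mul_eq_zero (φ : Additive (ClassGroup (𝓞 K)) →+ ZMod p) {α : 𝓞 K} (hα0 : α ≠ 0)
    {Psi : Ideal (𝓞 K) → ZMod p}
    (hPsi : ∀ I : (Ideal (𝓞 K))⁰, Psi I = φ (Additive.ofMul (ClassGroup.mk0 I))) :
    ∑ I ∈ (normalizedFactors (Ideal.span {α})).toFinset, (primeExp α I : ZMod p) * Psi I = 0 := by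
  have hαspan : Ideal.span {α} ≠ 0 := by
    rw [Submodule.zero_eq_bot, Ne, Ideal.span_singleton_eq_bot]; exact hα0
  have hprod : ∀ t : Multiset (Ideal (𝓞 K)), (∀ I ∈ t, I ≠ 0) →
      ∀ h : t.prod ≠ 0, (t.map Psi).sum =
        φ (Additive.ofMul (ClassGroup.mk0 ⟨t.prod, mem_nonZeroDivisors_of_ne_zero h⟩)) := by
    intro t
    induction t using Multiset.induction_on with
    | empty =>
      intro _ _
      rw [Multiset.map_zero, Multiset.sum_zero,
        show (⟨(0 : Multiset (Ideal (𝓞 K))).prod, _⟩ : (Ideal (𝓞 K))⁰) = 1 from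
          Subtype.ext Multiset.prod_zero, map_one, ofMul_one, map_zero]
    | cons I t ih =>
      intro h h0
      have hI := h I (Multiset.mem_cons_self _ _)
      have ht : t.prod ≠ 0 := fun ht => h0 (by rw [Multiset.prod_cons, ht, mul_zero])
      rw [Multiset.map_cons, Multiset.sum_cons,
        ih (fun J hJ => h J (Multiset.mem_cons_of_mem hJ)) ht,
        hPsi ⟨I, mem_nonZeroDivisors_of_ne_zero hI⟩, ← map_add, ← ofMul_mul, ← map_mul]
      congr 3
      exact Subtype.ext (Multiset.prod_cons I t).symm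
  have hP : (normalizedFactors (Ideal.span {α})).prod = Ideal.span {α} :=
    associated_iff_eq.1 (prod_normalizedFactors hαspan)
  have h := hprod _ (fun I hI => (prime_of_normalized_factor I hI).ne_zero)
    (by rw [hP]; exact hαspan)
  rw [Finset.sum_multiset_map_count] at h
  refine (Finset.sum_congr rfl fun I _ => ?_).trans (h.trans ?_)
  · simp [primeExp, nsmul_eq_mul]
  · show φ (Additive.ofMul (ClassGroup.mk0 _)) = 0
    rw [(ClassGroup.mk0_eq_one_iff _).2 ⟨α, hP⟩, ofMul_one, map_zero]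

omit [IsCyclotomicExtension {p} ℚ K] in
/-- If `α` has exponents divisible by `p` at the primes outside the conjugates of `P`, an
equivariant functional which is nonzero at `P` gives a relation between the exponents at the
conjugates. -/
lemma sum_primeExp_smul_eq_zero {φ : Additive (ClassGroup (𝓞 K)) →+ ZMod p} {χ : Gal(K/ℚ) → ZMod p}
    (hφ : ∀ σ x, φ (classGal σ x) = χ σ * φ x) {P : (Ideal (𝓞 K))⁰}
    (hP : φ (Additive.ofMul (ClassGroup.mk0 P)) ≠ 0)
    (hinj : Function.Injective fun σ : Gal(K/ℚ) => σ • P.1) {α : 𝓞 K} (hα0 : α ≠ 0)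
    (haway : ∀ I ∈ normalizedFactors (Ideal.span {α}), (∀ σ : Gal(K/ℚ), σ • P.1 ≠ I) →
      (primeExp α I : ZMod p) = 0) :
    ∑ σ : Gal(K/ℚ), (primeExp α (σ • P.1) : ZMod p) * χ σ = 0 := by
  let Psi : Ideal (𝓞 K) → ZMod p := fun I =>
    if hI : I ≠ 0 then φ (Additive.ofMul (ClassGroup.mk0 ⟨I, mem_nonZeroDivisors_of_ne_zero hI⟩))
    else 0
  have hPsi : ∀ I : (Ideal (𝓞 K))⁰, Psi I = φ (Additive.ofMul (ClassGroup.mk0 I)) := fun I => by
    simp only [Psi, dif_pos (nonZeroDivisors.ne_zero I.2)]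
  set t := normalizedFactors (Ideal.span {α}) with ht
  let E : Gal(K/ℚ) ↪ Ideal (𝓞 K) := ⟨fun σ => σ • P.1, hinj⟩
  have hsum : ∑ σ : Gal(K/ℚ), (primeExp α (E σ) : ZMod p) * Psi (E σ) = 0 := by
    rw [← Finset.sum_map Finset.univ E fun I => (primeExp α I : ZMod p) * Psi I,
      ← sum_primeExp_mul_eq_zero φ hα0 hPsi]
    refine (Finset.sum_subset Finset.subset_union_left ?_).trans
      (Finset.sum_subset (s₂ := Finset.univ.map E ∪ t.toFinset) Finset.subset_union_right ?_).symm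
    · intro I hI hIE
      have hIt : I ∈ t.toFinset := (Finset.mem_union.1 hI).resolve_left hIE
      rw [haway I (Multiset.mem_toFinset.1 hIt) fun σ hσ =>
        hIE (Finset.mem_map.2 ⟨σ, Finset.mem_univ _, hσ⟩), zero_mul]
    · intro I _ hIt
      rw [Multiset.mem_toFinset] at hIt
      simp [primeExp, Multiset.count_eq_zero_of_notMem hIt, ← ht]
  have hPsiσ : ∀ σ : Gal(K/ℚ), Psi (E σ) = χ σ * φ (Additive.ofMul (ClassGroup.mk0 P)) := by
    intro σ
    have hne : E σ ≠ 0 := fun h => nonZeroDivisors.ne_zero P.2 (by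
      have h' := congrArg (σ⁻¹ • ·) (show σ • P.1 = 0 from h)
      simpa using h')
    rw [hPsi ⟨E σ, mem_nonZeroDivisors_of_ne_zero hne⟩, ← classGal_mk0 σ P _ rfl, hφ]
  simp only [hPsiσ, ← mul_assoc, ← Finset.sum_mul] at hsum
  exact (mul_eq_zero.1 hsum).resolve_right hP

omit [NumberField K] [IsCyclotomicExtension {p} ℚ K] in
/-- The exponent of Thaine's element at a prime over `l` is, modulo `p`, an `i` with
`1 + ζ ≡ s ^ i`. -/
lemma exists_pow_sub_mem {l : ℕ} (hl : l.Prime) (hl1 : (l : ZMod p) = 1) {s : ℕ} {n : ℤ}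
    {u : 𝓞 K} {Q : Ideal (𝓞 K)}
    (hi : ∀ i : ℕ, ((l - 1 : ℕ) : ℤ) ∣ n - i → u - (s : 𝓞 K) ^ i ∈ Q) :
    ∃ i : ℕ, u - (s : 𝓞 K) ^ i ∈ Q ∧ (i : ZMod p) = n := by
  have hl2 : (0 : ℤ) < ((l - 1 : ℕ) : ℤ) := by have := hl.two_le; omega
  refine ⟨(n % ((l - 1 : ℕ) : ℤ)).toNat, hi _ ?_, ?_⟩
  · rw [Int.toNat_of_nonneg (Int.emod_nonneg _ hl2.ne')]
    exact ⟨n / ((l - 1 : ℕ) : ℤ), by linarith [Int.emod_add_ediv_mul n ((l - 1 : ℕ) : ℤ)]⟩
  · rw [← Int.cast_natCast, Int.toNat_of_nonneg (Int.emod_nonneg _ hl2.ne'),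
      ZMod.intCast_eq_intCast_iff_dvd_sub]
    have hpl : (p : ℤ) ∣ ((l - 1 : ℕ) : ℤ) := by
      rw [Int.natCast_dvd_natCast, ← ZMod.natCast_eq_zero_iff, Nat.cast_sub hl.one_le, hl1,
        Nat.cast_one, sub_self]
    exact hpl.trans ⟨n / ((l - 1 : ℕ) : ℤ),
      by linarith [Int.emod_add_ediv_mul n ((l - 1 : ℕ) : ℤ)]⟩

/-- If `1 + ζ ≡ s ^ i(σ)` modulo `σ • P` and `∑ i(σ) ω²(σ) ≡ 0`, the projected unit is a `p`-th
power modulo `P`. -/
lemma exists_etaUnit_sub_pow_mem (h3 : 3 ≤ p) (P : Ideal (𝓞 K)) (s : ℕ) (i : Gal(K/ℚ) → ℕ)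
    (hi : ∀ σ, 1 + hζ.toInteger - (s : 𝓞 K) ^ i σ ∈ σ • P)
    (hsum : ∑ σ : Gal(K/ℚ), (i σ : ZMod p) * (galExp p σ : ZMod p) ^ 2 = 0) :
    ∃ y : 𝓞 K, (etaUnit hζ h3 : 𝓞 K) - y ^ p ∈ P := by
  set π := Ideal.Quotient.mk P
  have hτ : ∀ τ : Gal(K/ℚ), π (τ • (1 + hζ.toInteger)) = π (s : 𝓞 K) ^ i τ⁻¹ := by
    intro τ
    have h := hi τ⁻¹
    rw [Ideal.mem_pointwise_smul_iff_inv_smul_mem, inv_inv, smul_sub, smul_pow',
      show τ • (s : 𝓞 K) = s from map_natCast (MulSemiringAction.toRingHom Gal(K/ℚ) (𝓞 K) τ) s] at h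
    rw [← map_pow, Ideal.Quotient.mk_eq_mk_iff_sub_mem]
    exact h
  have hη : π (etaUnit hζ h3 : 𝓞 K) = π (s : 𝓞 K) ^ (∑ τ : Gal(K/ℚ), i τ⁻¹ * projExp p τ) := by
    simp only [etaUnit, Units.coe_prod, Units.val_pow_eq_pow_val, val_galU, coe_oneAddUnit,
      map_prod, map_pow, hτ, ← pow_mul, Finset.prod_pow_eq_pow_sum]
  have hcast : ((∑ τ : Gal(K/ℚ), i τ⁻¹ * projExp p τ : ℕ) : ZMod p) = 0 := by
    rw [Nat.cast_sum, ← hsum]
    refine Fintype.sum_equiv (Equiv.inv _) _ _ fun τ => ?_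
    rw [Equiv.inv_apply, Nat.cast_mul, coe_projExp, ← coe_omegaSq, map_inv (omegaSq p)]
  obtain ⟨k, hk⟩ := (ZMod.natCast_eq_zero_iff _ _).1 hcast
  refine ⟨(s : 𝓞 K) ^ k, ?_⟩
  rw [← Ideal.Quotient.mk_eq_mk_iff_sub_mem]
  show π _ = π _
  rw [hη, hk, map_pow, map_pow, ← pow_mul, mul_comm]

/-- **The `ω²`-component of the class group has no `p`-torsion.** -/
theorem classGroup_component_eq_zero (h5 : 5 ≤ p) (hS : PrimeSupply p K)
    {c : Additive (ClassGroup (𝓞 K))} (hc : p • c = 0)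
    (hcomp : ∀ σ : Gal(K/ℚ), classGal σ c = galExp p σ ^ 2 • c) : c = 0 := by
  have hζ : IsPrimitiveRoot (IsCyclotomicExtension.zeta p ℚ K) p :=
    IsCyclotomicExtension.zeta_spec p ℚ K
  have h3 : 3 ≤ p := by omega
  by_contra hc0
  obtain ⟨φ, hφ0, hφ⟩ := exists_functional hc hc0 hcomp
  obtain ⟨P, l, hPp, hl, hPl, hlp, hφP, hres⟩ :=
    hS φ hφ0 (etaUnit hζ h3) (etaUnit_ne_pow hζ h5)
  have : Fact l.Prime := ⟨hl⟩
  have hPprime : P.1.IsPrime := hPp
  have hl1 := natCast_eq_one_of_absNorm hζ hl hPl hlp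
  obtain ⟨κ, s, hκ0, hs, hκaway, hκat⟩ := exists_thaine hζ (by omega) hlp hl1
  obtain ⟨α, hα0, hα⟩ := exists_primeExp_cast_eq (p := p) hκ0
  have hlP : (l : 𝓞 K) ∈ P.1 := hPl ▸ Ideal.absNorm_mem P.1
  have := liesOver_span_natCast hPp hlP
  have : IsGalois ℚ K := IsCyclotomicExtension.isGalois {p} ℚ K
  have hlσ : ∀ σ : Gal(K/ℚ), (l : 𝓞 K) ∈ σ • P.1 := by
    intro σ
    rw [Ideal.mem_pointwise_smul_iff_inv_smul_mem]
    convert hlP using 1
    exact map_natCast (MulSemiringAction.toRingHom Gal(K/ℚ) (𝓞 K) σ⁻¹) l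
  have hne : ∀ σ : Gal(K/ℚ), σ • P.1 ≠ ⊥ := fun σ h => by
    have := hlσ σ
    rw [h, Ideal.mem_bot, Nat.cast_eq_zero] at this
    exact hl.ne_zero this
  have hinj : Function.Injective fun σ : Gal(K/ℚ) => σ • P.1 := fun σ τ h => by
    have h' : (τ⁻¹ * σ) • P.1 = P.1 := by
      rw [mul_smul, show σ • P.1 = τ • P.1 from h, inv_smul_smul]
    have := eq_one_of_smul_eq_self hl1 P.1 h'
    rwa [inv_mul_eq_one, eq_comm] at this
  have hexp := sum_primeExp_smul_eq_zero hφ hφP hinj hα0 fun I hI hIσ => by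
    have hIp := prime_of_normalized_factor I hI
    have hlI : (l : 𝓞 K) ∉ I := fun hlI => by
      have := Ideal.isPrime_of_prime hIp
      have := liesOver_span_natCast this hlI
      obtain ⟨σ, hσ⟩ := Ideal.exists_smul_eq_of_isGaloisGroup (Ideal.span {(l : ℤ)}) P.1 I
        Gal(K/ℚ)
      exact hIσ σ hσ
    obtain ⟨m, hm⟩ := hκaway ⟨I, Ideal.isPrime_of_prime hIp, hIp.ne_zero⟩ hlI
    rw [hα ⟨I, Ideal.isPrime_of_prime hIp, hIp.ne_zero⟩ (-((p : ℤ) * m)) (by rw [hm, neg_neg])]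
    simp
  have hat : ∀ σ : Gal(K/ℚ), ∃ i : ℕ, 1 + hζ.toInteger - (s : 𝓞 K) ^ i ∈ σ • P.1 ∧
      (i : ZMod p) = (primeExp α (σ • P.1) : ZMod p) := fun σ => by
    obtain ⟨n, hn, hi⟩ := hκat ⟨σ • P.1, Ideal.IsPrime.smul σ, hne σ⟩ (hlσ σ)
    obtain ⟨i, hmem, hcast⟩ := exists_pow_sub_mem hl hl1 hi
    exact ⟨i, hmem, by rw [hcast, hα _ n hn]⟩
  choose i hi hic using hat
  obtain ⟨y, hy⟩ := exists_etaUnit_sub_pow_mem hζ h3 P.1 s i hi (by simpa only [hic] using hexp)
  exact hres y hy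

end Fermat.Agent.ExtVanish
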