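import Fermat.Agent.ExtVanish.DescentKummer
import Fermat.Agent.GaloisBasics.Finite
import Fermat.Agent.GaloisBasics.Roots
import Fermat.Prelude.Def_ExtCitation_KummerBridge
import Fermat.Prelude.Def_ExtCitation_AdmissibleExtension_v2

/-!
# Descent: the Kummer element of a non-split admissible extension

A non-split admissible extension of `μ_p` by `ℤ/p` gives a twisted cocycle which factors through
a finite Galois extension; its Kummer element over `ℚ(ζ_p)` lies in the `ω²`-component, generates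
the `p`-th power of an ideal and is a `p`-th power locally at `p`.
-/

noncomputable section

open scoped Pointwise NumberField
open Fermat.Agent.GaloisBasics ExtCitation NumberField

namespace Fermat.Agent.ExtVanish

variable {p : ℕ} [hp : Fact p.Prime]

/-- The mod `p` cyclotomic character with values in `ZMod p`. -/
def cycMod (p : ℕ) [Fact p.Prime] (σ : GalQ) : ZMod p := (cycloExp p σ : ZMod p)

theorem cycMod_eq_coe (σ : GalQ) : cycMod p σ = (cycloChar p σ : ZMod p) :=
  (coe_cycloChar p σ).symm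

theorem cycMod_mul (σ τ : GalQ) : cycMod p (σ * τ) = cycMod p σ * cycMod p τ := by
  simp only [cycMod_eq_coe, map_mul, Units.val_mul]

theorem cycMod_ne_zero (σ : GalQ) : cycMod p σ ≠ 0 := by
  rw [cycMod_eq_coe]; exact Units.ne_zero _

theorem cycMod_one : cycMod p 1 = 1 := by simp [cycMod_eq_coe]

/-- The cyclotomic character describes the action on `p`-th roots of unity. -/
theorem apply_eq_pw_cycMod {z : Qbar} (hz : z ^ p = 1) (σ : GalQ) :
    σ z = pw z (cycMod p σ) := by
  have : NeZero p := ⟨hp.out.ne_zero⟩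
  obtain ⟨u, rfl⟩ : ∃ u : Qbarˣ, (u : Qbar) = z :=
    ⟨Units.mk0 z (fun h => by simp [h, hp.out.ne_zero] at hz), rfl⟩
  have hu : u ∈ rootsOfUnity p Qbar := by
    rw [mem_rootsOfUnity]; exact Units.ext (by simpa using hz)
  have h := modularCyclotomicCharacter.spec Qbar (card_rootsOfUnity_eq_self p)
    (σ : Qbar ≃+* Qbar) hu
  rw [cycMod_eq_coe]
  exact h

section Cocycle

variable {V : Type} [AddCommGroup V] [Module (ZMod p) V]
  [DistribMulAction GalQ V] [SMulCommClass GalQ (ZMod p) V]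
  {C : Submodule (ZMod p) V}

/-- The twisted cocycle of a non-split admissible extension. -/
theorem exists_cocycle (hadm : IsAdmissibleExtensionCts p V C) (hns : ¬ SplitsGlobally C) :
    ∃ f : GalQ → ZMod p,
      (∀ σ τ, f (σ * τ) = cycMod p τ * f σ + f τ) ∧
      (∃ h, cycMod p h = 1 ∧ f h ≠ 0) ∧
      (∀ σ, (∀ v : V, σ • v = v) ↔ cycMod p σ = 1 ∧ f σ = 0) ∧
      (∀ A : ValuationSubring Qbar, A.LiesOverPrime p → ∃ t : ZMod p,
        ∀ σ ∈ A.decompositionSubgroup ℚ, f σ = t * (1 - cycMod p σ)) := by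
  have hp1 : 1 < p := hp.out.one_lt
  have : Finite V := Nat.finite_of_card_ne_zero
    (by rw [hadm.card_total]; exact pow_ne_zero _ hp.out.ne_zero)
  have : Nontrivial C := Finite.one_lt_card_iff_nontrivial.1 (by rw [hadm.card_sub]; exact hp1)
  obtain ⟨c, hc0⟩ := exists_ne (0 : C)
  have hcC : (c : V) ∈ C := c.2
  have hc : (c : V) ≠ 0 := fun h => hc0 (Subtype.ext h)
  obtain ⟨v₀, hv₀⟩ : ∃ v : V, v ∉ C := by
    by_contra! h
    have hcard : Nat.card C = Nat.card V :=
      Nat.card_congr (Equiv.subtypeUnivEquiv h)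
    rw [hadm.card_sub, hadm.card_total] at hcard
    exact absurd hcard (Nat.ne_of_lt (by simpa using Nat.pow_lt_pow_right hp1 one_lt_two))
  have hinjC : Function.Injective fun r : ZMod p => r • (c : V) :=
    smul_left_injective (ZMod p) hc
  have hspanC : ∀ x ∈ C, ∃ r : ZMod p, r • (c : V) = x := by
    intro x hx
    have hb : Function.Bijective fun r : ZMod p => (⟨r • (c : V), C.smul_mem r hcC⟩ : C) :=
      (Nat.bijective_iff_injective_and_card _).2
        ⟨fun a b h => hinjC (congrArg Subtype.val h), by rw [Nat.card_zmod, hadm.card_sub]⟩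
    obtain ⟨r, hr⟩ := hb.2 ⟨x, hx⟩
    exact ⟨r, congrArg Subtype.val hr⟩
  have huniq : ∀ a a' b b' : ZMod p,
      a • v₀ + b • (c : V) = a' • v₀ + b' • (c : V) → a = a' ∧ b = b' := by
    intro a a' b b' h
    have h' : (a - a') • v₀ = (b' - b) • (c : V) := by
      rw [sub_smul, sub_smul, sub_eq_sub_iff_add_eq_add, h, add_comm]
    have ha : a = a' := by
      by_contra hne
      apply hv₀
      have hmem : (a - a') • v₀ ∈ C := h' ▸ C.smul_mem _ hcC
      have := C.smul_mem (a - a')⁻¹ hmem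
      rwa [inv_smul_smul₀ (sub_ne_zero.2 hne)] at this
    subst ha
    exact ⟨rfl, hinjC (add_left_cancel h)⟩
  have hcoord : ∀ x : V, ∃ a b : ZMod p, a • v₀ + b • (c : V) = x := by
    intro x
    have hb : Function.Bijective fun ab : ZMod p × ZMod p => ab.1 • v₀ + ab.2 • (c : V) :=
      (Nat.bijective_iff_injective_and_card _).2
        ⟨fun x y h => Prod.ext (huniq _ _ _ _ h).1 (huniq _ _ _ _ h).2, by
          rw [Nat.card_prod, Nat.card_zmod, hadm.card_total, sq]⟩
    obtain ⟨⟨a, b⟩, h⟩ := hb.2 x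
    exact ⟨a, b, h⟩
  have hex : ∀ σ : GalQ, ∃ r : ZMod p, σ • v₀ = cycMod p σ • v₀ + r • (c : V) := fun σ => by
    obtain ⟨r, hr⟩ := hspanC _ (hadm.cyclo_quot σ v₀)
    exact ⟨r, by rw [hr]; exact (add_sub_cancel _ _).symm⟩
  choose f hf using hex
  have hfc : ∀ σ : GalQ, σ • (c : V) = (c : V) := fun σ => hadm.fixed_sub σ _ hcC
  have hact : ∀ (σ : GalQ) (a b : ZMod p),
      σ • (a • v₀ + b • (c : V)) = (a * cycMod p σ) • v₀ + (a * f σ + b) • (c : V) := by
    intro σ a b
    rw [smul_add, smul_comm σ a v₀, smul_comm σ b (c : V), hf σ, hfc]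
    module
  have hmul : ∀ σ τ, f (σ * τ) = cycMod p τ * f σ + f τ := fun σ τ => by
    have h := hf (σ * τ)
    rw [mul_smul, hf τ, hact] at h
    exact ((huniq _ _ _ _ h).2).symm
  have hone : f 1 = 0 := by
    have h := hmul 1 1
    rw [one_mul, cycMod_one, one_mul] at h
    linear_combination -h
  refine ⟨f, hmul, ?_, fun σ => ?_, fun A hA => ?_⟩
  · by_contra! hall
    apply hns
    have hcomm : ∀ σ τ, f σ * (cycMod p τ - 1) = f τ * (cycMod p σ - 1) := by
      intro σ τ
      have hchi : cycMod p ((τ * σ)⁻¹ * (σ * τ)) = 1 := by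
        have h1 : cycMod p (τ * σ) * cycMod p ((τ * σ)⁻¹ * (σ * τ)) = cycMod p (σ * τ) := by
          rw [← cycMod_mul, mul_inv_cancel_left]
        rw [show cycMod p (σ * τ) = cycMod p (τ * σ) * 1 by
          rw [cycMod_mul, cycMod_mul, mul_one, mul_comm]] at h1
        exact mul_left_cancel₀ (cycMod_ne_zero _) h1
      have hk := hall _ hchi
      have h2 := hmul (τ * σ) ((τ * σ)⁻¹ * (σ * τ))
      rw [mul_inv_cancel_left, hk, hchi, one_mul, add_zero, hmul, hmul] at h2
      linear_combination h2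
    obtain ⟨t, ht⟩ : ∃ t, ∀ σ, f σ = t * (1 - cycMod p σ) := by
      by_cases htriv : ∀ σ : GalQ, cycMod p σ = 1
      · exact ⟨0, fun σ => by rw [zero_mul]; exact hall σ (htriv σ)⟩
      · push Not at htriv
        obtain ⟨τ, hτ⟩ := htriv
        refine ⟨f τ / (1 - cycMod p τ), fun σ => ?_⟩
        have h1 : (1 : ZMod p) - cycMod p τ ≠ 0 := sub_ne_zero.2 (Ne.symm hτ)
        rw [div_mul_eq_mul_div, eq_div_iff h1]
        linear_combination -hcomm σ τ
    let w : V := v₀ + (-t) • (c : V)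
    have hw : ∀ σ : GalQ, σ • w = cycMod p σ • w := fun σ => by
      have h := hact σ 1 (-t)
      rw [one_smul, one_mul, one_mul, ht σ] at h
      rw [h]
      simp only [w]
      module
    refine ⟨Submodule.span (ZMod p) {w}, fun σ x hx => ?_, ?_, ?_⟩
    · obtain ⟨r, rfl⟩ := Submodule.mem_span_singleton.1 hx
      rw [smul_comm σ r w, hw, smul_smul]
      exact Submodule.smul_mem _ _ (Submodule.mem_span_singleton_self w)
    · rw [Submodule.disjoint_def]
      intro x hxC hx
      obtain ⟨r, rfl⟩ := Submodule.mem_span_singleton.1 hx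
      obtain ⟨b, hb⟩ := hspanC _ hxC
      have h := huniq 0 r b (r * -t) (by rw [hb, zero_smul, zero_add]; simp only [w]; module)
      rw [← h.1, zero_smul]
    · rw [codisjoint_iff, eq_top_iff]
      intro x _
      obtain ⟨a, b, rfl⟩ := hcoord x
      refine Submodule.mem_sup.2 ⟨(b + a * t) • (c : V), C.smul_mem _ hcC, a • w,
        Submodule.smul_mem _ _ (Submodule.mem_span_singleton_self w), ?_⟩
      simp only [w]
      module
  · constructor
    · intro h
      have h1 := hf σ
      rw [h v₀] at h1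
      have h2 := huniq 1 (cycMod p σ) 0 (f σ) (by rw [one_smul, zero_smul, add_zero]; exact h1)
      exact ⟨h2.1.symm, h2.2.symm⟩
    · rintro ⟨h1, h2⟩ v
      obtain ⟨a, b, rfl⟩ := hcoord v
      rw [hact, h1, h2, mul_one, mul_zero, zero_add]
  · obtain ⟨C', hC', hcompl⟩ := hadm.locally_split A hA
    obtain ⟨y, hy, w, hw, hsum⟩ := Submodule.mem_sup.1
      (show v₀ ∈ C ⊔ C' by rw [hcompl.sup_eq_top]; exact Submodule.mem_top)
    obtain ⟨r, rfl⟩ := hspanC y hy
    refine ⟨r, fun σ hσ => ?_⟩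
    have hw' : w = (1 : ZMod p) • v₀ + (-r) • (c : V) := by
      rw [← hsum]; module
    have hdiff : σ • w - cycMod p σ • w = (f σ - r + cycMod p σ * r) • (c : V) := by
      conv_lhs => rw [hw', hact]
      module
    have hC'mem : σ • w - cycMod p σ • w ∈ C' := C'.sub_mem (hC' σ hσ w hw) (C'.smul_mem _ hw)
    rw [hdiff] at hC'mem
    have h0 := Submodule.disjoint_def.1 hcompl.disjoint _ (C.smul_mem _ hcC) hC'mem
    rw [smul_eq_zero, or_iff_left hc] at h0
    linear_combination h0

end Cocycle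

variable {V : Type} [AddCommGroup V] [Module (ZMod p) V]
  [DistribMulAction GalQ V] [SMulCommClass GalQ (ZMod p) V]
  {C : Submodule (ZMod p) V}

/-- The Kummer element of a non-split admissible extension of `μ_p` by `ℤ/p`. -/
theorem exists_kummer_element (hadm : IsAdmissibleExtensionCts p V C) (hns : ¬ SplitsGlobally C)
    (K : Type*) [Field K] [NumberField K] [IsCyclotomicExtension {p} ℚ K]
    {ζ : K} (hζ : IsPrimitiveRoot ζ p) :
    ∃ α : 𝓞 K, α ≠ 0 ∧ (∀ y : K, y ^ p ≠ (α : K)) ∧
      (∀ (σ : Gal(K/ℚ)) (a : ℕ), σ ζ = ζ ^ a →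
        ∃ y : K, σ (α : K) = (α : K) ^ (a ^ 2) * y ^ p) ∧
      (∃ I : Ideal (𝓞 K), Ideal.span {α} = I ^ p) ∧
      (∀ n : ℕ, ∃ y : 𝓞 K, α - y ^ p ∈ Ideal.span {(p : 𝓞 K) ^ n}) := by
  classical
  have : NeZero p := ⟨hp.out.ne_zero⟩
  obtain ⟨f, hmul, hne, hker, hloc⟩ := exists_cocycle hadm hns
  let N : Subgroup GalQ :=
    { carrier := {σ | ∀ v : V, σ • v = v}
      one_mem' := fun v => one_smul _ v
      mul_mem' := fun {a b} ha hb v => by rw [mul_smul, hb v, ha v]
      inv_mem' := fun {a} ha v => by rw [inv_smul_eq_iff, ha v] }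
  have hNn : N.Normal := ⟨fun n hn g v => by
    rw [mul_smul, mul_smul, hn (g⁻¹ • v), smul_inv_smul]⟩
  have hNopen : IsOpen (N : Set GalQ) := hadm.open_kernel
  have hNclosed : IsClosed (N : Set GalQ) := N.isClosed_of_isOpen hNopen
  let M : IntermediateField ℚ Qbar := IntermediateField.fixedField N
  have hM : M.fixingSubgroup = N := InfiniteGalois.fixingSubgroup_fixedField ⟨N, hNclosed⟩
  have : FiniteDimensional ℚ M :=
    (InfiniteGalois.isOpen_iff_finite M).1 (by rw [hM]; exact hNopen)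
  have : M.fixingSubgroup.Normal := hM ▸ hNn
  have : IsGalois ℚ M := (InfiniteGalois.normal_iff_isGalois M).mp inferInstance
  let ι : K →ₐ[ℚ] Qbar := IsAlgClosed.lift
  have hz : IsPrimitiveRoot (ι ζ) p := hζ.map_of_injective ι.injective
  have hιM : ∀ x : K, ι x ∈ M := by
    intro x
    rw [IntermediateField.mem_fixedField_iff]
    intro σ hσ
    have hσz : σ (ι ζ) = ι ζ := by
      rw [apply_eq_pw_cycMod hz.pow_eq_one, ((hker σ).1 hσ).1, pw_one]
    have h : ((σ : Qbar →ₐ[ℚ] Qbar).comp ι) = ι := (hζ.powerBasis ℚ).algHom_ext (by simpa using hσz)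
    exact DFunLike.congr_fun h x
  let φ : K →ₐ[ℚ] M := ι.codRestrict M.toSubalgebra hιM
  have hφ : ∀ x, ((φ x : M) : Qbar) = ι x := fun x => rfl
  let lift : Gal(M/ℚ) → GalQ := Function.surjInv (restrictK_surjective M)
  have hlift : ∀ s, restrictK M (lift s) = s := Function.surjInv_eq (restrictK_surjective M)
  have hwell : ∀ σ τ : GalQ, restrictK M σ = restrictK M τ →
      cycMod p σ = cycMod p τ ∧ f σ = f τ := by
    intro σ τ h
    have hmem : σ⁻¹ * τ ∈ N := by
      rw [← hM, ← ker_restrictK, MonoidHom.mem_ker, map_mul, map_inv, h, inv_mul_cancel]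
    obtain ⟨h1, h2⟩ := (hker _).1 hmem
    have hτ : τ = σ * (σ⁻¹ * τ) := (mul_inv_cancel_left σ τ).symm
    constructor
    · rw [hτ, cycMod_mul, h1, mul_one]
    · rw [hτ, hmul, h1, h2, one_mul, add_zero]
  let X : Gal(M/ℚ) → ZMod p := fun s => cycMod p (lift s)
  let F : Gal(M/ℚ) → ZMod p := fun s => f (lift s)
  have hXF : ∀ σ : GalQ, X (restrictK M σ) = cycMod p σ ∧ F (restrictK M σ) = f σ :=
    fun σ => hwell _ _ (hlift _)
  refine exists_kummer_element_of_finite φ hζ X F ?_ ?_ ?_ ?_ ?_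
  · intro s
    apply Subtype.ext
    have hpw : ((pw (φ ζ) (X s) : M) : Qbar) = pw (ι ζ) (X s) := by simp [pw, hφ]
    rw [hpw]
    conv_lhs => rw [← hlift s]
    rw [coe_restrictK_apply, hφ]
    exact apply_eq_pw_cycMod hz.pow_eq_one _
  · intro s t
    have h := (hXF (lift s * lift t)).2
    rw [map_mul, hlift, hlift, hmul] at h
    exact h
  · obtain ⟨h, h1, h2⟩ := hne
    exact ⟨restrictK M h, (hXF h).1.trans h1, (hXF h).2 ▸ h2⟩
  · intro P _ l hl hlp hlP
    obtain ⟨A, hA, rfl⟩ := exists_intIdeal_eq M hl P hlP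
    refine (inertia_le_fixingSubgroup_iff M hA hl).1 ?_
    rw [hM]
    exact fun σ hσ v => hadm.unramified_outside l hl hlp A hA σ hσ v
  · obtain ⟨A, hA⟩ := exists_liesOverPrime (q := p) hp.out
    obtain ⟨t, ht⟩ := hloc A hA
    refine ⟨intIdeal M A, intIdeal_isMaximal M hA hp.out, natCast_mem_intIdeal M hA, t,
      fun s hs => ?_⟩
    obtain ⟨τ, hτ, hτA⟩ := exists_smul_eq_of_fixed (A := lift s • A) (B := A)
      (liesOverPrime_smul hA _) hp.out M.fixingSubgroup
      (InfiniteGalois.fixingSubgroup_isClosed M) fun b hb => by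
        obtain ⟨a, rfl⟩ := (fixed_iff_mem_range_intIncl M b).1 hb
        change a ∈ intIdeal M (lift s • A) ↔ a ∈ intIdeal M A
        rw [intIdeal_smul, hlift, hs]
    have hD : τ * lift s ∈ A.decompositionSubgroup ℚ := by
      rw [mem_decompositionSubgroup_iff_eq, mul_smul, hτA]
    have hres : restrictK M (τ * lift s) = s := by
      rw [← ker_restrictK, MonoidHom.mem_ker] at hτ
      rw [map_mul, hτ, hlift, one_mul]
    have h := hXF (τ * lift s)
    rw [hres] at h
    rw [h.1, h.2]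
    exact ht _ hD

end Fermat.Agent.ExtVanish
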