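import Mathlib.RingTheory.DedekindDomain.Ideal.Lemmas
import Mathlib.RingTheory.Ideal.Pointwise
import Mathlib.RingTheory.Coprime.Lemmas
import Mathlib.GroupTheory.GroupAction.Quotient

/-!
# Algebraic lemmas for the Kummer descent

Approximation of elements fixed by a decomposition group by fully invariant elements, and
divisibility of multiplicities under extensions of Dedekind domains.
-/

noncomputable section

open scoped Pointwise Classical

namespace Fermat.Agent.ExtVanish

section Approx

variable {R : Type*} [CommRing R] {G : Type*} [Group G] [Finite G] [MulSemiringAction G R]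

omit [Finite G] in
theorem isMaximal_smul (g : G) (P : Ideal R) [P.IsMaximal] : (g • P).IsMaximal := by
  rw [Ideal.pointwise_smul_def]
  exact Ideal.map_isMaximal_of_equiv (MulSemiringAction.toRingEquiv G R g)

/-- An element fixed by the stabiliser of a maximal ideal is congruent modulo any power of that
ideal to an invariant element. -/
theorem exists_fixed_sub_mem (P : Ideal R) [hP : P.IsMaximal] (m : ℕ) {b : R}
    (hb : ∀ g : G, g • P = P → g • b = b) :
    ∃ y : R, (∀ g : G, g • y = y) ∧ y - b ∈ P ^ m := by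
  have : Fintype G := Fintype.ofFinite G
  let others : Finset (Ideal R) := (Finset.univ.image fun g : G => g • P).erase P
  let J : Ideal R := ∏ Q ∈ others, Q ^ m
  have hcop : IsCoprime (P ^ m) J := by
    refine IsCoprime.prod_right fun Q hQ => ?_
    obtain ⟨hne, hQ'⟩ := Finset.mem_erase.1 hQ
    obtain ⟨g, -, rfl⟩ := Finset.mem_image.1 hQ'
    have := isMaximal_smul g P
    exact (Ideal.isCoprime_of_isMaximal (I := P) hne.symm).pow
  obtain ⟨u, hu, e, he, hue⟩ := Ideal.isCoprime_iff_exists.1 hcop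
  let D : Subgroup G := MulAction.stabilizer G P
  let e' : R := ∏ d : D, (d : G) • e
  have he'1 : e' - 1 ∈ P ^ m := by
    rw [← Ideal.Quotient.mk_eq_mk_iff_sub_mem, map_one, map_prod]
    refine Finset.prod_eq_one fun d _ => ?_
    rw [← map_one (Ideal.Quotient.mk (P ^ m)), Ideal.Quotient.mk_eq_mk_iff_sub_mem]
    have h : (d : G) • (P ^ m) = P ^ m := by
      rw [Ideal.pointwise_smul_def, Ideal.map_pow, ← Ideal.pointwise_smul_def,
        MulAction.mem_stabilizer_iff.1 d.2]
    have h1 : e - 1 ∈ P ^ m := by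
      have h0 : e - 1 = -u := by rw [← hue]; ring
      rw [h0]; exact neg_mem hu
    have h2 := Ideal.smul_mem_pointwise_smul (d : G) _ _ h1
    rw [h, smul_sub, smul_one] at h2
    exact h2
  have he'J : ∀ g : G, g • P ≠ P → e' ∈ (g • P) ^ m := fun g hg => by
    have hQ : g • P ∈ others :=
      Finset.mem_erase.2 ⟨hg, Finset.mem_image.2 ⟨g, Finset.mem_univ _, rfl⟩⟩
    have heJ : e ∈ (g • P) ^ m := Ideal.le_of_dvd (Finset.dvd_prod_of_mem _ hQ) he
    change ∏ d : D, (d : G) • e ∈ _
    rw [Fintype.prod_eq_mul_prod_compl (1 : D)]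
    exact Ideal.mul_mem_right _ _ (by simpa using heJ)
  have he'D : ∀ d ∈ D, d • e' = e' := fun d hd => by
    change d • ∏ x : D, (x : G) • e = _
    rw [← MulSemiringAction.toRingHom_apply, map_prod]
    exact Fintype.prod_equiv (Equiv.mulLeft (⟨d, hd⟩ : D)) _ _ fun x => (mul_smul d (x : G) e).symm
  let w : R := b * e'
  have hwD : ∀ d ∈ D, d • w = w := fun d hd => by
    rw [smul_mul', hb d (MulAction.mem_stabilizer_iff.1 hd), he'D d hd]
  have hout : ∀ (g : G) (c : G ⧸ D), (QuotientGroup.mk g : G ⧸ D) = c → g • w = c.out • w := by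
    intro g c h
    have hmem : c.out⁻¹ * g ∈ D := by
      rw [← QuotientGroup.eq, QuotientGroup.out_eq']
      exact h.symm
    calc g • w = (c.out * (c.out⁻¹ * g)) • w := by rw [mul_inv_cancel_left]
      _ = c.out • w := by rw [mul_smul, hwD _ hmem]
  refine ⟨∑ c : G ⧸ D, c.out • w, fun g => ?_, ?_⟩
  · rw [Finset.smul_sum]
    refine Fintype.sum_equiv (MulAction.toPerm g) _ _ fun c => ?_
    rw [← mul_smul]
    refine hout _ _ ?_
    conv_rhs => rw [MulAction.toPerm_apply, ← QuotientGroup.out_eq' c]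
    rfl
  · rw [Fintype.sum_eq_add_sum_compl (QuotientGroup.mk 1 : G ⧸ D), ← hout 1 _ rfl, one_smul,
      add_sub_right_comm]
    refine add_mem ?_ (sum_mem fun c hc => ?_)
    · have h : w - b = b * (e' - 1) := by simp only [w]; ring
      rw [h]; exact Ideal.mul_mem_left _ _ he'1
    · have hne : c.out⁻¹ • P ≠ P := fun h => by
        simp only [Finset.mem_compl, Finset.mem_singleton] at hc
        apply hc
        rw [← QuotientGroup.out_eq' c]
        refine QuotientGroup.eq.2 ?_
        have hmem : c.out⁻¹ ∈ D := MulAction.mem_stabilizer_iff.2 h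
        simpa using hmem
      have hw : w ∈ (c.out⁻¹ • P) ^ m := Ideal.mul_mem_left _ _ (he'J _ hne)
      have h2 := Ideal.smul_mem_pointwise_smul c.out _ _ hw
      rwa [Ideal.pointwise_smul_def, Ideal.map_pow, ← Ideal.pointwise_smul_def, smul_inv_smul] at h2

end Approx

section Dedekind

variable {R S : Type*} [CommRing R] [CommRing S] [IsDedekindDomain R] [IsDedekindDomain S]

/-- The exponent of `Q` in `(x)` is at least `k` exactly when `x ∈ Q ^ k`. -/
theorem le_emultiplicity_span_iff (Q : Ideal R) (x : R) (k : ℕ) :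
    (k : ℕ∞) ≤ emultiplicity Q (Ideal.span {x}) ↔ x ∈ Q ^ k := by
  rw [← pow_dvd_iff_le_emultiplicity, Ideal.dvd_iff_le, Ideal.span_le, Set.singleton_subset_iff]
  rfl

/-- Multiplicities at a prime `P` are multiples of those at the prime below. -/
theorem emultiplicity_span_map (φ : R →+* S) (P : Ideal S) [P.IsPrime] (hP0 : P ≠ ⊥)
    (Q : Ideal R) [Q.IsMaximal] (hQ : P.comap φ = Q) (hQ0 : Q ≠ ⊥) {x : R} (hx : x ≠ 0) :
    emultiplicity P (Ideal.span {φ x}) =
      emultiplicity Q (Ideal.span {x}) * emultiplicity P (Q.map φ) := by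
  have hQp : Prime Q := Ideal.prime_of_isPrime hQ0 inferInstance
  have hPp : Prime P := Ideal.prime_of_isPrime hP0 inferInstance
  have hfin : FiniteMultiplicity Q (Ideal.span {x}) :=
    FiniteMultiplicity.of_prime_left hQp (by simpa using hx)
  obtain ⟨J, hJ, hJQ⟩ := hfin.exists_eq_pow_mul_and_not_dvd
  have h0 : emultiplicity P (J.map φ) = 0 := by
    rw [emultiplicity_eq_zero, Ideal.dvd_iff_le, Ideal.map_le_iff_le_comap, hQ]
    exact fun h => hJQ (Ideal.dvd_iff_le.2 h)
  have hmap : (Ideal.span {φ x} : Ideal S) =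
      (Q.map φ) ^ multiplicity Q (Ideal.span {x}) * J.map φ := by
    rw [← Set.image_singleton, ← Ideal.map_span, ← Ideal.map_pow, ← Ideal.map_mul, ← hJ]
  rw [hmap, emultiplicity_mul hPp, emultiplicity_pow hPp, h0, add_zero,
    hfin.emultiplicity_eq_multiplicity]

/-- A nonzero element all whose multiplicities are divisible by `p` generates a `p`-th power. -/
theorem exists_span_eq_pow {x : R} (hx : x ≠ 0) {p : ℕ}
    (h : ∀ Q : Ideal R, Q.IsMaximal → ∀ v : ℕ, emultiplicity Q (Ideal.span {x}) = v → p ∣ v) :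
    ∃ I : Ideal R, Ideal.span {x} = I ^ p := by
  have hne : (Ideal.span {x} : Ideal R) ≠ 0 := by simpa using hx
  obtain ⟨s, hs⟩ := Multiset.exists_smul_of_dvd_count
    (UniqueFactorizationMonoid.normalizedFactors (Ideal.span {x})) (k := p) fun Q hQ => by
      have hQp := UniqueFactorizationMonoid.prime_of_normalized_factor Q hQ
      have : Q.IsPrime := Ideal.isPrime_of_prime hQp
      have hQm : Q.IsMaximal := Ideal.IsPrime.isMaximal inferInstance hQp.ne_zero
      refine h Q hQm _ ?_
      rw [UniqueFactorizationMonoid.emultiplicity_eq_count_normalizedFactors hQp.irreducible hne,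
        normalize_eq]
  refine ⟨s.prod, ?_⟩
  rw [← associated_iff_eq.1 (UniqueFactorizationMonoid.prod_normalizedFactors hne), hs,
    Multiset.prod_nsmul]

/-- If `x` is a `p`-th power modulo a high power of `Q`, its multiplicity at `Q` is divisible
by `p`. -/
theorem dvd_multiplicity_of_sub_pow_mem (Q : Ideal R) (hQ : Prime Q) {x y : R} {v p : ℕ}
    (hp : p ≠ 0) (hv : emultiplicity Q (Ideal.span {x}) = v) (h : x - y ^ p ∈ Q ^ (v + 1)) :
    p ∣ v := by
  have hle : ∀ k : ℕ, k ≤ v + 1 → (y ^ p ∈ Q ^ k ↔ x ∈ Q ^ k) := fun k hk => by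
    have hm : x - y ^ p ∈ Q ^ k := Ideal.pow_le_pow_right hk h
    exact ⟨fun hy => by simpa using add_mem hm hy, fun hx => by simpa using sub_mem hx hm⟩
  have h1 : (y ^ p : R) ∈ Q ^ v :=
    (hle v (Nat.le_succ v)).2 ((le_emultiplicity_span_iff Q x v).1 hv.ge)
  have h2 : (y ^ p : R) ∉ Q ^ (v + 1) := fun hy => by
    have := (le_emultiplicity_span_iff Q x (v + 1)).2 ((hle (v + 1) le_rfl).1 hy)
    rw [hv, Nat.cast_le] at this
    omega
  have h3 : emultiplicity Q (Ideal.span {y ^ p}) = v := by
    refine emultiplicity_eq_of_dvd_of_not_dvd ?_ ?_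
    · rwa [Ideal.dvd_iff_le, Ideal.span_le, Set.singleton_subset_iff, SetLike.mem_coe]
    · rwa [Ideal.dvd_iff_le, Ideal.span_le, Set.singleton_subset_iff, SetLike.mem_coe]
  rw [← Ideal.span_singleton_pow, emultiplicity_pow hQ] at h3
  cases hcase : emultiplicity Q (Ideal.span {y}) with
  | top =>
    rw [hcase, ENat.mul_top (by exact_mod_cast hp)] at h3
    exact absurd h3 (ENat.top_ne_natCast v)
  | coe k =>
    rw [hcase, ← Nat.cast_mul, Nat.cast_inj] at h3
    exact ⟨k, h3.symm⟩

end Dedekind

end Fermat.Agent.ExtVanish
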