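import Fermat.Agent.ExtVanish.DescentAlgebra
import Mathlib.NumberTheory.NumberField.Cyclotomic.Ideal
import Mathlib.NumberTheory.NumberField.Cyclotomic.Galois
import Mathlib.NumberTheory.RamificationInertia.Galois
import Mathlib.NumberTheory.RamificationInertia.Unramified
import Mathlib.FieldTheory.Galois.Basic
import Mathlib.LinearAlgebra.LinearIndependent.Lemmas

/-!
# Kummer element of a twisted cocycle at finite level

`M` is a finite Galois extension of `ℚ` containing `K = ℚ(ζ)`, `X` the cyclotomic character mod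
`p` and `F` a twisted cocycle, unramified away from `p` and locally a coboundary at `p`.
-/

noncomputable section

open scoped Pointwise NumberField Classical
open NumberField

namespace Fermat.Agent.ExtVanish

section Pw

variable {p : ℕ} [hp : Fact p.Prime] {M : Type*} [CommMonoid M] {z : M}

/-- `z ^ a` for `a : ZMod p`. -/
def pw (z : M) (a : ZMod p) : M := z ^ a.val

theorem pw_natCast (hz : z ^ p = 1) (n : ℕ) : pw z (n : ZMod p) = z ^ n := by
  rw [pw, ZMod.val_natCast]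
  exact (pow_eq_pow_mod n hz).symm

theorem pw_add (hz : z ^ p = 1) (a b : ZMod p) : pw z (a + b) = pw z a * pw z b := by
  rw [pw, pw, pw, ← pow_add, ZMod.val_add]
  exact (pow_eq_pow_mod _ hz).symm

theorem pw_pow (hz : z ^ p = 1) (a : ZMod p) (n : ℕ) : pw z a ^ n = pw z (a * (n : ZMod p)) := by
  rw [pw, ← pow_mul, ← pw_natCast hz]
  simp [ZMod.natCast_val]

theorem pw_zero : pw z (0 : ZMod p) = 1 := by simp [pw]

/-- `z ^ 1 = z`. -/
theorem pw_one : pw z (1 : ZMod p) = z := by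
  have : Fact (1 < p) := ⟨hp.out.one_lt⟩
  simp [pw, ZMod.val_one]

omit hp in
theorem map_pw {N : Type*} [CommMonoid N] {G : Type*} [FunLike G M N] [MonoidHomClass G M N]
    (g : G) (a : ZMod p) : g (pw z a) = pw (g z) a := map_pow g z a.val

theorem pw_injective (hz : IsPrimitiveRoot z p) : Function.Injective (pw z : ZMod p → M) :=
  fun _ _ h => ZMod.val_injective p (hz.pow_inj (ZMod.val_lt _) (ZMod.val_lt _) h)

end Pw

variable {p : ℕ} [hp : Fact p.Prime] {K : Type*} [Field K] [NumberField K]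
  [IsCyclotomicExtension {p} ℚ K] {ζ : K}
  {M : Type*} [Field M] [NumberField M] [IsGalois ℚ M]

omit [IsGalois ℚ M] in
/-- Conjugation of a twisted cocycle on the kernel of the character. -/
theorem cocycle_conj (X F : Gal(M/ℚ) → ZMod p) (hX : ∀ s t, X (s * t) = X s * X t)
    (hF : ∀ s t, F (s * t) = X t * F s + F t) (h g : Gal(M/ℚ)) (hh : X h = 1) :
    F (g⁻¹ * (h * g)) = X g * F h := by
  have h1 : F 1 = 0 := by
    have e := hF 1 h
    rw [one_mul, hh, one_mul] at e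
    linear_combination -e
  have hinv := hF g⁻¹ g
  rw [inv_mul_cancel, h1] at hinv
  rw [hF g⁻¹ (h * g), hF h g, hX h g, hh, one_mul]
  linear_combination -hinv

variable (φ : K →ₐ[ℚ] M)

/-- The map on integers induced by an embedding. -/
def intMap : 𝓞 K →+* 𝓞 M := RingOfIntegers.mapRingHom φ.toRingHom

omit [IsGalois ℚ M] in
theorem coe_intMap (x : 𝓞 K) : ((intMap φ x : 𝓞 M) : M) = φ (x : K) := rfl

omit [IsGalois ℚ M] in
theorem intMap_injective : Function.Injective (intMap φ) := fun _ _ h =>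
  RingOfIntegers.ext (φ.injective (congrArg (fun z : 𝓞 M => (z : M)) h))

omit [IsGalois ℚ M] in
theorem coe_smul_int (s : Gal(M/ℚ)) (x : 𝓞 M) : ((s • x : 𝓞 M) : M) = s (x : M) := rfl

omit [IsCyclotomicExtension {p} ℚ K] [IsGalois ℚ M] in
/-- A prime of `M` lies above every prime of `K`. -/
theorem exists_maximal_over (Q : Ideal (𝓞 K)) [Q.IsMaximal] :
    ∃ P : Ideal (𝓞 M), P.IsMaximal ∧ P.comap (intMap φ) = Q := by
  let : Algebra (𝓞 K) (𝓞 M) := (intMap φ).toAlgebra
  have : IsScalarTower ℤ (𝓞 K) (𝓞 M) :=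
    IsScalarTower.of_algebraMap_eq fun x => (map_intCast (intMap φ) x).symm
  have : Algebra.IsIntegral (𝓞 K) (𝓞 M) :=
    ⟨fun x => (Algebra.IsIntegral.isIntegral (R := ℤ) x).tower_top⟩
  exact Ideal.exists_ideal_over_maximal_of_isIntegral (S := 𝓞 M) Q fun x hx => by
    have h0 : intMap φ x = intMap φ 0 := (RingHom.mem_ker.1 hx).trans (map_zero _).symm
    rw [intMap_injective φ h0]
    exact zero_mem _

omit [IsGalois ℚ M] in
/-- At an unramified prime `P` over a rational prime, a natural number prime does not lie in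
`P ^ 2`. -/
theorem natCast_notMem_sq_of_unramified (P : Ideal (𝓞 M)) [P.IsMaximal] {l : ℕ} (hl : l.Prime)
    (hlP : (l : 𝓞 M) ∈ P) [Algebra.IsUnramifiedAt ℤ P] : (l : 𝓞 M) ∉ P ^ 2 := by
  intro h2
  have hlmax : (Ideal.span {(l : ℤ)}).IsMaximal :=
    PrincipalIdealRing.isMaximal_of_irreducible (Nat.prime_iff_prime_int.mp hl).irreducible
  have : P.LiesOver (Ideal.span {(l : ℤ)}) := ⟨hlmax.eq_of_le
    (Ideal.comap_ne_top _ Ideal.IsPrime.ne_top') (by
      rw [Ideal.span_le, Set.singleton_subset_iff]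
      simpa using hlP)⟩
  have hmap : (Ideal.span {(l : ℤ)}).map (algebraMap ℤ (𝓞 M)) = Ideal.span {(l : 𝓞 M)} := by
    rw [Ideal.map_span, Set.image_singleton, map_natCast]
  have hne : (Ideal.span {(l : ℤ)}).map (algebraMap ℤ (𝓞 M)) ≠ ⊥ := by
    rw [hmap]; simpa using hl.ne_zero
  have h1 : multiplicity P ((Ideal.span {(l : ℤ)}).map (algebraMap ℤ (𝓞 M))) = 1 := by
    rw [← Ideal.IsDedekindDomain.ramificationIdx_eq_multiplicity _ P hne]
    exact Ideal.ramificationIdx_eq_one P ℤ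
  have hP0 : P ≠ ⊥ := ne_bot_of_le_ne_bot hne (by
    rw [hmap, Ideal.span_le, Set.singleton_subset_iff]; exact hlP)
  have h3 : 2 ≤ multiplicity P ((Ideal.span {(l : ℤ)}).map (algebraMap ℤ (𝓞 M))) := by
    refine FiniteMultiplicity.le_multiplicity_of_pow_dvd
      (FiniteMultiplicity.of_prime_left (Ideal.prime_of_isPrime hP0 inferInstance) hne) ?_
    rw [Ideal.dvd_iff_le, hmap, Ideal.span_le, Set.singleton_subset_iff]
    exact h2
  omega

omit [IsGalois ℚ M] in
/-- Local `p`-th power at the prime over `p`. -/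
theorem exists_sub_pow_mem (X F : Gal(M/ℚ) → ZMod p) (hX : ∀ s t, X (s * t) = X s * X t)
    (hfixInt : ∀ x : 𝓞 M, (∀ s, X s = 1 → s • x = x) → ∃ y : 𝓞 K, intMap φ y = x)
    {P : Ideal (𝓞 M)} (hP : P.IsMaximal) (hpP : (p : 𝓞 M) ∈ P) (t : ZMod p)
    (ht : ∀ s : Gal(M/ℚ), s • P = P → F s = t * (1 - X s))
    {zi β : 𝓞 M} (hHβ : ∀ g, X g = 1 → g • β = pw zi (F g) * β)
    {α : 𝓞 K} (hα : intMap φ α = β ^ p) (hζ : IsPrimitiveRoot ζ p) (n : ℕ) :
    ∃ y : 𝓞 K, α - y ^ p ∈ Ideal.span {(p : 𝓞 K) ^ n} := by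
  have := hP
  have : NeZero p := ⟨hp.out.ne_zero⟩
  have hX1 : X 1 = 1 ∨ X 1 = 0 := by
    have h := hX 1 1
    rw [one_mul] at h
    rcases eq_or_ne (X 1) 0 with h0 | h0
    · exact Or.inr h0
    · exact Or.inl (mul_left_cancel₀ h0 (h.symm.trans (mul_one _).symm))
  let Q : Ideal (𝓞 K) := Ideal.span {hζ.toInteger - 1}
  have hQp : Q.IsPrime := IsCyclotomicExtension.Rat.isPrime_span_zeta_sub_one' p hζ
  have hspan : Q ^ (p - 1) = Ideal.span {(p : 𝓞 K)} := by
    rw [Ideal.span_singleton_pow, Ideal.span_singleton_eq_span_singleton]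
    exact IsCyclotomicExtension.Rat.associated_zeta_sub_one_pow_prime p hζ
  have hp0K : (p : 𝓞 K) ≠ 0 := Nat.cast_ne_zero.2 hp.out.ne_zero
  have hp2 : p - 1 ≠ 0 := by have := hp.out.two_le; omega
  have hQ0 : Q ≠ ⊥ := fun h => hp0K <| by
    rw [h, ← Ideal.zero_eq_bot, zero_pow hp2, Ideal.zero_eq_bot] at hspan
    exact Ideal.span_singleton_eq_bot.1 hspan.symm
  have hQm : Q.IsMaximal := Ideal.IsPrime.isMaximal hQp hQ0
  have hcomap : P.comap (intMap φ) = Q := by
    refine (hQm.eq_of_le (Ideal.comap_ne_top _ hP.ne_top) ?_).symm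
    refine (Ideal.IsPrime.pow_le_iff (hn := hp2)).1 ?_
    rw [hspan, Ideal.span_singleton_le_iff_mem, Ideal.mem_comap, map_natCast]
    exact hpP
  have hP0 : P ≠ ⊥ := fun h => by
    subst h
    exact Nat.cast_ne_zero.2 hp.out.ne_zero (Ideal.mem_bot.1 hpP)
  have hmap0 : Q.map (intMap φ) ≠ ⊥ :=
    (Ideal.map_eq_bot_iff_of_injective (intMap_injective φ)).not.2 hQ0
  have hfinP := FiniteMultiplicity.of_prime_left (Ideal.prime_of_isPrime hP0 hP.isPrime) hmap0
  set e := multiplicity P (Q.map (intMap φ)) with hedef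
  have he0 : e ≠ 0 := by
    have h1 : 1 ≤ e := hfinP.le_multiplicity_of_pow_dvd (by
      rw [pow_one, Ideal.dvd_iff_le, Ideal.map_le_iff_le_comap, hcomap])
    omega
  rcases hX1 with hX1 | hX1
  swap
  · -- degenerate: `X` vanishes identically
    have hzero : ∀ s, X s = 0 := fun s => by
      have h := hX s 1
      rwa [mul_one, hX1, mul_zero] at h
    obtain ⟨y, hy⟩ := hfixInt β fun s hs => absurd ((hzero s).symm.trans hs) zero_ne_one
    exact ⟨y, by
      have h : α = y ^ p := intMap_injective φ (by rw [hα, map_pow, hy])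
      simp [h]⟩
  let Hs : Subgroup Gal(M/ℚ) :=
    { carrier := {s | X s = 1}
      one_mem' := hX1
      mul_mem' := fun {a b} ha hb => by
        simp only [Set.mem_ofPred_eq] at ha hb ⊢
        rw [hX, ha, hb, one_mul]
      inv_mem' := fun {a} ha => by
        simp only [Set.mem_ofPred_eq] at ha ⊢
        have h := hX a a⁻¹
        rw [mul_inv_cancel, hX1, ha, one_mul] at h
        exact h.symm }
  obtain ⟨y', hy'fix, hy'⟩ := exists_fixed_sub_mem (G := Hs) P (n * (p - 1) * e) (b := β)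
    fun g hg => by
      have hg1 : X g.1 = 1 := g.2
      have hFg : F g.1 = 0 := by
        have hg' : g.1 • P = P := hg
        rw [ht g.1 hg', hg1, sub_self, mul_zero]
      change g.1 • β = β
      rw [hHβ g.1 hg1, hFg, pw_zero, one_mul]
  obtain ⟨y, hy⟩ := hfixInt y' fun s hs => hy'fix ⟨s, hs⟩
  refine ⟨y, ?_⟩
  by_cases hx : α - y ^ p = 0
  · rw [hx]; exact zero_mem _
  rw [← Ideal.span_singleton_pow, ← hspan, ← pow_mul, mul_comm (p - 1) n,
    ← le_emultiplicity_span_iff]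
  have hmem : intMap φ (α - y ^ p) ∈ P ^ (n * (p - 1) * e) := by
    rw [map_sub, map_pow, hα, hy]
    refine Ideal.mem_of_dvd _ (sub_dvd_pow_sub_pow β y' p) ?_
    rw [← neg_sub]
    exact neg_mem hy'
  have h := emultiplicity_span_map (intMap φ) P hP0 Q hcomap hQ0 hx
  rw [← le_emultiplicity_span_iff, h, hfinP.emultiplicity_eq_multiplicity, ← hedef] at hmem
  by_contra hlt
  rw [not_le] at hlt
  obtain ⟨k, hk⟩ := ENat.ne_top_iff_exists.1 (ne_top_of_lt hlt)
  rw [← hk] at hmem hlt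
  have h1 : n * (p - 1) * e ≤ k * e := by exact_mod_cast hmem
  have h2 : k < n * (p - 1) := by exact_mod_cast hlt
  exact absurd (Nat.le_of_mul_le_mul_right h1 (Nat.pos_of_ne_zero he0)) (not_le.2 h2)

omit [IsGalois ℚ M] in
/-- The exponent by which automorphisms act on a primitive root of unity is multiplicative. -/
theorem character_mul {z : M} (hz : IsPrimitiveRoot z p) {X : Gal(M/ℚ) → ZMod p}
    (hXz : ∀ s, s z = pw z (X s)) (s t : Gal(M/ℚ)) : X (s * t) = X s * X t :=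
  pw_injective hz (by
    rw [← hXz, AlgEquiv.mul_apply, hXz t, map_pw, hXz s]
    change pw z (X s) ^ (X t).val = _
    rw [pw_pow hz.pow_eq_one]
    simp [ZMod.natCast_val])

omit [IsCyclotomicExtension {p} ℚ K] in
/-- Elements fixed by the kernel of the cyclotomic character come from `K`. -/
theorem exists_eq_of_fixed (hζ : IsPrimitiveRoot ζ p) {X : Gal(M/ℚ) → ZMod p}
    (hXζ : ∀ s, s (φ ζ) = pw (φ ζ) (X s)) {x : M} (hx : ∀ s, X s = 1 → s x = x) :
    ∃ y : K, φ y = x := by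
  have hmem : x ∈ φ.fieldRange := by
    rw [← IsGalois.fixedField_fixingSubgroup φ.fieldRange, IntermediateField.mem_fixedField_iff]
    intro s hs
    refine hx s (pw_injective (hζ.map_of_injective φ.injective : IsPrimitiveRoot (φ ζ) p) ?_)
    rw [← hXζ, pw_one]
    exact (IntermediateField.mem_fixingSubgroup_iff _ _).1 hs _ ⟨ζ, rfl⟩
  exact hmem

omit [IsCyclotomicExtension {p} ℚ K] in
/-- Integers fixed by the kernel of the cyclotomic character come from `𝓞 K`. -/
theorem exists_intMap_eq_of_fixed (hζ : IsPrimitiveRoot ζ p) {X : Gal(M/ℚ) → ZMod p}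
    (hXζ : ∀ s, s (φ ζ) = pw (φ ζ) (X s)) {x : 𝓞 M} (hx : ∀ s, X s = 1 → s • x = x) :
    ∃ y : 𝓞 K, intMap φ y = x := by
  obtain ⟨y, hy⟩ := exists_eq_of_fixed φ hζ hXζ (x := (x : M)) fun s hs =>
    congrArg (fun w : 𝓞 M => (w : M)) (hx s hs)
  have hint : IsIntegral ℤ y :=
    (isIntegral_algHom_iff (φ.restrictScalars ℤ) φ.injective).1
      (by simpa [hy] using x.isIntegral_coe)
  exact ⟨⟨y, hint⟩, RingOfIntegers.ext hy⟩

omit [IsGalois ℚ M] in
/-- The Lagrange resolvent of a cocycle: a nonzero integer on which the kernel of the character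
acts through the cocycle. -/
theorem exists_resolvent {z : M} (hz : IsPrimitiveRoot z p) {X F : Gal(M/ℚ) → ZMod p}
    (hXz : ∀ s, s z = pw z (X s)) (hF : ∀ s t, F (s * t) = X t * F s + F t)
    (hne : ∃ h, X h = 1 ∧ F h ≠ 0) :
    ∃ β : 𝓞 M, β ≠ 0 ∧ ∀ g, X g = 1 → g • β = pw hz.toInteger (F g) * β := by
  have hX := character_mul hz hXz
  let zi : 𝓞 M := hz.toInteger
  have hzi : (zi : M) = z := rfl
  have hzi1 : zi ^ p = 1 := RingOfIntegers.ext (by simpa [hzi] using hz.pow_eq_one)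
  let H := {s : Gal(M/ℚ) // X s = 1}
  let res : 𝓞 M → 𝓞 M := fun θ => ∑ s : H, pw zi (-F s.1) * s.1 • θ
  obtain ⟨θ, hθ⟩ : ∃ θ, res θ ≠ 0 := by
    by_contra! hall
    let ψ : H → (𝓞 M →* M) := fun s =>
      ((s.1 : M →+* M).comp (algebraMap (𝓞 M) M)).toMonoidHom
    have hψ : Function.Injective ψ := by
      intro s t h
      apply Subtype.ext
      refine AlgEquiv.ext fun x => ?_
      obtain ⟨a, b, -, rfl⟩ := IsFractionRing.div_surjective (𝓞 M) x
      have ha := DFunLike.congr_fun h a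
      have hb := DFunLike.congr_fun h b
      simp only [map_div₀]
      exact congrArg₂ (· / ·) ha hb
    have hli := (linearIndependent_monoidHom (𝓞 M) M).comp ψ hψ
    rw [Fintype.linearIndependent_iff] at hli
    obtain ⟨h, hh, -⟩ := hne
    have hzero := hli (fun s => pw z (-F s.1)) ?_ ⟨h, hh⟩
    · exact (pow_ne_zero _ (hz.ne_zero hp.out.ne_zero)) hzero
    · funext θ
      have h0 := congrArg (fun w : 𝓞 M => algebraMap (𝓞 M) M w) (hall θ)
      simp only [res, map_sum, map_mul, map_zero] at h0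
      simp only [Finset.sum_apply, Pi.smul_apply, smul_eq_mul, Pi.zero_apply, Function.comp_apply]
      refine (Finset.sum_congr rfl fun s _ => ?_).trans h0
      rw [map_pw]
      rfl
  set β : 𝓞 M := res θ with hβdef
  refine ⟨β, hθ, fun g hg => ?_⟩
  have hgz : g • zi = zi := RingOfIntegers.ext (by
    rw [coe_smul_int, hzi, hXz, hg, pw_one])
  simp only [hβdef, res, Finset.smul_sum, Finset.mul_sum]
  let e : H ≃ H :=
    { toFun := fun s => ⟨g * s.1, by rw [hX, hg, s.2, one_mul]⟩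
      invFun := fun s => ⟨g⁻¹ * s.1, by
        have := hX g (g⁻¹ * s.1)
        rw [mul_inv_cancel_left, hg, one_mul, s.2] at this
        exact this.symm⟩
      left_inv := fun s => Subtype.ext (inv_mul_cancel_left g s.1)
      right_inv := fun s => Subtype.ext (mul_inv_cancel_left g s.1) }
  refine Fintype.sum_equiv e _ _ fun s => ?_
  rw [smul_mul', ← mul_assoc, ← pw_add hzi1, ← MulSemiringAction.toRingHom_apply, map_pw,
    MulSemiringAction.toRingHom_apply, hgz, ← mul_smul]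
  simp only [e, Equiv.coe_fn_mk]
  rw [hF g s.1, s.2]
  congr 2
  ring

omit [IsGalois ℚ M] in
/-- An element on which a nontrivial cocycle acts is not the `p`-th root of a `p`-th power in
`K`. -/
theorem pow_ne_of_eigen (hζ : IsPrimitiveRoot ζ p) {X F : Gal(M/ℚ) → ZMod p}
    (hXζ : ∀ s, s (φ ζ) = pw (φ ζ) (X s)) (hne : ∃ h, X h = 1 ∧ F h ≠ 0) {β : M} (hβ0 : β ≠ 0)
    (hHβ : ∀ g, X g = 1 → g β = pw (φ ζ) (F g) * β) {α : K} (hα : φ α = β ^ p) (y : K) :
    y ^ p ≠ α := by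
  have hz : IsPrimitiveRoot (φ ζ) p := hζ.map_of_injective φ.injective
  have : NeZero p := ⟨hp.out.ne_zero⟩
  intro hy
  obtain ⟨h, hh, hFh⟩ := hne
  have hy' : (φ y) ^ p = β ^ p := by rw [← map_pow, hy, hα]
  have hy0 : φ y ≠ 0 := fun h0 => by
    rw [h0, zero_pow hp.out.ne_zero] at hy'
    exact pow_ne_zero p hβ0 hy'.symm
  obtain ⟨i, -, hi⟩ := hz.eq_pow_of_pow_eq_one (ξ := β / φ y)
    (by rw [div_pow, hy', div_self (pow_ne_zero p hβ0)])
  have hβy : β = φ (ζ ^ i * y) := by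
    rw [map_mul, map_pow, hi, div_mul_cancel₀ _ hy0]
  have hzh : h (φ ζ) = φ ζ := by rw [hXζ, hh, pw_one]
  have hfixK : ∀ w : K, h (φ w) = φ w := fun w => by
    have hw : (φ.comp (AlgHom.id ℚ K)) w = ((h : M →ₐ[ℚ] M).comp φ) w := by
      refine DFunLike.congr_fun ?_ w
      exact (hζ.powerBasis ℚ).algHom_ext (by simp [hzh])
    simpa using hw.symm
  have h1 := hHβ h hh
  rw [hβy, hfixK, ← hβy] at h1
  have h2 : pw (φ ζ) (F h) = pw (φ ζ) (0 : ZMod p) := by
    rw [pw_zero]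
    exact mul_right_cancel₀ hβ0 (by rw [one_mul]; exact h1.symm)
  exact hFh (pw_injective hz h2)

omit [IsCyclotomicExtension {p} ℚ K] in
/-- The Galois group moves the Kummer element by the square of the cyclotomic character, modulo
`p`-th powers. -/
theorem exists_galois_eq_pow_mul (hζ : IsPrimitiveRoot ζ p) {X F : Gal(M/ℚ) → ZMod p}
    (hXζ : ∀ s, s (φ ζ) = pw (φ ζ) (X s)) (hF : ∀ s t, F (s * t) = X t * F s + F t) {β : M}
    (hβ0 : β ≠ 0) (hHβ : ∀ g, X g = 1 → g β = pw (φ ζ) (F g) * β) {α : K} (hα : φ α = β ^ p)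
    (σ : Gal(K/ℚ)) (a : ℕ) (ha : σ ζ = ζ ^ a) : ∃ y : K, σ α = α ^ (a ^ 2) * y ^ p := by
  have hz : IsPrimitiveRoot (φ ζ) p := hζ.map_of_injective φ.injective
  have hX := character_mul hz hXζ
  let : Algebra K M := φ.toRingHom.toAlgebra
  have : IsScalarTower ℚ K M := IsScalarTower.of_algebraMap_eq fun x => (φ.commutes x).symm
  let g : Gal(M/ℚ) := σ.liftNormal M
  have hg : ∀ x : K, g (φ x) = φ (σ x) := fun x => AlgEquiv.liftNormal_commutes σ M x
  have hXg : X g = (a : ZMod p) := pw_injective hz (by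
    rw [← hXζ, pw_natCast hz.pow_eq_one, hg, ha, map_pow])
  have hγ : ∀ h, X h = 1 →
      h (g β / β ^ (a ^ 2)) = g β / β ^ (a ^ 2) := by
    intro h hh
    have hXc : X (g⁻¹ * (h * g)) = 1 := by
      have e2 := hX g (g⁻¹ * (h * g))
      rw [mul_inv_cancel_left, hX, hh, one_mul] at e2
      have hXg0 : X g ≠ 0 := fun h0 => by
        have hzero := hXζ g
        rw [h0, pw_zero] at hzero
        exact hz.ne_one hp.out.one_lt (g.injective (hzero.trans (map_one g).symm))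
      exact mul_left_cancel₀ hXg0 (by rw [mul_one]; exact e2.symm)
    have hhg : h (g β) = pw (φ ζ) (X g * (X g * F h)) * g β := by
      have e : h (g β) = g ((g⁻¹ * (h * g)) β) := by
        simp only [← AlgEquiv.mul_apply, mul_inv_cancel_left]
      rw [e, hHβ _ hXc, map_mul, map_pw, hXζ g, cocycle_conj X F hX hF h g hh]
      change pw (φ ζ) (X g) ^ (X g * F h).val * _ = _
      rw [pw_pow hz.pow_eq_one]
      simp [ZMod.natCast_val]
    rw [map_div₀, map_pow, hhg, hHβ h hh, mul_pow, pw_pow hz.pow_eq_one, hXg]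
    have hpw : pw (φ ζ) (F h * ((a ^ 2 : ℕ) : ZMod p)) ≠ 0 :=
      pow_ne_zero _ (hz.ne_zero hp.out.ne_zero)
    rw [show (a : ZMod p) * ((a : ZMod p) * F h) = F h * ((a ^ 2 : ℕ) : ZMod p) by push_cast; ring]
    field_simp
  obtain ⟨y, hy⟩ := exists_eq_of_fixed φ hζ hXζ hγ
  refine ⟨y, φ.injective ?_⟩
  change φ (σ α) = φ (α ^ (a ^ 2) * y ^ p)
  rw [← hg, hα, map_pow g, map_mul φ, map_pow φ, map_pow φ, hα, hy, div_pow, ← pow_mul,
    ← pow_mul]
  rw [mul_comm p (a ^ 2), mul_div_cancel₀ _ (pow_ne_zero _ hβ0)]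

omit [IsGalois ℚ M] in
/-- An element which becomes a `p`-th power in `M` generates a `p`-th power of an ideal, if `M` is
unramified away from `p` and the element is locally a `p`-th power at `p`. -/
theorem exists_span_eq_pow_of_unramified
    (hunr : ∀ (P : Ideal (𝓞 M)) [P.IsMaximal], ∀ l : ℕ, l.Prime → l ≠ p → (l : 𝓞 M) ∈ P →
      Algebra.IsUnramifiedAt ℤ P)
    {β : 𝓞 M} {α : 𝓞 K} (hα0 : α ≠ 0) (hα : intMap φ α = β ^ p)
    (hloc : ∀ n : ℕ, ∃ y : 𝓞 K, α - y ^ p ∈ Ideal.span {(p : 𝓞 K) ^ n}) :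
    ∃ I : Ideal (𝓞 K), Ideal.span {α} = I ^ p := by
  refine exists_span_eq_pow hα0 fun Q hQ v hv => ?_
  by_cases hQbot : Q = ⊥
  · subst hQbot
    have h0 : emultiplicity (⊥ : Ideal (𝓞 K)) (Ideal.span {α}) = 0 := by
      rw [emultiplicity_eq_zero, Ideal.dvd_iff_le, le_bot_iff]
      simpa using hα0
    rw [h0] at hv
    exact (by exact_mod_cast hv.symm : v = 0) ▸ dvd_zero p
  have : Finite (𝓞 K ⧸ Q) := Ideal.finiteQuotientOfFreeOfNeBot Q hQbot
  obtain ⟨l, hchar⟩ := CharP.exists (𝓞 K ⧸ Q)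
  have hl : l.Prime := CharP.char_is_prime (𝓞 K ⧸ Q) l
  have hlQ : (l : 𝓞 K) ∈ Q := by
    rw [← Ideal.Quotient.eq_zero_iff_mem, map_natCast, CharP.cast_eq_zero]
  by_cases hlp : l = p
  · subst hlp
    -- local `p`-th power
    obtain ⟨y, hy⟩ := hloc (v + 1)
    refine dvd_multiplicity_of_sub_pow_mem Q (Ideal.prime_of_isPrime hQbot inferInstance)
      hp.out.ne_zero hv (y := y) ?_
    have hle : Ideal.span {(l : 𝓞 K) ^ (v + 1)} ≤ Q ^ (v + 1) := by
      rw [← Ideal.span_singleton_pow]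
      exact Ideal.pow_right_mono ((Ideal.span_singleton_le_iff_mem Q).2 hlQ) _
    exact hle hy
  · obtain ⟨P, hP, hPQ⟩ := exists_maximal_over φ Q
    have hlP : (l : 𝓞 M) ∈ P := by
      have h : intMap φ (l : 𝓞 K) ∈ P := by
        rw [← Ideal.mem_comap, hPQ]; exact hlQ
      rwa [map_natCast] at h
    have := hP
    have := hunr P l hl hlp hlP
    have hP0 : P ≠ ⊥ := fun h => by
      subst h
      exact Nat.cast_ne_zero.2 hl.ne_zero (Ideal.mem_bot.1 hlP)
    have hPp : Prime P := Ideal.prime_of_isPrime hP0 inferInstance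
    have he : emultiplicity P (Q.map (intMap φ)) = (1 : ℕ) := by
      refine emultiplicity_eq_of_dvd_of_not_dvd ?_ ?_
      · rw [pow_one, Ideal.dvd_iff_le, Ideal.map_le_iff_le_comap, hPQ]
      · rw [Ideal.dvd_iff_le]
        intro hle
        refine natCast_notMem_sq_of_unramified P hl hlP (hle ?_)
        rw [← map_natCast (intMap φ) l]
        exact Ideal.mem_map_of_mem _ hlQ
    have h := emultiplicity_span_map (intMap φ) P hP0 Q hPQ hQbot hα0
    rw [hα, ← Ideal.span_singleton_pow, emultiplicity_pow hPp, hv, he, Nat.cast_one, mul_one] at h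
    cases hk : emultiplicity P (Ideal.span {β}) with
    | top =>
      rw [hk, ENat.mul_top (by exact_mod_cast hp.out.ne_zero)] at h
      exact absurd h (ENat.top_ne_natCast v)
    | coe k =>
      rw [hk, ← Nat.cast_mul, Nat.cast_inj] at h
      exact ⟨k, h.symm⟩

/-- The Kummer element of a twisted cocycle. -/
theorem exists_kummer_element_of_finite (hζ : IsPrimitiveRoot ζ p) (X F : Gal(M/ℚ) → ZMod p)
    (hXζ : ∀ s, s (φ ζ) = pw (φ ζ) (X s))
    (hF : ∀ s t, F (s * t) = X t * F s + F t)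
    (hne : ∃ h, X h = 1 ∧ F h ≠ 0)
    (hunr : ∀ (P : Ideal (𝓞 M)) [P.IsMaximal], ∀ l : ℕ, l.Prime → l ≠ p → (l : 𝓞 M) ∈ P →
      Algebra.IsUnramifiedAt ℤ P)
    (hloc : ∃ P : Ideal (𝓞 M), P.IsMaximal ∧ (p : 𝓞 M) ∈ P ∧ ∃ t : ZMod p,
      ∀ s : Gal(M/ℚ), s • P = P → F s = t * (1 - X s)) :
    ∃ α : 𝓞 K, α ≠ 0 ∧ (∀ y : K, y ^ p ≠ (α : K)) ∧
      (∀ (σ : Gal(K/ℚ)) (a : ℕ), σ ζ = ζ ^ a →
        ∃ y : K, σ (α : K) = (α : K) ^ (a ^ 2) * y ^ p) ∧
      (∃ I : Ideal (𝓞 K), Ideal.span {α} = I ^ p) ∧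
      (∀ n : ℕ, ∃ y : 𝓞 K, α - y ^ p ∈ Ideal.span {(p : 𝓞 K) ^ n}) := by
  have hz : IsPrimitiveRoot (φ ζ) p := hζ.map_of_injective φ.injective
  have hX := character_mul hz hXζ
  have hfixInt : ∀ x : 𝓞 M, (∀ s, X s = 1 → s • x = x) → ∃ y : 𝓞 K, intMap φ y = x :=
    fun _ => exists_intMap_eq_of_fixed φ hζ hXζ
  obtain ⟨β, hβ0, hHβ⟩ := exists_resolvent hz hXζ hF hne
  have hzi1 : hz.toInteger ^ p = 1 := hz.toInteger_isPrimitiveRoot.pow_eq_one
  have hHβp : ∀ g, X g = 1 → g • β ^ p = β ^ p := by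
    intro g hg
    rw [smul_pow', hHβ g hg, mul_pow, pw_pow hzi1]
    simp [pw_zero]
  obtain ⟨α, hα⟩ := hfixInt (β ^ p) hHβp
  have hβM : (β : M) ≠ 0 := by simpa using hβ0
  have hαM : φ (α : K) = (β : M) ^ p := by
    rw [← coe_intMap, hα]; simp
  have hα0 : α ≠ 0 := by
    rintro rfl
    rw [map_zero] at hα
    exact pow_ne_zero p hβ0 hα.symm
  have hHβM : ∀ g, X g = 1 → g (β : M) = pw (φ ζ) (F g) * (β : M) := fun g hg => by
    rw [← coe_smul_int, hHβ g hg]
    exact (map_mul (algebraMap (𝓞 M) M) _ _).trans (by rw [map_pw]; rfl)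
  obtain ⟨P, hP, hpP, t, ht⟩ := hloc
  have hpow : ∀ n : ℕ, ∃ y : 𝓞 K, α - y ^ p ∈ Ideal.span {(p : 𝓞 K) ^ n} :=
    exists_sub_pow_mem φ X F hX hfixInt hP hpP t ht hHβ hα hζ
  exact ⟨α, hα0, pow_ne_of_eigen φ hζ hXζ hne hβM hHβM hαM,
    exists_galois_eq_pow_mul φ hζ hXζ hF hβM hHβM hαM,
    exists_span_eq_pow_of_unramified φ hunr hα0 hα hpow, hpow⟩

end Fermat.Agent.ExtVanish
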