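import Fermat.Agent.ExtVanish.ClassComponent

/-!
# Kummer elements in the `ω²`-component which are locally trivial at `p` are trivial

For `p ≥ 5` the triviality of the class component reduces such an element to a unit, whose
logarithmic derivative vanishes by the local condition, so it is a `p`-th power; for `p = 3` a
norm computation suffices.
-/

noncomputable section

open NumberField NumberField.Units IsDedekindDomain
open scoped Classical nonZeroDivisors Pointwise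

namespace Fermat.Agent.ExtVanish

variable {p : ℕ} [hp : Fact p.Prime]
variable {K : Type} [Field K] [NumberField K] [IsCyclotomicExtension {p} ℚ K]

/-- The local condition forces the vanishing of the logarithmic derivative. -/
lemma dlog_eq_zero_of_local {ζ : K} (hζ : IsPrimitiveRoot ζ p) (h5 : 5 ≤ p) {u : (𝓞 K)ˣ}
    {g : 𝓞 K} (hg : g ≠ 0)
    (hloc : ∀ n : ℕ, ∃ y : 𝓞 K, (u : 𝓞 K) * g ^ p - y ^ p ∈ Ideal.span {(p : 𝓞 K) ^ n}) :
    dlog hζ h5 (u : 𝓞 K) = 0 := by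
  set pi : 𝓞 K := hζ.toInteger - 1 with hpidef
  have hpi : Prime pi := hζ.zeta_sub_one_prime'
  have hjpi : cst (jetHom hζ h5 pi) = 0 := by
    simp [hpidef, jetHom_toInteger, cst, expJet]
  have hjpi3 : jetHom hζ h5 pi ^ 3 = 0 := by
    obtain ⟨e1, e2, e3, e4⟩ := comps_expJet (p := p)
    have c1 : cst (expJet p - 1) = 0 := by simp [cst, expJet]
    refine jet_ext ?_ ?_ ?_ ?_ <;>
      simp only [hpidef, map_sub, map_one, jetHom_toInteger, pow_succ, pow_zero, one_mul,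
        cst_mul, cEps_mul, cDel_mul, cTop_mul, c1] <;>
      simp [cst, cEps, cDel, cTop]
  have hdvdp : pi ∣ (p : 𝓞 K) := by
    have h := (IsCyclotomicExtension.Rat.zeta_sub_one_dvd_intCast_iff' p hζ
      (n := (p : ℤ))).2 dvd_rfl
    simpa using h
  obtain ⟨k, g', hg', rfl⟩ := WfDvdMonoid.max_power_factor hg hpi.irreducible
  have hAg : AwayP hζ h5 g' := by
    intro h
    let χ : 𝓞 K →+* ZMod p :=
      ((TrivSqZeroExt.fstHom (ZMod p) (ZMod p) (ZMod p)).toRingHom.comp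
        (TrivSqZeroExt.fstHom (DualNumber (ZMod p)) (DualNumber (ZMod p))
          (DualNumber (ZMod p))).toRingHom).comp (jetHom hζ h5)
    have hχ : ∀ x, χ x = cst (jetHom hζ h5 x) := fun x => rfl
    have hmax : (Ideal.span {pi}).IsMaximal :=
      ((Ideal.span_singleton_prime hpi.ne_zero).2 hpi).isMaximal (by simp [hpi.ne_zero])
    have hle : Ideal.span {pi} ≤ RingHom.ker χ := by
      rw [Ideal.span_singleton_le_iff_mem, RingHom.mem_ker, hχ, hjpi]
    have heq := hmax.eq_of_le (RingHom.ker_ne_top χ) hle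
    have : g' ∈ RingHom.ker χ := by rw [RingHom.mem_ker, hχ]; exact h
    rw [← heq, Ideal.mem_span_singleton] at this
    exact hg' this
  obtain ⟨y, hy⟩ := hloc (p * k + 3)
  have hy1 : pi ^ (p * k + 3) ∣ (u : 𝓞 K) * (pi ^ k * g') ^ p - y ^ p :=
    (pow_dvd_pow_of_dvd hdvdp _).trans (Ideal.mem_span_singleton.1 hy)
  have hfac : (u : 𝓞 K) * (pi ^ k * g') ^ p = pi ^ (p * k) * ((u : 𝓞 K) * g' ^ p) := by
    rw [mul_pow, ← pow_mul, mul_comm k p, mul_left_comm]
  have hyk : pi ^ k ∣ y := by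
    rw [← IsIntegrallyClosed.pow_dvd_pow_iff hp.out.ne_zero, ← pow_mul, mul_comm k p]
    have h1 : pi ^ (p * k) ∣ (u : 𝓞 K) * (pi ^ k * g') ^ p - y ^ p :=
      (pow_dvd_pow pi (Nat.le_add_right _ _)).trans hy1
    have h2 : pi ^ (p * k) ∣ (u : 𝓞 K) * (pi ^ k * g') ^ p := hfac ▸ dvd_mul_right _ _
    simpa using dvd_sub h2 h1
  obtain ⟨y', rfl⟩ := hyk
  rw [hfac, mul_pow (pi ^ k) y', ← pow_mul, mul_comm k p, ← mul_sub, pow_add] at hy1
  obtain ⟨w, hw⟩ := (mul_dvd_mul_iff_left (pow_ne_zero _ hpi.ne_zero)).1 hy1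
  have hj : jetHom hζ h5 ((u : 𝓞 K) * g' ^ p) = jetHom hζ h5 (y' ^ p) := by
    rw [← sub_eq_zero, ← map_sub, hw, map_mul, map_pow, hjpi3, zero_mul]
  have hAu := awayP_of_isUnit hζ (h5 := h5) u.isUnit
  have hA : AwayP hζ h5 y' := by
    have h1 : AwayP hζ h5 ((u : 𝓞 K) * g' ^ p) := (awayP_mul hζ).2 ⟨hAu, awayP_pow hζ hAg p⟩
    rw [AwayP, hj, map_pow, cst_pow] at h1
    exact fun h => h1 (by rw [h, zero_pow hp.out.ne_zero])
  have h := congrArg jetLog hj
  change dlog hζ h5 ((u : 𝓞 K) * g' ^ p) = dlog hζ h5 (y' ^ p) at h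
  rwa [dlog_mul hζ hAu (awayP_pow hζ hAg p), dlog_pow_self hζ hAg, dlog_pow_self hζ hA,
    add_zero] at h

/-- **No non-trivial locally trivial Kummer element in the `ω²`-component**, for `p ≥ 5`. -/
theorem isPow_of_component (h5 : 5 ≤ p) (hS : PrimeSupply p K) (al : 𝓞 K) (hal : al ≠ 0)
    (hcomp : ∀ σ : Gal(K/ℚ), ∃ y : K,
      σ (algebraMap (𝓞 K) K al) = algebraMap (𝓞 K) K al ^ (galExp p σ ^ 2) * y ^ p)
    (hI : ∃ I : Ideal (𝓞 K), Ideal.span {al} = I ^ p)
    (hloc : ∀ n : ℕ, ∃ y : 𝓞 K, al - y ^ p ∈ Ideal.span {(p : 𝓞 K) ^ n}) :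
    ∃ y : K, y ^ p = algebraMap (𝓞 K) K al := by
  have hζ : IsPrimitiveRoot (IsCyclotomicExtension.zeta p ℚ K) p :=
    IsCyclotomicExtension.zeta_spec p ℚ K
  obtain ⟨I, hI⟩ := hI
  have hI0 : I ≠ 0 := by
    rintro rfl
    rw [zero_pow hp.out.ne_zero, Submodule.zero_eq_bot, Ideal.span_singleton_eq_bot] at hI
    exact hal hI
  let I' : (Ideal (𝓞 K))⁰ := ⟨I, mem_nonZeroDivisors_of_ne_zero hI0⟩
  have hc : p • Additive.ofMul (ClassGroup.mk0 I') = 0 := by
    rw [← ofMul_pow, ← map_pow, ofMul_eq_zero, ClassGroup.mk0_eq_one_iff]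
    exact ⟨al, hI.symm⟩
  have hcl := classGroup_component_eq_zero h5 hS hc fun σ => by
    obtain ⟨y, hy⟩ := hcomp σ
    obtain ⟨a, b, hb, rfl⟩ := IsFractionRing.div_surjective (A := 𝓞 K) y
    have hb0 : b ≠ 0 := nonZeroDivisors.ne_zero hb
    have hbK : algebraMap (𝓞 K) K b ≠ 0 := (map_ne_zero_iff _ RingOfIntegers.coe_injective).2 hb0
    have heq : (σ • al) * b ^ p = al ^ (galExp p σ ^ 2) * a ^ p := by
      apply RingOfIntegers.coe_injective
      simp only [map_mul, map_pow]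
      show σ (algebraMap (𝓞 K) K al) * _ = _
      rw [hy, div_pow, mul_div_assoc', div_mul_cancel₀ _ (pow_ne_zero _ hbK)]
    have hspanσ : Ideal.span {σ • al} = (σ • I) ^ p := by
      have h := congrArg (Ideal.map (MulSemiringAction.toRingHom Gal(K/ℚ) (𝓞 K) σ)) hI
      rw [Ideal.map_span, Set.image_singleton, Ideal.map_pow] at h
      rw [Ideal.pointwise_smul_def]
      exact h
    have hspan : (σ • I * Ideal.span {b}) ^ p = (I ^ (galExp p σ ^ 2) * Ideal.span {a}) ^ p := by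
      rw [mul_pow, mul_pow, ← hspanσ, Ideal.span_singleton_pow, Ideal.span_singleton_pow,
        Ideal.span_singleton_mul_span_singleton, heq, ← Ideal.span_singleton_mul_span_singleton,
        ← Ideal.span_singleton_pow al, hI, ← pow_mul, ← pow_mul, mul_comm p]
    have hI2 : σ • I * Ideal.span {b} = I ^ (galExp p σ ^ 2) * Ideal.span {a} :=
      dvd_antisymm ((UniqueFactorizationMonoid.pow_dvd_pow_iff_dvd hp.out.ne_zero).1 (dvd_of_eq hspan))
        ((UniqueFactorizationMonoid.pow_dvd_pow_iff_dvd hp.out.ne_zero).1 (dvd_of_eq hspan.symm))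
    have hσI : σ • I ≠ 0 := by
      intro h
      exact hI0 (by simpa using congrArg (σ⁻¹ • ·) h)
    have ha0 : a ≠ 0 := by
      rintro rfl
      rw [Ideal.span_singleton_eq_bot.2 rfl, ← Submodule.zero_eq_bot, mul_zero, mul_eq_zero] at hI2
      exact hI2.elim hσI fun h => hb0 (Ideal.span_singleton_eq_bot.1 (by simpa using h))
    rw [classGal_mk0 σ I' ⟨σ • I, mem_nonZeroDivisors_of_ne_zero hσI⟩ rfl, ← ofMul_pow,
      EmbeddingLike.apply_eq_iff_eq, ← map_pow, ClassGroup.mk0_eq_mk0_iff]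
    refine ⟨b, a, hb0, ha0, ?_⟩
    rw [mul_comm (Ideal.span {b}), mul_comm (Ideal.span {a}), hI2]
    simp [I']
  obtain ⟨g, hg⟩ := (ClassGroup.mk0_eq_one_iff I'.2).1 (ofMul_eq_zero.1 hcl)
  have hIg : I = Ideal.span {g} := hg
  have hg0 : g ≠ 0 := by
    rintro rfl
    exact hI0 (by simpa using hIg)
  rw [hIg, Ideal.span_singleton_pow, Ideal.span_singleton_eq_span_singleton] at hI
  obtain ⟨u, hu⟩ := hI.symm
  rw [mul_comm] at hu
  have hgK : algebraMap (𝓞 K) K g ≠ 0 := (map_ne_zero_iff _ RingOfIntegers.coe_injective).2 hg0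
  have huK : algebraMap (𝓞 K) K al =
      algebraMap (𝓞 K) K (u : 𝓞 K) * algebraMap (𝓞 K) K g ^ p := by
    rw [← hu, map_mul, map_pow]
  have hucomp : UnitInComponent (omegaSq p) u := by
    intro σ
    obtain ⟨y, hy⟩ := hcomp σ
    obtain ⟨v, hv⟩ := exists_pow_eq_pow_mul_pow u (p := p) (m := galExp p σ ^ 2)
      (n := (omegaSq p σ : ZMod p).val)
      (by rw [ZMod.natCast_zmod_val, coe_omegaSq, Nat.cast_pow])
    set Y : K := algebraMap (𝓞 K) K g ^ (galExp p σ ^ 2) * y / σ (algebraMap (𝓞 K) K g) with hY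
    have hσg : σ (algebraMap (𝓞 K) K g) ≠ 0 := by simpa using hgK
    have hY' : Y ^ p = algebraMap (𝓞 K) K
        ((galU σ u * (u ^ (galExp p σ ^ 2))⁻¹ : (𝓞 K)ˣ) : 𝓞 K) := by
      rw [huK, map_mul, map_pow, mul_pow] at hy
      have hinv : algebraMap (𝓞 K) K ((u ^ (galExp p σ ^ 2) : (𝓞 K)ˣ) : 𝓞 K) *
          algebraMap (𝓞 K) K (((u ^ (galExp p σ ^ 2))⁻¹ : (𝓞 K)ˣ) : 𝓞 K) = 1 := by
        rw [← map_mul, Units.mul_inv, map_one]
      rw [Units.val_mul, map_mul, coe_galU, hY, div_pow, div_eq_iff (pow_ne_zero _ hσg), mul_pow]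
      rw [Units.val_pow_eq_pow_val, map_pow] at hinv
      linear_combination
        (-(algebraMap (𝓞 K) K (((u ^ (galExp p σ ^ 2))⁻¹ : (𝓞 K)ˣ) : 𝓞 K))) * hy -
          (algebraMap (𝓞 K) K g ^ (galExp p σ ^ 2)) ^ p * y ^ p * hinv
    obtain ⟨w, hw⟩ := exists_unit_of_pow hY'
    have hwp : w ^ p = galU σ u * (u ^ (galExp p σ ^ 2))⁻¹ := Units.ext (by
      apply RingOfIntegers.coe_injective
      rw [Units.val_pow_eq_pow_val, map_pow, hw, hY'])
    refine ⟨v * w, ?_⟩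
    rw [mul_pow, ← mul_assoc, ← hv, hwp, mul_comm, inv_mul_cancel_right]
  obtain ⟨z, hz⟩ := exists_eq_pow_of_component hζ h5 hucomp
    (dlog_eq_zero_of_local hζ h5 hg0 (by
      intro n
      obtain ⟨y, hy⟩ := hloc n
      exact ⟨y, by rwa [hu]⟩))
  exact ⟨algebraMap (𝓞 K) K ((z : 𝓞 K) * g), by
    rw [map_mul, mul_pow, huK, hz, Units.val_pow_eq_pow_val, map_pow]⟩

/-- The case `p = 3`: a norm computation. -/
theorem isPow_of_component_three (h3 : p = 3) (al : 𝓞 K) (hal : al ≠ 0)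
    (hcomp : ∀ σ : Gal(K/ℚ), ∃ y : K,
      σ (algebraMap (𝓞 K) K al) = algebraMap (𝓞 K) K al ^ (galExp p σ ^ 2) * y ^ p)
    (hI : ∃ I : Ideal (𝓞 K), Ideal.span {al} = I ^ p) :
    ∃ y : K, y ^ p = algebraMap (𝓞 K) K al := by
  have : IsGalois ℚ K := IsCyclotomicExtension.isGalois {p} ℚ K
  obtain ⟨I, hI⟩ := hI
  set x := algebraMap (𝓞 K) K al
  have hx : x ≠ 0 := (map_ne_zero_iff _ RingOfIntegers.coe_injective).2 hal
  have h1 : ∀ σ : Gal(K/ℚ), ∃ y : K, σ x = x * y ^ p := by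
    intro σ
    obtain ⟨y, hy⟩ := hcomp σ
    obtain ⟨k, hk⟩ : ∃ k, galExp p σ ^ 2 = 1 + p * k := by
      have hne := galExp_coe_ne_zero (p := p) σ
      have hsq : ((galExp p σ ^ 2 : ℕ) : ZMod p) = ((1 : ℕ) : ZMod p) := by
        have h := ZMod.pow_card_sub_one_eq_one hne
        push_cast
        rw [show p - 1 = 2 by omega] at h
        exact h
      have hpos : 1 ≤ galExp p σ ^ 2 := Nat.one_le_pow _ _ (one_le_galExp σ)
      obtain ⟨k, hk⟩ := (Nat.modEq_iff_dvd' hpos).1 ((ZMod.natCast_eq_natCast_iff _ _ _).1 hsq.symm)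
      exact ⟨k, by omega⟩
    refine ⟨x ^ k * y, ?_⟩
    rw [hy, hk, pow_add, pow_one, mul_pow, ← pow_mul, mul_comm p k, mul_assoc]
  choose y hy using h1
  have hcard : Fintype.card Gal(K/ℚ) = 2 := by
    rw [← Nat.card_eq_fintype_card, natCard_gal p K, h3]
  have hN : algebraMap ℚ K (Algebra.norm ℚ x) = x ^ 2 * (∏ σ, y σ) ^ p := by
    rw [Algebra.norm_eq_prod_automorphisms]
    simp only [hy, Finset.prod_mul_distrib, Finset.prod_const, Finset.card_univ, hcard,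
      Finset.prod_pow]
  obtain ⟨c, hc⟩ : ∃ c : ℤ, Algebra.norm ℤ al = c ^ p := by
    have h := congrArg Ideal.absNorm hI
    rw [Ideal.absNorm_span_singleton, map_pow] at h
    have hodd : Odd p := by rw [h3]; decide
    rcases Int.natAbs_eq (Algebra.norm ℤ al) with he | he
    · exact ⟨Ideal.absNorm I, by rw [he, h]; push_cast; rfl⟩
    · exact ⟨-(Ideal.absNorm I : ℤ), by rw [he, h, hodd.neg_pow]; push_cast; rfl⟩
  have hN' : Algebra.norm ℚ x = ((c : ℚ)) ^ p := by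
    rw [← Algebra.coe_norm_int, hc]; push_cast; rfl
  rw [hN', map_pow] at hN
  have hY : (∏ σ, y σ) ≠ 0 := Finset.prod_ne_zero_iff.2 fun σ _ h => hx (by
    apply σ.injective
    rw [hy σ, h, zero_pow hp.out.ne_zero, mul_zero, map_zero])
  refine ⟨(algebraMap ℚ K c / ∏ σ, y σ) ^ 2 / x, ?_⟩
  subst h3
  rw [div_pow, div_eq_iff (pow_ne_zero _ hx), ← pow_mul, mul_comm 2 3, pow_mul, div_pow, hN,
    mul_div_assoc, div_self (pow_ne_zero _ hY)]
  ring

end Fermat.Agent.ExtVanish
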