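import Mathlib.NumberTheory.NumberField.Units.Regulator
import Mathlib.NumberTheory.NumberField.InfinitePlace.Ramification
import Mathlib.RingTheory.IntegralDomain
import Mathlib.LinearAlgebra.Trace
import Mathlib.FieldTheory.Finite.Basic

/-!
# Eigen-components of units modulo `p`-th powers

For a Galois number field and a nontrivial `F_p^×`-valued character which is trivial on all
stabilisers of infinite places, the corresponding eigen-component of units modulo torsion and
`p`-th powers is at most one dimensional.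
-/

noncomputable section

open NumberField NumberField.Units Module Matrix
open scoped Classical

namespace Fermat.Agent.ExtVanish

variable {K : Type*} [Field K] [NumberField K]

/-- The action of an automorphism on the units of the integers. -/
def galU (σ : Gal(K/ℚ)) : (𝓞 K)ˣ →* (𝓞 K)ˣ :=
  Units.map (MulSemiringAction.toRingHom Gal(K/ℚ) (𝓞 K) σ).toMonoidHom

/-- The value of a conjugate unit in `K`. -/
lemma coe_galU (σ : Gal(K/ℚ)) (u : (𝓞 K)ˣ) :
    algebraMap (𝓞 K) K (galU σ u : 𝓞 K) = σ (algebraMap (𝓞 K) K (u : 𝓞 K)) := rfl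

/-- The value of a conjugate unit in `𝓞 K`. -/
lemma val_galU (σ : Gal(K/ℚ)) (u : (𝓞 K)ˣ) : ((galU σ u : (𝓞 K)ˣ) : 𝓞 K) = σ • (u : 𝓞 K) := rfl

/-- The action on units is multiplicative. -/
lemma galU_mul_apply (σ τ : Gal(K/ℚ)) (u : (𝓞 K)ˣ) : galU (σ * τ) u = galU σ (galU τ u) :=
  Units.ext (mul_smul σ τ (u : 𝓞 K))

/-- The coordinates of a unit in terms of the fundamental system. -/
def coords (u : (𝓞 K)ˣ) : Fin (rank K) → ℤ :=
  (exist_unique_eq_mul_prod K u).exists.choose.2

/-- A unit is a root of unity times a product of powers of fundamental units. -/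
lemma exists_torsion_mul_prod (u : (𝓞 K)ˣ) :
    ∃ t ∈ torsion K, u = t * ∏ i, fundSystem K i ^ coords u i :=
  ⟨((exist_unique_eq_mul_prod K u).exists.choose.1 : (𝓞 K)ˣ),
    (exist_unique_eq_mul_prod K u).exists.choose.1.2,
    (exist_unique_eq_mul_prod K u).exists.choose_spec⟩

lemma coords_unique {u t : (𝓞 K)ˣ} {e : Fin (rank K) → ℤ} (ht : t ∈ torsion K)
    (h : u = t * ∏ i, fundSystem K i ^ e i) : coords u = e :=
  congrArg Prod.snd ((exist_unique_eq_mul_prod K u).unique
    (y₂ := (⟨t, ht⟩, e)) (exist_unique_eq_mul_prod K u).exists.choose_spec h)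

lemma coords_mul (u v : (𝓞 K)ˣ) : coords (u * v) = coords u + coords v := by
  obtain ⟨t, ht, hu⟩ := exists_torsion_mul_prod u
  obtain ⟨t', ht', hv⟩ := exists_torsion_mul_prod v
  refine coords_unique (mul_mem ht ht') ?_
  conv_lhs => rw [hu, hv]
  simp only [Pi.add_apply, zpow_add, Finset.prod_mul_distrib]
  exact mul_mul_mul_comm _ _ _ _

/-- The units with zero coordinates are the roots of unity. -/
lemma coords_eq_zero_iff {u : (𝓞 K)ˣ} : coords u = 0 ↔ u ∈ torsion K := by
  refine ⟨fun h => ?_, fun h => coords_unique h (by simp)⟩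
  obtain ⟨t, ht, hu⟩ := exists_torsion_mul_prod u
  rw [h] at hu
  simp only [Pi.zero_apply, zpow_zero, Finset.prod_const_one, mul_one] at hu
  rwa [hu]

/-- The coordinates of units, as a homomorphism. -/
def unitCoords : Additive (𝓞 K)ˣ →+ (Fin (rank K) → ℤ) :=
  AddMonoidHom.mk' (fun u => coords (Additive.toMul u)) (fun _ _ => coords_mul _ _)

lemma coords_eq_unitCoords (u : (𝓞 K)ˣ) : coords u = unitCoords (Additive.ofMul u) := rfl

lemma coords_pow (u : (𝓞 K)ˣ) (n : ℕ) : coords (u ^ n) = n • coords u := by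
  simp [coords_eq_unitCoords]

lemma coords_inv (u : (𝓞 K)ˣ) : coords u⁻¹ = -coords u := by
  simp [coords_eq_unitCoords]

lemma coords_zpow (u : (𝓞 K)ˣ) (n : ℤ) : coords (u ^ n) = n • coords u := by
  simp [coords_eq_unitCoords]

lemma coords_prod {ι : Type*} (s : Finset ι) (f : ι → (𝓞 K)ˣ) :
    coords (∏ i ∈ s, f i) = ∑ i ∈ s, coords (f i) := by
  simp [coords_eq_unitCoords, map_sum, ofMul_prod]

lemma galU_mem_torsion (σ : Gal(K/ℚ)) {t : (𝓞 K)ˣ} (ht : t ∈ torsion K) :
    galU σ t ∈ torsion K :=
  (galU σ).isOfFinOrder ht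

/-- The integral matrix of an automorphism on the fundamental system. -/
def galMat (σ : Gal(K/ℚ)) : Matrix (Fin (rank K)) (Fin (rank K)) ℤ :=
  fun i j => coords (galU σ (fundSystem K j)) i

/-- Galois acts on the coordinates of units through `galMat`. -/
lemma coords_galU (σ : Gal(K/ℚ)) (u : (𝓞 K)ˣ) :
    coords (galU σ u) = galMat σ *ᵥ coords u := by
  obtain ⟨t, ht, hu⟩ := exists_torsion_mul_prod u
  conv_lhs => rw [hu]
  rw [map_mul, map_prod, coords_mul, coords_eq_zero_iff.2 (galU_mem_torsion σ ht), zero_add,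
    coords_prod]
  funext i
  simp [Matrix.mulVec, dotProduct, galMat, coords_zpow, Finset.sum_apply, mul_comm]

/-- `galMat` is multiplicative. -/
lemma galMat_mul (σ τ : Gal(K/ℚ)) : galMat (σ * τ) = galMat σ * galMat τ := by
  ext i j
  have h := coords_galU σ (galU τ (fundSystem K j))
  rw [← galU_mul_apply] at h
  have h' := congrFun h i
  simpa [galMat, Matrix.mulVec, dotProduct, Matrix.mul_apply] using h'

/-- The full logarithmic vector of a unit. -/
def logVec (u : (𝓞 K)ˣ) (w : InfinitePlace K) : ℝ := Real.log (w (algebraMap (𝓞 K) K (u : 𝓞 K)))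

lemma logVec_galU (σ : Gal(K/ℚ)) (u : (𝓞 K)ˣ) (w : InfinitePlace K) :
    logVec (galU σ u) w = logVec u (σ⁻¹ • w) := by
  rw [logVec, logVec, coe_galU, InfinitePlace.smul_apply, AlgEquiv.aut_inv, AlgEquiv.symm_symm]

lemma logVec_eq_sum (u : (𝓞 K)ˣ) :
    logVec u = ∑ i, (coords u i : ℝ) • logVec (fundSystem K i) := by
  obtain ⟨t, ht, hu⟩ := exists_torsion_mul_prod u
  funext w
  have hne : ∀ v : (𝓞 K)ˣ, w (algebraMap (𝓞 K) K (v : 𝓞 K)) ≠ 0 := fun v => by simp
  conv_lhs => rw [hu]
  simp only [logVec, Units.val_mul, map_mul, Units.coe_prod, map_prod, Finset.sum_apply,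
    Pi.smul_apply, smul_eq_mul]
  rw [(mem_torsion K).1 ht w, one_mul, Real.log_prod (fun i _ => hne _)]
  refine Finset.sum_congr rfl fun i _ => ?_
  generalize coords u i = n
  cases n with
  | ofNat m =>
    simp only [Int.ofNat_eq_natCast, zpow_natCast, Units.val_pow_eq_pow_val, map_pow,
      Real.log_pow, Int.cast_natCast]
  | negSucc m =>
    have hinv : ∀ v : (𝓞 K)ˣ, Real.log (w (algebraMap (𝓞 K) K ((v⁻¹ : (𝓞 K)ˣ) : 𝓞 K))) =
        -Real.log (w (algebraMap (𝓞 K) K (v : 𝓞 K))) := fun v => by
      rw [eq_neg_iff_add_eq_zero, ← Real.log_mul (hne _) (hne _), ← map_mul, ← map_mul,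
        Units.inv_mul, map_one, map_one, Real.log_one]
    simp only [zpow_negSucc, hinv, Units.val_pow_eq_pow_val, map_pow, Real.log_pow,
      Int.cast_negSucc]
    ring

/-- The vectors spanning the log space together with the all-ones vector. -/
def fullLog : Fin (rank K) ⊕ Unit → (InfinitePlace K → ℝ) :=
  Sum.elim (fun i => logVec (fundSystem K i)) (fun _ _ => 1)

/-- The logarithmic vectors of the fundamental units and the all-ones vector are linearly
independent. -/
lemma linearIndependent_fullLog : LinearIndependent ℝ (fullLog (K := K)) := by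
  rw [Fintype.linearIndependent_iff]
  intro g hg
  have hg' : ∀ w, ∑ i, g (Sum.inl i) * logVec (fundSystem K i) w + g (Sum.inr ()) = 0 := by
    intro w
    simpa [fullLog, Fintype.sum_sum_type, Finset.sum_apply] using congrFun hg w
  have h0 : g (Sum.inr ()) = 0 := by
    have h := Finset.sum_eq_zero (s := Finset.univ)
      (fun (w : InfinitePlace K) _ =>
        show (w.mult : ℝ) * (∑ i, g (Sum.inl i) * logVec (fundSystem K i) w + g (Sum.inr ())) = 0 by
          rw [hg' w, mul_zero])
    simp only [mul_add, Finset.sum_add_distrib, Finset.mul_sum] at h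
    rw [Finset.sum_comm] at h
    have hz : ∀ i : Fin (rank K),
        ∑ w : InfinitePlace K, (w.mult : ℝ) * (g (Sum.inl i) * logVec (fundSystem K i) w) = 0 := by
      intro i
      have := congrArg (fun z => g (Sum.inl i) * z) (sum_mult_mul_log (fundSystem K i))
      simp only [Finset.mul_sum, mul_zero] at this
      rw [← this]
      exact Finset.sum_congr rfl fun w _ => by unfold logVec; ring
    simp only [hz, Finset.sum_const_zero, zero_add] at h
    rw [← Finset.sum_mul, ← Nat.cast_sum, InfinitePlace.sum_mult_eq] at h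
    have : (finrank ℚ K : ℝ) ≠ 0 := Nat.cast_ne_zero.2 Module.finrank_pos.ne'
    exact (mul_eq_zero.1 h).resolve_left this
  have hli := Fintype.linearIndependent_iff.1 (isMaxRank_fundSystem K) (fun i => g (Sum.inl i)) (by
    funext w
    have := hg' w.1
    rw [h0, add_zero] at this
    simp only [Finset.sum_apply, Pi.smul_apply, smul_eq_mul, Pi.zero_apply,
      dirichletUnitTheorem.logEmbedding_component]
    calc ∑ i, g (Sum.inl i) *
          ((w.1.mult : ℝ) * Real.log (w.1 (algebraMap (𝓞 K) K (fundSystem K i : 𝓞 K))))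
        = (w.1.mult : ℝ) * ∑ i, g (Sum.inl i) * logVec (fundSystem K i) w.1 := by
          rw [Finset.mul_sum]
          exact Finset.sum_congr rfl fun i _ => by unfold logVec; ring
      _ = 0 := by rw [this, mul_zero])
  rintro (i | ⟨⟩)
  · exact hli i
  · exact h0

/-- The basis of `InfinitePlace K → ℝ` given by the fundamental system and the ones vector. -/
def fullLogBasis : Basis (Fin (rank K) ⊕ Unit) ℝ (InfinitePlace K → ℝ) :=
  basisOfLinearIndependentOfCardEqFinrank linearIndependent_fullLog (by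
    rw [Fintype.card_sum, Fintype.card_fin, Fintype.card_unit, Module.finrank_pi, Units.rank]
    have : 0 < Fintype.card (InfinitePlace K) := Fintype.card_pos
    omega)

/-- The trace of the unit representation: one less than the number of fixed infinite places. -/
lemma trace_galMat (σ : Gal(K/ℚ)) :
    (galMat σ).trace + 1 =
      ((Finset.univ.filter fun w : InfinitePlace K => σ • w = w).card : ℤ) := by
  let T : (InfinitePlace K → ℝ) →ₗ[ℝ] (InfinitePlace K → ℝ) :=
    LinearMap.funLeft ℝ ℝ (fun w => σ⁻¹ • w)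
  have e1 : LinearMap.trace ℝ _ T =
      ((Finset.univ.filter fun w : InfinitePlace K => σ • w = w).card : ℝ) := by
    rw [LinearMap.trace_eq_matrix_trace ℝ (Pi.basisFun ℝ (InfinitePlace K)), Matrix.trace,
      Finset.natCast_card_filter]
    refine Finset.sum_congr rfl fun w _ => ?_
    simp [T, Matrix.diag, Pi.single_apply, eq_inv_smul_iff, eq_comm]
  have hb : ∀ k, fullLogBasis (K := K) k = fullLog k := fun k => by
    simp [fullLogBasis]
  have e2 : LinearMap.trace ℝ _ T = ((galMat σ).trace : ℝ) + 1 := by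
    rw [LinearMap.trace_eq_matrix_trace ℝ fullLogBasis, Matrix.trace, Fintype.sum_sum_type]
    congr 1
    · rw [Matrix.trace, Int.cast_sum]
      refine Finset.sum_congr rfl fun i _ => ?_
      have hT : T (fullLogBasis (Sum.inl i)) =
          ∑ j, (galMat σ j i : ℝ) • fullLogBasis (Sum.inl j) := by
        simp only [hb, fullLog, Sum.elim_inl]
        have : T (logVec (fundSystem K i)) = logVec (galU σ (fundSystem K i)) := by
          funext w
          simp [T, logVec_galU]
        rw [this, logVec_eq_sum]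
        rfl
      simp [Matrix.diag, LinearMap.toMatrix_apply, hT, map_sum, Finsupp.single_apply]
    · have hT : T (fullLogBasis (Sum.inr ())) = fullLogBasis (Sum.inr ()) := by
        simp only [hb, fullLog, Sum.elim_inr]
        rfl
      simp [Matrix.diag, LinearMap.toMatrix_apply, hT]
  exact_mod_cast e2.symm.trans e1

section Component

variable (p : ℕ) [Fact p.Prime]

/-- The reduction mod `p` of the coordinates of a unit. -/
def coordsMod (u : (𝓞 K)ˣ) : Fin (rank K) → ZMod p := fun i => (coords u i : ZMod p)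

/-- The matrix of an automorphism mod `p`. -/
def galMatMod (σ : Gal(K/ℚ)) : Matrix (Fin (rank K)) (Fin (rank K)) (ZMod p) :=
  (galMat σ).map (Int.castRingHom (ZMod p))

lemma galMatMod_mul (σ τ : Gal(K/ℚ)) :
    galMatMod p (σ * τ) = galMatMod p σ * galMatMod p τ := by
  rw [galMatMod, galMat_mul, Matrix.map_mul]; rfl

lemma coordsMod_galU (σ : Gal(K/ℚ)) (u : (𝓞 K)ˣ) :
    coordsMod p (galU σ u) = galMatMod p σ *ᵥ coordsMod p u := by
  funext i
  simp [coordsMod, galMatMod, coords_galU, Matrix.mulVec, dotProduct]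

lemma coordsMod_mul (u v : (𝓞 K)ˣ) : coordsMod p (u * v) = coordsMod p u + coordsMod p v := by
  funext i; simp [coordsMod, coords_mul]

lemma coordsMod_pow (u : (𝓞 K)ˣ) (n : ℕ) :
    coordsMod p (u ^ n) = (n : ZMod p) • coordsMod p u := by
  funext i; simp [coordsMod, coords_pow]

/-- A unit with coordinates divisible by `p` is a `p`-th power times a root of unity. -/
lemma exists_of_coordsMod_eq_zero {u : (𝓞 K)ˣ} (h : coordsMod p u = 0) :
    ∃ (y t : (𝓞 K)ˣ), t ∈ torsion K ∧ u = y ^ p * t := by
  have hdvd : ∀ i, (p : ℤ) ∣ coords u i := fun i =>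
    (ZMod.intCast_zmod_eq_zero_iff_dvd _ _).1 (congrFun h i)
  choose e he using hdvd
  obtain ⟨t, ht, hu⟩ := exists_torsion_mul_prod u
  refine ⟨∏ i, fundSystem K i ^ e i, t, ht, ?_⟩
  conv_lhs => rw [hu]
  rw [mul_comm, ← Finset.prod_pow]
  congr 1
  exact Finset.prod_congr rfl fun i _ => by
    rw [he i, mul_comm, zpow_mul, zpow_natCast]

variable {p}

/-- A unit lies in the `χ`-component modulo `p`-th powers. -/
def UnitInComponent (χ : Gal(K/ℚ) →* (ZMod p)ˣ) (u : (𝓞 K)ˣ) : Prop :=
  ∀ σ, ∃ y : (𝓞 K)ˣ, galU σ u = u ^ (χ σ : ZMod p).val * y ^ p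

variable {χ : Gal(K/ℚ) →* (ZMod p)ˣ}

/-- The eigen-component of units modulo torsion and `p`-th powers is at most a line. -/
theorem exists_eq_pow_mul_of_component [IsGalois ℚ K] (hχ : χ ≠ 1)
    (hst : ∀ (σ : Gal(K/ℚ)) (w : InfinitePlace K), σ • w = w → χ σ = 1)
    (hG : (Nat.card Gal(K/ℚ) : ZMod p) ≠ 0) (hr : rank K < p)
    {η u : (𝓞 K)ˣ} (hη : UnitInComponent χ η) (hu : UnitInComponent χ u)
    (hη0 : coordsMod p η ≠ 0) :
    ∃ (k : ℕ) (y t : (𝓞 K)ˣ), t ∈ torsion K ∧ u = η ^ k * (y ^ p * t) := by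
  let G := Gal(K/ℚ)
  let ψ : G → ZMod p := fun σ => (((χ σ)⁻¹ : (ZMod p)ˣ) : ZMod p)
  let c : ZMod p := (Nat.card G : ZMod p)⁻¹
  let e : Matrix (Fin (rank K)) (Fin (rank K)) (ZMod p) := c • ∑ σ : G, ψ σ • galMatMod p σ
  have hψ : ∀ σ τ : G, ψ (σ * τ) = ψ σ * ψ τ := fun σ τ => by
    simp only [ψ, map_mul, mul_inv, Units.val_mul]
  have hψχ : ∀ σ : G, ψ σ * (χ σ : ZMod p) = 1 := fun σ => by
    simp only [ψ, ← Units.val_mul, inv_mul_cancel, Units.val_one]
  have heig : ∀ τ : G, galMatMod p τ * e = (χ τ : ZMod p) • e := by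
    intro τ
    simp only [e, Matrix.mul_smul, Finset.mul_sum, Finset.smul_sum, smul_smul]
    refine Fintype.sum_equiv (Equiv.mulLeft τ) _ _ fun σ => ?_
    rw [Equiv.coe_mulLeft, galMatMod_mul, hψ]
    congr 1
    calc c * ψ σ = (ψ τ * (χ τ : ZMod p)) * (c * ψ σ) := by rw [hψχ, one_mul]
      _ = (χ τ : ZMod p) * (c * (ψ τ * ψ σ)) := by ring
  have hidem : IsIdempotentElem e := by
    show e * e = e
    conv_lhs => arg 1; simp only [e]
    rw [Matrix.smul_mul, Finset.sum_mul]
    simp only [Matrix.smul_mul, heig, smul_smul, hψχ, one_smul]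
    rw [Finset.sum_const, Finset.card_univ, ← Nat.cast_smul_eq_nsmul (ZMod p), smul_smul,
      ← Nat.card_eq_fintype_card, inv_mul_cancel₀ hG, one_smul]
  have htr : e.trace = 1 := by
    have h1 : ∀ σ : G, (galMatMod p σ).trace =
        (∑ w : InfinitePlace K, if σ • w = w then (1 : ZMod p) else 0) - 1 := by
      intro σ
      have h := congrArg (fun z : ℤ => (z : ZMod p)) (trace_galMat σ)
      simp only [Int.cast_add, Int.cast_one, Int.cast_natCast] at h
      rw [← Finset.natCast_card_filter, ← h, galMatMod, add_sub_cancel_right]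
      simp [Matrix.trace, Int.cast_sum]
    have h2 : ∑ σ : G, ψ σ = 0 := by
      refine sum_hom_units_eq_zero ((Units.coeHom (ZMod p)).comp χ⁻¹) fun h => hχ ?_
      ext σ
      have := DFunLike.congr_fun h σ
      simp only [MonoidHom.coe_comp, Function.comp_apply, MonoidHom.inv_apply, Units.coeHom_apply,
        MonoidHom.one_apply, Units.val_eq_one, inv_eq_one] at this
      simp [this]
    have h3 : ∀ w : InfinitePlace K,
        ∑ σ : G, ψ σ * (if σ • w = w then (1 : ZMod p) else 0) =
          (Nat.card (MulAction.stabilizer G w) : ZMod p) := by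
      intro w
      rw [Nat.card_eq_fintype_card, Fintype.card_subtype, Finset.natCast_card_filter]
      refine Finset.sum_congr rfl fun σ _ => ?_
      by_cases h : σ • w = w
      · simp only [ψ, hst σ w h, inv_one, Units.val_one, if_pos h, mul_one]
        rw [if_pos (MulAction.mem_stabilizer_iff.2 h)]
      · simp [h]
    have h4 : ∀ w : InfinitePlace K,
        Fintype.card (InfinitePlace K) * Nat.card (MulAction.stabilizer G w) = Nat.card G := by
      intro w
      have horb : MulAction.orbit G w = Set.univ :=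
        Set.eq_univ_of_forall fun w' =>
          InfinitePlace.exists_smul_eq_of_comap_eq (Subsingleton.elim _ _)
      have hidx := MulAction.index_stabilizer G w
      rw [horb, Set.ncard_univ, Nat.card_eq_fintype_card] at hidx
      rw [← hidx, Subgroup.index_mul_card]
    simp only [e, Matrix.trace_smul, Matrix.trace_sum, smul_eq_mul, h1, mul_sub, mul_one,
      Finset.sum_sub_distrib, h2, sub_zero, Finset.mul_sum (s := (Finset.univ :
      Finset (InfinitePlace K)))]
    rw [Finset.sum_comm]
    simp only [h3]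
    obtain ⟨w₁⟩ := (inferInstance : Nonempty (InfinitePlace K))
    have h5 : ∀ w : InfinitePlace K, Nat.card (MulAction.stabilizer G w) =
        Nat.card (MulAction.stabilizer G w₁) := fun w =>
      Nat.eq_of_mul_eq_mul_left Fintype.card_pos ((h4 w).trans (h4 w₁).symm)
    simp only [h5, Finset.sum_const, Finset.card_univ, nsmul_eq_mul, ← Nat.cast_mul, h4]
    exact inv_mul_cancel₀ hG
  let f := Matrix.toLin' e
  have hproj : LinearMap.IsProj (LinearMap.range f) f := by
    refine ⟨fun x => LinearMap.mem_range_self f x, ?_⟩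
    rintro _ ⟨x, rfl⟩
    show f (f x) = f x
    simp only [f, Matrix.toLin'_apply, Matrix.mulVec_mulVec, hidem.eq]
  have hdim : finrank (ZMod p) (LinearMap.range f) = 1 := by
    have h := hproj.trace
    rw [show LinearMap.trace (ZMod p) _ f = 1 by simp [f, Matrix.trace_toLin'_eq, htr]] at h
    have hle : finrank (ZMod p) (LinearMap.range f) ≤ rank K :=
      (Submodule.finrank_le _).trans_eq (by simp)
    have h' : ((1 : ℕ) : ZMod p) = (finrank (ZMod p) (LinearMap.range f) : ZMod p) := by
      simpa using h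
    rw [ZMod.natCast_eq_natCast_iff'] at h'
    rw [Nat.mod_eq_of_lt (hle.trans_lt hr), Nat.mod_eq_of_lt (Fact.out : p.Prime).one_lt] at h'
    exact h'.symm
  have hfix : ∀ v, UnitInComponent χ v → coordsMod p v ∈ LinearMap.range f := by
    intro v hv
    refine ⟨coordsMod p v, ?_⟩
    have hσ : ∀ σ : G, galMatMod p σ *ᵥ coordsMod p v = (χ σ : ZMod p) • coordsMod p v := by
      intro σ
      obtain ⟨y, hy⟩ := hv σ
      rw [← coordsMod_galU, hy, coordsMod_mul, coordsMod_pow, coordsMod_pow, ZMod.natCast_self,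
        zero_smul, add_zero, ZMod.natCast_zmod_val]
    simp only [f, e, Matrix.toLin'_apply, Matrix.smul_mulVec, Matrix.sum_mulVec, hσ, smul_smul,
      hψχ, one_smul, Finset.sum_const, Finset.card_univ, ← Nat.cast_smul_eq_nsmul (ZMod p),
      ← Nat.card_eq_fintype_card]
    rw [inv_mul_cancel₀ hG, one_smul]
  obtain ⟨k, hk⟩ := (finrank_eq_one_iff_of_nonzero' (⟨_, hfix η hη⟩ : LinearMap.range f)
    (fun h => hη0 (congrArg Subtype.val h))).1 hdim ⟨_, hfix u hu⟩
  have hk' : k • coordsMod p η = coordsMod p u := congrArg Subtype.val hk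
  obtain ⟨y, t, ht, hyt⟩ := exists_of_coordsMod_eq_zero p
    (u := u * (η ^ (k.val))⁻¹) (by
      have hinv : coordsMod p (η ^ k.val)⁻¹ = -coordsMod p (η ^ k.val) := by
        funext i; simp [coordsMod, coords_inv]
      rw [coordsMod_mul, hinv, coordsMod_pow, ZMod.natCast_zmod_val, hk', add_neg_cancel])
  exact ⟨k.val, y, t, ht, by rw [← hyt]; simp⟩

end Component

end Fermat.Agent.ExtVanish
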