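import Fermat.Agent.ExtVanish.Local
import Fermat.Agent.ExtVanish.Units
import Mathlib.RingTheory.RootsOfUnity.CyclotomicUnits

/-!
# The `ω²`-component for `ℚ(ζ_p)` and its units

`ω` is the cyclotomic character.  The `ω²`-projection of the cyclotomic unit `1 + ζ` has nonzero
second order logarithmic derivative, hence a unit in the `ω²`-component with vanishing derivative
is a `p`-th power.
-/

noncomputable section

open NumberField NumberField.Units
open scoped Classical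

namespace Fermat.Agent.ExtVanish

/-- Powers with exponents congruent mod `p` differ by a `p`-th power. -/
lemma exists_pow_eq_pow_mul_pow {M : Type*} [CommGroup M] {p : ℕ} (x : M) {m n : ℕ}
    (h : (m : ZMod p) = (n : ZMod p)) : ∃ y : M, x ^ m = x ^ n * y ^ p := by
  have hd : (p : ℤ) ∣ (m : ℤ) - n := by
    rw [← ZMod.intCast_zmod_eq_zero_iff_dvd]
    push_cast
    rw [h, sub_self]
  obtain ⟨k, hk⟩ := hd
  refine ⟨x ^ k, ?_⟩
  rw [← zpow_natCast (x ^ k) p, ← zpow_natCast x m, ← zpow_natCast x n, ← zpow_mul, ← zpow_add]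
  congr 1
  linarith [mul_comm (p : ℤ) k]

variable {p : ℕ} [hp : Fact p.Prime]
variable {K : Type*} [Field K] [NumberField K] [IsCyclotomicExtension {p} ℚ K]

variable (p) in
/-- The square of the mod `p` cyclotomic character of `Gal(ℚ(ζ_p)/ℚ)`. -/
def omegaSq : Gal(K/ℚ) →* (ZMod p)ˣ :=
  (powMonoidHom 2).comp (IsCyclotomicExtension.Rat.galEquivZMod p K).toMonoidHom

variable (p) in
/-- The natural number `a` with `σ ζ = ζ ^ a`. -/
def galExp (σ : Gal(K/ℚ)) : ℕ := ((IsCyclotomicExtension.Rat.galEquivZMod p K σ : (ZMod p)ˣ) : ZMod p).val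

/-- `ω²` is the square of the exponent of `σ`. -/
lemma coe_omegaSq (σ : Gal(K/ℚ)) : ((omegaSq p σ : (ZMod p)ˣ) : ZMod p) = (galExp p σ : ZMod p) ^ 2 := by
  simp [omegaSq, galExp]

/-- The exponent of `σ` is prime to `p`. -/
lemma galExp_coe_ne_zero (σ : Gal(K/ℚ)) : (galExp p σ : ZMod p) ≠ 0 := by
  simp [galExp]

lemma smul_toInteger {ζ : K} (hζ : IsPrimitiveRoot ζ p) (σ : Gal(K/ℚ)) :
    σ • hζ.toInteger = hζ.toInteger ^ galExp p σ :=
  IsCyclotomicExtension.Rat.galEquivZMod_smul_of_pow_eq p K σ hζ.toInteger_isPrimitiveRoot.pow_eq_one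

/-- `σ` raises `ζ` to its exponent. -/
lemma galExp_apply {ζ : K} (hζ : IsPrimitiveRoot ζ p) (σ : Gal(K/ℚ)) : σ ζ = ζ ^ galExp p σ :=
  IsCyclotomicExtension.Rat.galEquivZMod_apply_of_pow_eq p K σ hζ.pow_eq_one

variable (p K) in
lemma exists_galExp_eq (a : (ZMod p)ˣ) :
    ∃ σ : Gal(K/ℚ), (galExp p σ : ZMod p) = (a : ZMod p) :=
  ⟨(IsCyclotomicExtension.Rat.galEquivZMod p K).symm a, by
    rw [galExp, MulEquiv.apply_symm_apply, ZMod.natCast_zmod_val]⟩

variable (p K) in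
/-- The Galois group of the `p`-th cyclotomic field has order `p - 1`. -/
lemma natCard_gal : Nat.card Gal(K/ℚ) = p - 1 := by
  rw [Nat.card_congr (IsCyclotomicExtension.Rat.galEquivZMod p K).toEquiv,
    Nat.card_eq_fintype_card, ZMod.card_units]

/-- The exponent of `σ` is positive. -/
lemma one_le_galExp (σ : Gal(K/ℚ)) : 1 ≤ galExp p σ :=
  Nat.one_le_iff_ne_zero.2 fun h => galExp_coe_ne_zero σ (by rw [h, Nat.cast_zero])

/-- The character `ω²` is nontrivial for `5 ≤ p`. -/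
lemma omegaSq_ne_one (h5 : 5 ≤ p) : omegaSq p (K := K) ≠ 1 := by
  intro h
  obtain ⟨σ, hσ⟩ := exists_galExp_eq p K (Units.mk0 2 (natCast_two_ne_zero (by omega)))
  have h1 := congrArg (fun z : (ZMod p)ˣ => (z : ZMod p)) (DFunLike.congr_fun h σ)
  simp only [coe_omegaSq, hσ, Units.val_mk0, MonoidHom.one_apply, Units.val_one] at h1
  have h' : ((3 : ℕ) : ZMod p) = 0 := by push_cast; linear_combination h1
  rw [ZMod.natCast_eq_zero_iff] at h'
  exact absurd (Nat.le_of_dvd (by norm_num) h') (by omega)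

/-- `ω²` is trivial on the stabiliser of an infinite place. -/
lemma omegaSq_eq_one_of_smul_eq (σ : Gal(K/ℚ)) (w : InfinitePlace K) (hw : σ • w = w) :
    omegaSq p σ = 1 := by
  have hσ : σ ^ 2 = 1 := by
    have h := pow_card_eq_one' (x := (⟨σ, hw⟩ : MulAction.stabilizer Gal(K/ℚ) w))
    rcases InfinitePlace.nat_card_stabilizer_eq_one_or_two ℚ w with hc | hc <;> rw [hc] at h
    · have := congrArg Subtype.val h
      simp only [pow_one, OneMemClass.coe_one] at this
      rw [this, one_pow]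
    · exact congrArg Subtype.val h
  simp only [omegaSq, MonoidHom.coe_comp, Function.comp_apply, powMonoidHom_apply,
    MulEquiv.coe_toMonoidHom, ← map_pow, hσ, map_one]

variable (p) in
/-- The exponents of the `ω²`-projector. -/
def projExp (σ : Gal(K/ℚ)) : ℕ := (((omegaSq p σ)⁻¹ : (ZMod p)ˣ) : ZMod p).val

/-- The projector exponent is the inverse of `ω²`. -/
lemma coe_projExp (σ : Gal(K/ℚ)) :
    (projExp p σ : ZMod p) = (((omegaSq p σ)⁻¹ : (ZMod p)ˣ) : ZMod p) :=
  ZMod.natCast_zmod_val _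

/-- The projector exponent times `ω²` is one. -/
lemma projExp_mul_galExp_sq (σ : Gal(K/ℚ)) :
    (projExp p σ : ZMod p) * (galExp p σ : ZMod p) ^ 2 = 1 := by
  rw [coe_projExp, ← coe_omegaSq, ← Units.val_mul, inv_mul_cancel, Units.val_one]

variable {ζ : K} (hζ : IsPrimitiveRoot ζ p)

/-- The unit `1 + ζ`. -/
def oneAddUnit (h3 : 3 ≤ p) : (𝓞 K)ˣ :=
  IsUnit.unit (a := 1 + hζ.toInteger) (by
    have h := hζ.toInteger_isPrimitiveRoot.geom_sum_isUnit (j := 2) hp.out.two_le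
      ((Nat.coprime_primes Nat.prime_two hp.out).2 (by omega))
    simpa [Finset.sum_range_succ] using h)

omit [NumberField K] [IsCyclotomicExtension {p} ℚ K] in
/-- The unit `oneAddUnit` is `1 + ζ`. -/
lemma coe_oneAddUnit (h3 : 3 ≤ p) : (oneAddUnit hζ h3 : 𝓞 K) = 1 + hζ.toInteger := rfl

/-- The `ω²`-projection of the cyclotomic unit `1 + ζ`. -/
def etaUnit (h3 : 3 ≤ p) : (𝓞 K)ˣ :=
  ∏ σ : Gal(K/ℚ), galU σ (oneAddUnit hζ h3) ^ projExp p σ

/-- The projected unit lies in the `ω²`-component. -/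
lemma etaUnit_component (h3 : 3 ≤ p) : UnitInComponent (omegaSq p) (etaUnit hζ h3) := by
  intro τ
  have h : ∀ σ : Gal(K/ℚ), ∃ y : (𝓞 K)ˣ,
      galU (τ * σ) (oneAddUnit hζ h3) ^ projExp p σ =
        (galU (τ * σ) (oneAddUnit hζ h3) ^ projExp p (τ * σ)) ^ (omegaSq p τ : ZMod p).val
          * y ^ p := by
    intro σ
    rw [← pow_mul]
    refine exists_pow_eq_pow_mul_pow _ ?_
    push_cast
    rw [coe_projExp, coe_projExp, ZMod.natCast_zmod_val, map_mul, mul_inv, Units.val_mul,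
      mul_comm ((((omegaSq p τ)⁻¹ : (ZMod p)ˣ)) : ZMod p), mul_assoc, ← Units.val_mul,
      inv_mul_cancel, Units.val_one, mul_one]
  choose y hy using h
  refine ⟨∏ σ, y σ, ?_⟩
  simp only [etaUnit, map_prod, map_pow, ← galU_mul_apply, hy]
  rw [Finset.prod_mul_distrib, Finset.prod_pow, Finset.prod_pow]
  congr 2
  exact Fintype.prod_equiv (Equiv.mulLeft τ) _ _ fun σ => rfl

variable {h5 : 5 ≤ p}

/-- The value of `dlog` at the projected cyclotomic unit. -/
lemma dlog_etaUnit (h3 : 3 ≤ p) : dlog hζ h5 (etaUnit hζ h3 : 𝓞 K) = -(1 / 4) := by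
  have haway : ∀ σ : Gal(K/ℚ), AwayP hζ h5 (σ • (1 + hζ.toInteger)) := fun σ =>
    awayP_gal hζ (smul_toInteger hζ σ) (awayP_one_add hζ)
  simp only [etaUnit, Units.coe_prod, Units.val_pow_eq_pow_val, val_galU, coe_oneAddUnit]
  rw [dlog_prod hζ _ _ fun σ _ => awayP_pow hζ (haway σ) _]
  simp only [dlog_pow hζ (haway _), dlog_gal hζ (smul_toInteger hζ _), dlog_one_add, ← mul_assoc,
    projExp_mul_galExp_sq, one_mul, Finset.sum_const, Finset.card_univ,
    ← Nat.card_eq_fintype_card, nsmul_eq_mul]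
  rw [natCard_gal p K, Nat.cast_sub hp.out.one_le, ZMod.natCast_self]
  push_cast
  ring

/-- The projected unit has nonzero `dlog`. -/
lemma dlog_etaUnit_ne_zero (h3 : 3 ≤ p) : dlog hζ h5 (etaUnit hζ h3 : 𝓞 K) ≠ 0 := by
  rw [dlog_etaUnit, neg_ne_zero, one_div, ne_eq, inv_eq_zero, ← ne_eq,
    show (4 : ZMod p) = 2 * 2 by norm_num]
  exact mul_ne_zero (natCast_two_ne_zero h3) (natCast_two_ne_zero h3)

lemma exists_torsion_eq (h3 : 3 ≤ p) {t : (𝓞 K)ˣ} (ht : t ∈ torsion K) :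
    ∃ (r : ℕ) (e : ℕ), (t : 𝓞 K) = (-1) ^ e * hζ.toInteger ^ r := by
  have hfin : IsOfFinOrder (algebraMap (𝓞 K) K (t : 𝓞 K)) :=
    ((algebraMap (𝓞 K) K).toMonoidHom.comp (Units.coeHom (𝓞 K))).isOfFinOrder ht
  obtain ⟨r, -, hr⟩ := hζ.exists_pow_or_neg_mul_pow_of_isOfFinOrder
    (hp.out.odd_of_ne_two (by omega)) hfin
  have hc : algebraMap (𝓞 K) K hζ.toInteger = ζ := rfl
  rcases hr with hr | hr
  · refine ⟨r, 0, RingOfIntegers.ext ?_⟩
    show algebraMap (𝓞 K) K (t : 𝓞 K) = algebraMap (𝓞 K) K ((-1) ^ 0 * hζ.toInteger ^ r)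
    rw [map_mul, map_pow, map_pow, pow_zero, one_mul, hc, hr]
  · refine ⟨r, 1, RingOfIntegers.ext ?_⟩
    show algebraMap (𝓞 K) K (t : 𝓞 K) = algebraMap (𝓞 K) K ((-1) ^ 1 * hζ.toInteger ^ r)
    rw [map_mul, map_pow, map_pow, pow_one, map_neg, map_one, neg_one_mul, hc, hr]

lemma dlog_neg_one : dlog hζ h5 (-1) = 0 := by
  simp [dlog, jetLog, cst, cEps, cDel, cTop]

/-- `dlog` vanishes on roots of unity. -/
lemma dlog_torsion {t : (𝓞 K)ˣ} (ht : t ∈ torsion K) : dlog hζ h5 (t : 𝓞 K) = 0 := by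
  obtain ⟨r, e, hte⟩ := exists_torsion_eq hζ (by omega) ht
  have h1 : AwayP hζ h5 (-1 : 𝓞 K) := awayP_of_isUnit hζ isUnit_one.neg
  have h2 : AwayP hζ h5 hζ.toInteger := by
    simp [AwayP, jetHom_toInteger, comps_expJet]
  rw [hte, dlog_mul hζ (awayP_pow hζ h1 e) (awayP_pow hζ h2 r), dlog_pow hζ h1, dlog_pow hζ h2,
    dlog_neg_one, dlog_toInteger, mul_zero, mul_zero, add_zero]

include h5 in
/-- The projected cyclotomic unit is nonzero modulo `p`-th powers and torsion. -/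
lemma coordsMod_etaUnit_ne_zero :
    coordsMod p (etaUnit hζ (show 3 ≤ p by omega)) ≠ 0 := by
  intro h
  obtain ⟨y, t, ht, hyt⟩ := exists_of_coordsMod_eq_zero p h
  refine dlog_etaUnit_ne_zero hζ (h5 := h5) (by omega) ?_
  rw [hyt, Units.val_mul, Units.val_pow_eq_pow_val,
    dlog_mul hζ (awayP_pow hζ (awayP_of_isUnit hζ y.isUnit) p) (awayP_of_isUnit hζ t.isUnit),
    dlog_pow_self hζ (awayP_of_isUnit hζ y.isUnit), dlog_torsion hζ ht, add_zero]

/-- A power of `ζ` which is a `p`-th power has exponent divisible by `p`. -/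
lemma natCast_eq_zero_of_toInteger_pow_eq (h5 : 5 ≤ p) {x : 𝓞 K} {r : ℕ}
    (h : hζ.toInteger ^ r = x ^ p) : (r : ZMod p) = 0 := by
  have key : ∀ (z : Jet p) (n : ℕ), cst z * cEps (z ^ n) = n * cst (z ^ n) * cEps z := by
    intro z n
    induction n with
    | zero => simp [comps_one]
    | succ n ih =>
      rw [pow_succ, cEps_mul, cst_mul]
      push_cast
      linear_combination cst z * ih
  have h' := congrArg (jetHom hζ h5) h
  rw [map_pow, map_pow, jetHom_toInteger] at h'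
  have hc := congrArg cst h'
  rw [(comps_expJet_pow r).1, cst_pow, ZMod.pow_card] at hc
  have he := key (jetHom hζ h5 x) p
  rw [← h', (comps_expJet_pow r).2.1, ZMod.natCast_self, zero_mul, zero_mul, ← hc, one_mul] at he
  exact he

/-- A unit in the `ω²`-component with vanishing logarithmic derivative is a `p`-th power. -/
theorem exists_eq_pow_of_component (h5 : 5 ≤ p) {u : (𝓞 K)ˣ}
    (hu : UnitInComponent (omegaSq p) u) (hd : dlog hζ h5 (u : 𝓞 K) = 0) :
    ∃ y : (𝓞 K)ˣ, u = y ^ p := by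
  have : IsGalois ℚ K := IsCyclotomicExtension.isGalois {p} ℚ K
  have hG : (Nat.card Gal(K/ℚ) : ZMod p) ≠ 0 := by
    rw [natCard_gal p K, Nat.cast_sub hp.out.one_le, ZMod.natCast_self]
    simp
  have hr : rank K < p := by
    have h1 : Fintype.card (InfinitePlace K) ≤ p - 1 := by
      have h2 : ∑ _w : InfinitePlace K, 1 ≤ ∑ w : InfinitePlace K, w.mult :=
        Finset.sum_le_sum fun w _ => InfinitePlace.mult_pos
      rw [InfinitePlace.sum_mult_eq, IsCyclotomicExtension.Rat.finrank p,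
        Nat.totient_prime hp.out] at h2
      simpa using h2
    unfold Units.rank
    omega
  obtain ⟨k, y, t, ht, huk⟩ := exists_eq_pow_mul_of_component (omegaSq_ne_one h5)
    omegaSq_eq_one_of_smul_eq hG hr (etaUnit_component hζ (show 3 ≤ p by omega)) hu
    (coordsMod_etaUnit_ne_zero hζ (h5 := h5))
  have haw : ∀ v : (𝓞 K)ˣ, AwayP hζ h5 (v : 𝓞 K) := fun v => awayP_of_isUnit hζ v.isUnit
  have hk : (k : ZMod p) = 0 := by
    rw [huk, Units.val_mul, Units.val_mul, Units.val_pow_eq_pow_val, Units.val_pow_eq_pow_val,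
      dlog_mul hζ (awayP_pow hζ (haw _) _) ((awayP_mul hζ).2 ⟨awayP_pow hζ (haw y) p, haw t⟩),
      dlog_mul hζ (awayP_pow hζ (haw y) p) (haw t), dlog_pow hζ (haw _), dlog_pow_self hζ (haw y),
      dlog_torsion hζ ht, zero_add, add_zero] at hd
    exact (mul_eq_zero.1 hd).resolve_right (dlog_etaUnit_ne_zero hζ (by omega))
  obtain ⟨k', rfl⟩ := (ZMod.natCast_eq_zero_iff _ _).1 hk
  obtain ⟨r, e, hte⟩ := exists_torsion_eq hζ (by omega) ht
  let z : (𝓞 K)ˣ := (hζ.toInteger_isPrimitiveRoot.isUnit hp.out.ne_zero).unit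
  have hz : (z : 𝓞 K) = hζ.toInteger := rfl
  have hodd : Odd p := hp.out.odd_of_ne_two (by omega)
  let Y : (𝓞 K)ˣ := etaUnit hζ (show 3 ≤ p by omega) ^ k' * y * (-1) ^ e
  have hu' : u = Y ^ p * z ^ r := by
    have htz : t = (-1) ^ e * z ^ r := Units.ext (by simp [hte, hz])
    have hm : ((-1 : (𝓞 K)ˣ) ^ e) ^ p = (-1) ^ e := by
      rw [← pow_mul, mul_comm, pow_mul, hodd.neg_one_pow]
    rw [huk, htz, mul_pow, mul_pow, hm, ← pow_mul, mul_comm k' p, mul_assoc, mul_assoc]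
  obtain ⟨σ, hσ⟩ := exists_galExp_eq p K (Units.mk0 2 (natCast_two_ne_zero (by omega)))
  have hσz : galU σ z = z ^ galExp p σ :=
    Units.ext (by rw [val_galU, Units.val_pow_eq_pow_val, hz, smul_toInteger])
  obtain ⟨v, hv⟩ := hu σ
  rw [hu', map_mul, map_pow, map_pow, hσz, ← pow_mul] at hv
  set n := (omegaSq p σ : ZMod p).val
  have hrr : (r : ZMod p) = 0 := by
    have h1 : z ^ (galExp p σ * r) = z ^ (r * n) * ((Y ^ n * v) * (galU σ Y)⁻¹) ^ p := by
      rw [mul_pow (n := p), inv_pow, mul_pow (n := p), ← pow_mul Y, mul_comm n p, pow_mul Y]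
      rw [mul_pow, ← pow_mul z] at hv
      apply mul_left_cancel (a := galU σ Y ^ p)
      rw [hv]
      simp [mul_comm, mul_left_comm]
    obtain ⟨y2, hy2⟩ := exists_pow_eq_pow_mul_pow z (p := p) (m := r * n)
      (n := r * galExp p σ + r * galExp p σ * (galExp p σ - 1)) (by
        rw [Nat.cast_mul r n, ZMod.natCast_zmod_val, coe_omegaSq]
        have : 1 ≤ galExp p σ := one_le_galExp σ
        push_cast [Nat.cast_sub this]
        ring)
    set W : (𝓞 K)ˣ := (y2 * ((Y ^ n * v) * (galU σ Y)⁻¹))⁻¹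
    have h3 : z ^ (r * galExp p σ * (galExp p σ - 1)) = W ^ p := by
      rw [hy2, pow_add, mul_comm r (galExp p σ)] at h1
      rw [inv_pow, mul_pow, eq_inv_iff_mul_eq_one, mul_comm r (galExp p σ)]
      apply mul_left_cancel (a := z ^ (galExp p σ * r))
      rw [mul_one]
      conv_rhs => rw [h1]
      simp [mul_assoc]
    have h4 := natCast_eq_zero_of_toInteger_pow_eq hζ h5 (x := (W : 𝓞 K))
      (by rw [← hz, ← Units.val_pow_eq_pow_val, h3, Units.val_pow_eq_pow_val])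
    have : 1 ≤ galExp p σ := one_le_galExp σ
    push_cast [Nat.cast_sub this, hσ] at h4
    simp only [Units.val_mk0] at h4
    have h2 := natCast_two_ne_zero (p := p) (by omega)
    have h4' : (r : ZMod p) * 2 = 0 := by linear_combination h4
    exact (mul_eq_zero.1 h4').resolve_right h2
  obtain ⟨r', rfl⟩ := (ZMod.natCast_eq_zero_iff _ _).1 hrr
  exact ⟨Y * z ^ r', by rw [hu', mul_pow Y (z ^ r') p, ← pow_mul z r' p, mul_comm r' p]⟩

end Fermat.Agent.ExtVanish
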