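import Mathlib.NumberTheory.NumberField.Cyclotomic.Ideal
import Mathlib.NumberTheory.NumberField.Cyclotomic.Galois
import Mathlib.Algebra.DualNumber
import Mathlib.FieldTheory.Finite.Basic

/-!
# A second order logarithmic derivative on the integers of `ℚ(ζ_p)`

The ring map `𝓞 K → F_p[ε][δ]`, `ζ ↦ (1+ε)(1+δ)` is the second order jet of `ζ = exp t` at the
prime over `p`. The `εδ`-coefficient `D` of its logarithm is additive on elements prime to `p`,
kills `p`-th powers, and transforms under `σ_a` by `a ^ 2`.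
-/

noncomputable section

open NumberField TrivSqZeroExt Polynomial

namespace Fermat.Agent.ExtVanish

/-- The ring of second order jets `F_p[ε][δ]`. -/
abbrev Jet (p : ℕ) : Type := DualNumber (DualNumber (ZMod p))

variable {p : ℕ} [hp : Fact p.Prime]

/-- The constant term of a jet. -/
def cst (x : Jet p) : ZMod p := x.fst.fst

/-- The `ε` coefficient of a jet. -/
def cEps (x : Jet p) : ZMod p := x.fst.snd

/-- The `δ` coefficient of a jet. -/
def cDel (x : Jet p) : ZMod p := x.snd.fst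

/-- The `εδ` coefficient of a jet. -/
def cTop (x : Jet p) : ZMod p := x.snd.snd

omit hp in
/-- A jet is determined by its four coefficients. -/
lemma jet_ext {x y : Jet p} (h₁ : cst x = cst y) (h₂ : cEps x = cEps y) (h₃ : cDel x = cDel y)
    (h₄ : cTop x = cTop y) : x = y :=
  TrivSqZeroExt.ext (TrivSqZeroExt.ext h₁ h₂) (TrivSqZeroExt.ext h₃ h₄)

/-- The constant term is multiplicative. -/
lemma cst_mul (x y : Jet p) : cst (x * y) = cst x * cst y := by
  simp [cst]

/-- The product rule for the `ε`-coefficient. -/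
lemma cEps_mul (x y : Jet p) : cEps (x * y) = cst x * cEps y + cEps x * cst y := by
  simp [cst, cEps]

/-- The product rule for the `δ`-coefficient. -/
lemma cDel_mul (x y : Jet p) : cDel (x * y) = cst x * cDel y + cDel x * cst y := by
  simp [cst, cDel]

/-- The product rule for the `εδ`-coefficient. -/
lemma cTop_mul (x y : Jet p) :
    cTop (x * y) = cst x * cTop y + cEps x * cDel y + cTop x * cst y + cDel x * cEps y := by
  simp [cst, cEps, cDel, cTop]
  ring

/-- The coefficients of one. -/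
lemma comps_one : cst (1 : Jet p) = 1 ∧ cEps (1 : Jet p) = 0 ∧ cDel (1 : Jet p) = 0 ∧
    cTop (1 : Jet p) = 0 := by
  simp [cst, cEps, cDel, cTop]

/-- The second order jet of `exp t`. -/
def expJet (p : ℕ) : Jet p := inl (inl 1 + inr 1) + inr (inl 1 + inr 1)

/-- The coefficients of `expJet`. -/
lemma comps_expJet : cst (expJet p) = 1 ∧ cEps (expJet p) = 1 ∧ cDel (expJet p) = 1 ∧
    cTop (expJet p) = 1 := by
  simp [cst, cEps, cDel, cTop, expJet]

/-- The coefficients of the powers of `expJet`. -/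
lemma comps_expJet_pow (i : ℕ) : cst (expJet p ^ i) = 1 ∧ cEps (expJet p ^ i) = i ∧
    cDel (expJet p ^ i) = i ∧ cTop (expJet p ^ i) = (i : ZMod p) ^ 2 := by
  induction i with
  | zero => simp [comps_one]
  | succ n ih =>
    obtain ⟨h1, h2, h3, h4⟩ := ih
    obtain ⟨e1, e2, e3, e4⟩ := comps_expJet (p := p)
    rw [pow_succ, cst_mul, cEps_mul, cDel_mul, cTop_mul, h1, h2, h3, h4, e1, e2, e3, e4]
    refine ⟨?_, ?_, ?_, ?_⟩ <;> push_cast <;> ring

/-- The power sums of exponent less than `p - 1` vanish in `ZMod p`. -/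
lemma sum_range_pow_eq_zero {j : ℕ} (hj : j < p - 1) :
    ∑ i ∈ Finset.range p, (i : ZMod p) ^ j = 0 := by
  have h := FiniteField.sum_pow_lt_card_sub_one (K := ZMod p) j (by simpa [ZMod.card] using hj)
  rw [← h]
  exact Finset.sum_nbij' (fun i => (i : ZMod p)) (fun x => x.val)
    (fun i _ => Finset.mem_univ _) (fun x _ => Finset.mem_range.2 x.val_lt)
    (fun i hi => ZMod.val_cast_of_lt (Finset.mem_range.1 hi))
    (fun x _ => ZMod.natCast_zmod_val x) (fun i _ => rfl)

/-- The jet of `exp` is a root of the `p`-th cyclotomic polynomial. -/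
lemma aeval_expJet_cyclotomic (h5 : 5 ≤ p) : aeval (expJet p) (cyclotomic p ℤ) = 0 := by
  rw [cyclotomic_prime]
  simp only [map_sum, map_pow, aeval_X]
  have hc : ∀ (f : Jet p → ZMod p), (∀ x y, f (x + y) = f x + f y) → f 0 = 0 →
      f (∑ i ∈ Finset.range p, expJet p ^ i) = ∑ i ∈ Finset.range p, f (expJet p ^ i) :=
    fun f ha h0 => map_sum (AddMonoidHom.mk ⟨f, h0⟩ ha) _ _
  refine jet_ext ?_ ?_ ?_ ?_
  · rw [hc cst (by simp [cst]) (by simp [cst])]
    simp [comps_expJet_pow]
    simp [cst]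
  · rw [hc cEps (by simp [cEps]) (by simp [cEps])]
    have := sum_range_pow_eq_zero (p := p) (j := 1) (by omega)
    simp only [pow_one] at this
    simp [comps_expJet_pow, this]
    simp [cEps]
  · rw [hc cDel (by simp [cDel]) (by simp [cDel])]
    have := sum_range_pow_eq_zero (p := p) (j := 1) (by omega)
    simp only [pow_one] at this
    simp [comps_expJet_pow, this]
    simp [cDel]
  · rw [hc cTop (by simp [cTop]) (by simp [cTop])]
    have := sum_range_pow_eq_zero (p := p) (j := 2) (by omega)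
    simp [comps_expJet_pow, this]
    simp [cTop]

/-- The logarithmic `εδ`-coefficient of a jet. -/
def jetLog (x : Jet p) : ZMod p := cTop x / cst x - cEps x * cDel x / cst x ^ 2

/-- `jetLog` turns products of jets with nonzero constant term into sums. -/
lemma jetLog_mul {x y : Jet p} (hx : cst x ≠ 0) (hy : cst y ≠ 0) :
    jetLog (x * y) = jetLog x + jetLog y := by
  simp only [jetLog, cst_mul, cEps_mul, cDel_mul, cTop_mul]
  field_simp
  ring

/-- The constant term of a power. -/
lemma cst_pow (x : Jet p) (n : ℕ) : cst (x ^ n) = cst x ^ n := by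
  induction n with
  | zero => simp [comps_one]
  | succ n ih => rw [pow_succ, cst_mul, ih, pow_succ]

lemma jetLog_pow {x : Jet p} (hx : cst x ≠ 0) (n : ℕ) : jetLog (x ^ n) = n * jetLog x := by
  induction n with
  | zero => simp [jetLog, comps_one]
  | succ n ih =>
    rw [pow_succ, jetLog_mul (by rw [cst_pow]; exact pow_ne_zero _ hx) hx, ih]
    push_cast; ring

lemma jetLog_prod {ι : Type*} (s : Finset ι) (f : ι → Jet p) (hf : ∀ i ∈ s, cst (f i) ≠ 0) :
    jetLog (∏ i ∈ s, f i) = ∑ i ∈ s, jetLog (f i) ∧ cst (∏ i ∈ s, f i) ≠ 0 := by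
  classical
  induction s using Finset.induction_on with
  | empty => simp [jetLog, comps_one]
  | insert a s ha ih =>
    obtain ⟨h1, h2⟩ := ih fun i hi => hf i (Finset.mem_insert_of_mem hi)
    have h3 := hf a (Finset.mem_insert_self a s)
    rw [Finset.prod_insert ha, Finset.sum_insert ha, jetLog_mul h3 h2, h1, cst_mul]
    exact ⟨rfl, mul_ne_zero h3 h2⟩

/-- Two is invertible modulo an odd prime. -/
lemma natCast_two_ne_zero (h3 : 3 ≤ p) : (2 : ZMod p) ≠ 0 := by
  intro h
  have h' : ((2 : ℕ) : ZMod p) = 0 := by exact_mod_cast h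
  rw [ZMod.natCast_eq_zero_iff] at h'
  exact absurd (Nat.le_of_dvd two_pos h') (by omega)

section Cyclotomic

variable {K : Type*} [Field K] [NumberField K] [IsCyclotomicExtension {p} ℚ K]
variable {ζ : K} (hζ : IsPrimitiveRoot ζ p)

lemma adjoin_toInteger_eq_top : Algebra.adjoin ℤ {hζ.toInteger} = ⊤ := by
  rw [← IsPrimitiveRoot.integralPowerBasis_gen hζ]
  exact PowerBasis.adjoin_gen_eq_top _

omit [IsCyclotomicExtension {p} ℚ K] in
lemma minpoly_toInteger : minpoly ℤ hζ.toInteger = cyclotomic p ℤ := by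
  rw [← NumberField.RingOfIntegers.minpoly_coe]
  exact (cyclotomic_eq_minpoly hζ hp.out.pos).symm

/-- The second order jet map on the integers of `ℚ(ζ_p)`. -/
def jetHom (h5 : 5 ≤ p) : 𝓞 K →+* Jet p :=
  ((IsPrimitiveRoot.integralPowerBasis hζ).lift (expJet p) (by
    rw [IsPrimitiveRoot.integralPowerBasis_gen, minpoly_toInteger hζ,
      aeval_expJet_cyclotomic h5])).toRingHom

variable {h5 : 5 ≤ p}

/-- The jet of `ζ` is `expJet`. -/
lemma jetHom_toInteger : jetHom hζ h5 hζ.toInteger = expJet p := by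
  simp only [jetHom, AlgHom.toRingHom_eq_coe, RingHom.coe_coe]
  conv_lhs => arg 2; rw [← IsPrimitiveRoot.integralPowerBasis_gen hζ]
  exact PowerBasis.lift_gen _ _ _

variable (h5)

/-- The second order logarithmic derivative at the prime over `p`. -/
def dlog (x : 𝓞 K) : ZMod p := jetLog (jetHom hζ h5 x)

/-- `x` is prime to `p`. -/
def AwayP (x : 𝓞 K) : Prop := cst (jetHom hζ h5 x) ≠ 0

variable {h5}

/-- `dlog` is additive on elements away from `p`. -/
lemma dlog_mul {x y : 𝓞 K} (hx : AwayP hζ h5 x) (hy : AwayP hζ h5 y) :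
    dlog hζ h5 (x * y) = dlog hζ h5 x + dlog hζ h5 y := by
  rw [dlog, map_mul]; exact jetLog_mul hx hy

/-- A product is away from `p` exactly when both factors are. -/
lemma awayP_mul {x y : 𝓞 K} : AwayP hζ h5 (x * y) ↔ AwayP hζ h5 x ∧ AwayP hζ h5 y := by
  rw [AwayP, map_mul, cst_mul, mul_ne_zero_iff]; rfl

/-- Units are away from `p`. -/
lemma awayP_of_isUnit {x : 𝓞 K} (hx : IsUnit x) : AwayP hζ h5 x := by
  obtain ⟨u, rfl⟩ := hx
  have h := congrArg (fun z => cst (jetHom hζ h5 z)) u.mul_inv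
  simp only [map_mul, map_one, cst_mul, comps_one] at h
  exact left_ne_zero_of_mul_eq_one h

/-- `dlog` of a power. -/
lemma dlog_pow {x : 𝓞 K} (hx : AwayP hζ h5 x) (n : ℕ) :
    dlog hζ h5 (x ^ n) = n * dlog hζ h5 x := by
  rw [dlog, map_pow]; exact jetLog_pow hx n

/-- Powers of elements away from `p` are away from `p`. -/
lemma awayP_pow {x : 𝓞 K} (hx : AwayP hζ h5 x) (n : ℕ) : AwayP hζ h5 (x ^ n) := by
  rw [AwayP, map_pow, cst_pow]; exact pow_ne_zero _ hx

/-- `dlog` vanishes on `p`-th powers. -/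
lemma dlog_pow_self {x : 𝓞 K} (hx : AwayP hζ h5 x) : dlog hζ h5 (x ^ p) = 0 := by
  simp [dlog_pow hζ hx]

/-- `dlog` of a product. -/
lemma dlog_prod {ι : Type*} (s : Finset ι) (f : ι → 𝓞 K) (hf : ∀ i ∈ s, AwayP hζ h5 (f i)) :
    dlog hζ h5 (∏ i ∈ s, f i) = ∑ i ∈ s, dlog hζ h5 (f i) := by
  rw [dlog, map_prod]; exact (jetLog_prod s _ hf).1

/-- `dlog` vanishes on `ζ`. -/
lemma dlog_toInteger : dlog hζ h5 hζ.toInteger = 0 := by
  simp [dlog, jetLog, jetHom_toInteger, comps_expJet]

/-- `1 + ζ` is away from `p`. -/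
lemma awayP_one_add : AwayP hζ h5 (1 + hζ.toInteger) := by
  simp only [AwayP, map_add, map_one, jetHom_toInteger]
  simp only [cst, fst_add, fst_one, expJet, fst_inl, fst_inr, add_zero]
  exact fun h => natCast_two_ne_zero (p := p) (by omega) (by linear_combination h)

/-- The value of `dlog` at the cyclotomic unit `1 + ζ`. -/
lemma dlog_one_add : dlog hζ h5 (1 + hζ.toInteger) = 1 / 4 := by
  have h2 : (2 : ZMod p) ≠ 0 := natCast_two_ne_zero (by omega)
  have h4 : (4 : ZMod p) ≠ 0 := by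
    rw [show (4 : ZMod p) = 2 * 2 by norm_num]; exact mul_ne_zero h2 h2
  simp only [dlog, map_add, map_one, jetHom_toInteger]
  simp [jetLog, cst, cEps, cDel, cTop, expJet]
  norm_num
  field_simp
  ring

lemma comps_jetHom_gal {σ : Gal(K/ℚ)} {a : ℕ} (ha : σ • hζ.toInteger = hζ.toInteger ^ a)
    (x : 𝓞 K) :
    cst (jetHom hζ h5 (σ • x)) = cst (jetHom hζ h5 x) ∧
    cEps (jetHom hζ h5 (σ • x)) = a * cEps (jetHom hζ h5 x) ∧
    cDel (jetHom hζ h5 (σ • x)) = a * cDel (jetHom hζ h5 x) ∧
    cTop (jetHom hζ h5 (σ • x)) = (a : ZMod p) ^ 2 * cTop (jetHom hζ h5 x) := by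
  have hx : x ∈ Algebra.adjoin ℤ {hζ.toInteger} := by
    rw [adjoin_toInteger_eq_top]; exact Algebra.mem_top
  induction hx using Algebra.adjoin_induction with
  | mem y hy =>
    rw [Set.mem_singleton_iff] at hy
    subst hy
    simp [ha, jetHom_toInteger, comps_expJet, comps_expJet_pow]
  | algebraMap n =>
    have hn : σ • (n : 𝓞 K) = (n : 𝓞 K) :=
      map_intCast (MulSemiringAction.toRingHom Gal(K/ℚ) (𝓞 K) σ) n
    simp [hn, cst, cEps, cDel, cTop, ← TrivSqZeroExt.inl_intCast]
  | add y z _ _ hy hz =>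
    obtain ⟨a1, a2, a3, a4⟩ := hy
    obtain ⟨b1, b2, b3, b4⟩ := hz
    simp only [cst, cEps, cDel, cTop] at *
    simp only [smul_add, map_add, fst_add, snd_add, a1, a2, a3, a4, b1, b2, b3, b4]
    exact ⟨trivial, by ring, by ring, by ring⟩
  | mul y z _ _ hy hz =>
    obtain ⟨a1, a2, a3, a4⟩ := hy
    obtain ⟨b1, b2, b3, b4⟩ := hz
    simp only [smul_mul', map_mul, cst_mul, cEps_mul, cDel_mul, cTop_mul, a1, a2, a3, a4,
      b1, b2, b3, b4]
    exact ⟨trivial, by ring, by ring, by ring⟩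

/-- Being away from `p` is Galois invariant. -/
lemma awayP_gal {σ : Gal(K/ℚ)} {a : ℕ} (ha : σ • hζ.toInteger = hζ.toInteger ^ a) {x : 𝓞 K}
    (hx : AwayP hζ h5 x) : AwayP hζ h5 (σ • x) := by
  rw [AwayP, (comps_jetHom_gal hζ ha x).1]; exact hx

/-- `dlog` transforms under Galois by the square of the cyclotomic character. -/
lemma dlog_gal {σ : Gal(K/ℚ)} {a : ℕ} (ha : σ • hζ.toInteger = hζ.toInteger ^ a) (x : 𝓞 K) :
    dlog hζ h5 (σ • x) = (a : ZMod p) ^ 2 * dlog hζ h5 x := by
  obtain ⟨h1, h2, h3, h4⟩ := comps_jetHom_gal (h5 := h5) hζ ha x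
  simp only [dlog, jetLog, h1, h2, h3, h4]
  ring

end Cyclotomic

end Fermat.Agent.ExtVanish
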